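import Fermat.Agent.S43.Engine
import Fermat.Agent.S44
import Fermat.Agent.S07
import Fermat.Agent.S58.Descent

/-!
# PROJECT R (row 37 by S43), ASSEMBLY, file 1: `ENGINE` from the two exports (helper8, chief R)

Steps A0, A1 and the bookkeeping of the spine map (cut v1, board #6074):

* `modularRepOfLevel_of_dvd` : going up (`S58/Descent.exists_eigenform_of_dvd` on main);
* `not_modularRepOfLevel_of_dvd_two` : no Frey package is modular of level `1` or `2` (S07 on main);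
  hence the conclusion of `ENGINE` is always reached by contradiction: **`ENGINE` is equivalent to
  "an irreducible Frey representation is not modular of any conductor level"**;
* `IsStuck P ℓ` : `ℓ ≡ 1 mod p` and `ρ̄(Frob_ℓ)` a scalar (`FrobScalar`);
* `MazurFrey` : the export of block T1 (consumer 1: Mazur's principle at a NON-stuck odd `ℓ ≠ p`);
* `StuckStep` : the export of the spine (blocks RB, RS, L0-L4, NUM, PATCH, LOC, exit N6): a conductor
  level `N ≠ 2`, `p ∤ N`, `2 ∣ N`, every odd prime of `N` stuck : modular of level `N` implies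
  modular of level `N / ℓ` for one odd prime `ℓ ∣ N`;
* `engine_of : MazurFrey → StuckStep → ENGINE` (strong induction, one prime per round).
-/

set_option autoImplicit false
open WeierstrassCurve WeierstrassCurve.Affine WeierstrassCurve.Affine.Point
open CuspForm ModularFormClass UpperHalfPlane
open FreyPackage

namespace Fermat.Agent.S43.Assembly.Reduce

open Fermat.Agent.S43.Engine

/-- **Going up**: modular of level `M`, `M ∣ R`, `R ≠ 0` : modular of level `R`. -/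
theorem modularRepOfLevel_of_dvd (P : FreyPackage) {M R : ℕ} (hR : R ≠ 0) (h : M ∣ R)
    (hM : P.ModularRepOfLevel M) : P.ModularRepOfLevel R := by
  obtain ⟨g, W, 𝔪, hg, hW, hmax, hp, hcong⟩ := hM
  haveI : NeZero R := ⟨hR⟩
  obtain ⟨f, hf, hfg⟩ := Fermat.Agent.S58.Descent.exists_eigenform_of_dvd h hg
  refine ⟨f, W, 𝔪, hf, hW, hmax, hp, fun ℓ hℓ hgood hℓR hℓp => ?_⟩
  obtain ⟨a, ha, ham⟩ := hcong ℓ hℓ hgood (fun hℓM => hℓR (hℓM.trans h)) hℓp
  exact ⟨a, by rw [ha, hfg ℓ hℓ hℓR], ham⟩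

/-- no Frey package is modular of a level dividing `2` (S07: `S₂(Γ₀(2)) = 0`) -/
theorem not_modularRepOfLevel_of_dvd_two (P : FreyPackage) {M : ℕ} (hM : M ∣ 2) :
    ¬ P.ModularRepOfLevel M := by
  intro h
  obtain ⟨f, -, -, hf, -⟩ := modularRepOfLevel_of_dvd P two_ne_zero hM h
  exact hf.ne_zero (Fermat.Agent.S07.result f)

/-- **`ρ̄(Frob_ℓ)` is a scalar**: every Frobenius element at every place over `ℓ` acts on `E[p]` as
a scalar.  (For the Frey curve at an odd `ℓ ∣ N`, `ℓ ≠ p`, the scalar is `± 1` and `ℓ ≡ 1 mod p`.) -/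
def FrobScalar (P : FreyPackage) (ℓ : ℕ) : Prop :=
  ∀ A : ValuationSubring (AlgebraicClosure ℚ), A.LiesOverPrime ℓ →
    ∀ σ : AlgebraicClosure ℚ ≃ₐ[ℚ] AlgebraicClosure ℚ, A.IsFrobeniusAt σ ℓ →
      ∃ c : ℤ, ∀ x : Submodule.torsionBy ℤ (P.freyCurve⁄(AlgebraicClosure ℚ)).Point P.p,
        σ • x = c • x

/-- **`ℓ` is stuck** : `ℓ ≡ 1 mod p` and `ρ̄(Frob_ℓ)` is a scalar (helper21 #6092, helper22 A3). -/
def IsStuck (P : FreyPackage) (ℓ : ℕ) : Prop :=
  P.p ∣ ℓ - 1 ∧ FrobScalar P ℓ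

/-- **The export of block T1, consumer 1** (Mazur's principle at a NON-stuck odd prime `ℓ ≠ p`:
`ℓ ≢ 1 mod p` or `ρ̄(Frob_ℓ)` not a scalar). -/
def MazurFrey : Prop :=
  ∀ (P : FreyPackage) (N ℓ : ℕ), P.IsConductorLevel N → ℓ.Prime → ℓ ≠ 2 → ℓ ≠ P.p → ℓ ∣ N →
    ¬ IsStuck P ℓ →
    GaloisRepIsIrreducible (K := AlgebraicClosure ℚ) ℚ P.freyCurve P.p →
    P.ModularRepOfLevel N → P.ModularRepOfLevel (N / ℓ)

/-- **The export of the spine** (blocks RB, RS, L0-L4, NUM, PATCH, LOC + the exit N6 = T1 consumer 2):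
a conductor level `N ≠ 2`, `p ∤ N`, `2 ∣ N`, every odd prime of `N` stuck : modular of level `N`
implies modular of level `N / ℓ` for ONE odd prime `ℓ ∣ N` (the patched point is forgotten; the
next round re-runs at level `N / ℓ` : helper22 A2, helper1 #6068). -/
def StuckStep : Prop :=
  ∀ (P : FreyPackage) (N : ℕ), P.IsConductorLevel N → ¬ P.p ∣ N → 2 ∣ N → N ≠ 2 →
    (∀ ℓ : ℕ, ℓ.Prime → ℓ ∣ N → ℓ ≠ 2 → IsStuck P ℓ) →
    GaloisRepIsIrreducible (K := AlgebraicClosure ℚ) ℚ P.freyCurve P.p →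
    P.ModularRepOfLevel N → ∃ ℓ : ℕ, ℓ.Prime ∧ ℓ ≠ 2 ∧ ℓ ∣ N ∧ P.ModularRepOfLevel (N / ℓ)

/-- `2 ∣ abc` for a Frey package -/
theorem two_dvd_abc (P : FreyPackage) : ((2 : ℕ) : ℤ) ∣ P.a * P.b * P.c := by
  have hb : (2 : ℤ) ∣ P.b := (ZMod.intCast_zmod_eq_zero_iff_dvd P.b 2).mp P.hb2
  exact Dvd.dvd.mul_right (Dvd.dvd.mul_left (by exact_mod_cast hb) P.a) P.c

/-- A1: all non-stuck odd primes are removed, one at a time. -/
theorem exists_stuck_level (hT1 : MazurFrey) (P : FreyPackage)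
    (hirr : GaloisRepIsIrreducible (K := AlgebraicClosure ℚ) ℚ P.freyCurve P.p) :
    ∀ N : ℕ, P.IsConductorLevel N → ¬ P.p ∣ N → P.ModularRepOfLevel N →
      ∃ N' : ℕ, N' ∣ N ∧ P.IsConductorLevel N' ∧ P.ModularRepOfLevel N' ∧
        ∀ ℓ : ℕ, ℓ.Prime → ℓ ∣ N' → ℓ ≠ 2 → IsStuck P ℓ := by
  intro N
  induction N using Nat.strong_induction_on with
  | _ N ih =>
    intro hcond hpN hmod
    by_cases hall : ∀ ℓ : ℕ, ℓ.Prime → ℓ ∣ N → ℓ ≠ 2 → IsStuck P ℓ
    · exact ⟨N, dvd_rfl, hcond, hmod, hall⟩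
    · push Not at hall
      obtain ⟨ℓ, hℓ, hℓN, hℓ2, hℓp⟩ := hall
      have hℓne : ℓ ≠ P.p := fun h => hpN (h ▸ hℓN)
      have hmod' := hT1 P N ℓ hcond hℓ hℓ2 hℓne hℓN hℓp hirr hmod
      have hdvd : N / ℓ ∣ N := Nat.div_dvd_of_dvd hℓN
      have hpos : 0 < N / ℓ := Nat.div_pos (Nat.le_of_dvd hcond.pos hℓN) hℓ.pos
      have hlt : N / ℓ < N := Nat.div_lt_self hcond.pos hℓ.one_lt
      obtain ⟨N', hN', hc', hm', hall'⟩ := ih (N / ℓ) hlt (hcond.of_dvd hdvd hpos)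
        (fun h => hpN (h.trans hdvd)) hmod'
      exact ⟨N', hN'.trans hdvd, hc', hm', hall'⟩

/-- the stuck class: no level in it is modular (strong induction, one stuck prime per round) -/
theorem not_modularRepOfLevel_of_stuck (hcore : StuckStep) (P : FreyPackage)
    (hirr : GaloisRepIsIrreducible (K := AlgebraicClosure ℚ) ℚ P.freyCurve P.p) :
    ∀ N : ℕ, P.IsConductorLevel N → ¬ P.p ∣ N → 2 ∣ N →
      (∀ ℓ : ℕ, ℓ.Prime → ℓ ∣ N → ℓ ≠ 2 → IsStuck P ℓ) → ¬ P.ModularRepOfLevel N := by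
  intro N
  induction N using Nat.strong_induction_on with
  | _ N ih =>
    intro hcond hpN h2N hstuck hmod
    by_cases hN2 : N = 2
    · exact not_modularRepOfLevel_of_dvd_two P (hN2 ▸ dvd_rfl) hmod
    · obtain ⟨ℓ, hℓ, hℓ2, hℓN, hmod'⟩ := hcore P N hcond hpN h2N hN2 hstuck hirr hmod
      have hdvd : N / ℓ ∣ N := Nat.div_dvd_of_dvd hℓN
      have hpos : 0 < N / ℓ := Nat.div_pos (Nat.le_of_dvd hcond.pos hℓN) hℓ.pos
      have hlt : N / ℓ < N := Nat.div_lt_self hcond.pos hℓ.one_lt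
      have h2 : 2 ∣ N / ℓ := by
        obtain ⟨c, hc⟩ := hℓN
        rw [hc, Nat.mul_div_cancel_left c hℓ.pos]
        have h2' : 2 ∣ ℓ * c := hc ▸ h2N
        rcases (Nat.Prime.dvd_mul Nat.prime_two).mp h2' with h | h
        · exact absurd ((Nat.prime_dvd_prime_iff_eq Nat.prime_two hℓ).mp h).symm hℓ2
        · exact h
      exact ih (N / ℓ) hlt (hcond.of_dvd hdvd hpos) (fun h => hpN (h.trans hdvd)) h2
        (fun q hq hqN hq2 => hstuck q hq (hqN.trans hdvd) hq2) hmod'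

/-- **An irreducible Frey representation is not modular of any conductor level**, from the two
exports. -/
theorem not_modularRepOfLevel (hT1 : MazurFrey) (hcore : StuckStep) (P : FreyPackage) {N : ℕ}
    (hcond : P.IsConductorLevel N)
    (hirr : GaloisRepIsIrreducible (K := AlgebraicClosure ℚ) ℚ P.freyCurve P.p) :
    ¬ P.ModularRepOfLevel N := by
  intro hmod
  -- A0 : remove `p`
  obtain ⟨N₁, hN₁N, hpN₁, hmod₁⟩ : ∃ N₁ : ℕ, N₁ ∣ N ∧ ¬ P.p ∣ N₁ ∧ P.ModularRepOfLevel N₁ := by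
    by_cases hpN : P.p ∣ N
    · exact Fermat.Agent.S44.result P hcond hpN hirr hmod
    · exact ⟨N, dvd_rfl, hpN, hmod⟩
  have hN₁pos : 0 < N₁ := Nat.pos_of_dvd_of_pos hN₁N hcond.pos
  have hcond₁ : P.IsConductorLevel N₁ := hcond.of_dvd hN₁N hN₁pos
  -- A1 : remove the non-stuck primes
  obtain ⟨N₂, hN₂N₁, hcond₂, hmod₂, hstuck⟩ :=
    exists_stuck_level hT1 P hirr N₁ hcond₁ hpN₁ hmod₁
  have hpN₂ : ¬ P.p ∣ N₂ := fun h => hpN₁ (h.trans hN₂N₁)
  -- WLOG `2 ∣ N₂`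
  obtain ⟨N₃, hcond₃, hpN₃, h2N₃, hmod₃, hstuck₃⟩ : ∃ N₃ : ℕ, P.IsConductorLevel N₃ ∧
      ¬ P.p ∣ N₃ ∧ 2 ∣ N₃ ∧ P.ModularRepOfLevel N₃ ∧
      ∀ ℓ : ℕ, ℓ.Prime → ℓ ∣ N₃ → ℓ ≠ 2 → IsStuck P ℓ := by
    by_cases h2 : 2 ∣ N₂
    · exact ⟨N₂, hcond₂, hpN₂, h2, hmod₂, hstuck⟩
    · have hcop : Nat.Coprime 2 N₂ := (Nat.Prime.coprime_iff_not_dvd Nat.prime_two).mpr h2
      have hpos : 0 < 2 * N₂ := Nat.mul_pos two_pos hcond₂.pos
      refine ⟨2 * N₂, ⟨hpos, ?_, ?_⟩, ?_, Dvd.intro _ rfl,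
        modularRepOfLevel_of_dvd P hpos.ne' (Dvd.intro_left 2 rfl) hmod₂, ?_⟩
      · exact (Nat.squarefree_mul hcop).mpr ⟨Nat.prime_two.squarefree, hcond₂.squarefree⟩
      · intro q hq hqN
        rcases (Nat.Prime.dvd_mul hq).mp hqN with hq2 | hqN₂
        · rw [(Nat.prime_dvd_prime_iff_eq hq Nat.prime_two).mp hq2]
          exact two_dvd_abc P
        · exact hcond₂.support q hq hqN₂
      · intro hp
        rcases (Nat.Prime.dvd_mul P.pp).mp hp with hp2 | hpN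
        · have := (Nat.prime_dvd_prime_iff_eq P.pp Nat.prime_two).mp hp2
          have := P.hp5
          omega
        · exact hpN₂ hpN
      · intro ℓ hℓ hℓN hℓ2
        rcases (Nat.Prime.dvd_mul hℓ).mp hℓN with h | h
        · exact absurd ((Nat.prime_dvd_prime_iff_eq hℓ Nat.prime_two).mp h) hℓ2
        · exact hstuck ℓ hℓ h hℓ2
  -- the spine
  exact not_modularRepOfLevel_of_stuck hcore P hirr N₃ hcond₃ hpN₃ h2N₃ hstuck₃ hmod₃

/-- **`ENGINE` from the two exports.** -/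
theorem engine_of (hT1 : MazurFrey) (hcore : StuckStep) : ENGINE :=
  fun P _ hcond hirr hmod => absurd hmod (not_modularRepOfLevel hT1 hcore P hcond hirr)

end Fermat.Agent.S43.Assembly.Reduce
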