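/-
PROJECT R (S43, row 37), ASSEMBLY, file 3: `SETUP`, part B (helper8, chief R).

THE COEFFICIENT RING AND THE PARAMETERS OF THE LOCAL MODEL, chosen once.

* `exists_coeff` : `Coeff/Ring.exists_coeffRing` + a uniformiser `π` + a unit `ζ` with `ζ ^ p = 1`,
  `ζ ^ 2 ≠ 1` + `IsUnit 2`;
* `dPar h2 u = (u - u⁻¹) / 2`, `ePar h2 u = dPar h2 u ^ 2`, `tauPar h2 u = (u + u⁻¹) / 2` : the
  normalisation of `RSide/LocalData.chi_htr` (`2 τ = ζ + ζ⁻¹`) and of `Local/Universal.exists_theta`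
  (`τ ^ 2 = 1 + e`) : `two_mul_tauPar`, `tauPar_sq` ;
* `params` : the hypotheses of `RSide/Spine.exists_prime_T0` / `RSide/FeedT.nonempty_datumJ_T` on
  `e i = ePar h2 ζ`, `d i = dPar h2 ζ`, `q i = ℓ i` (`ℓ i ≡ 1 mod p`), from `Local/Params`;
* `relIdeal_ne_top` : `h1top`, `hχtop` of `FeedT`.
-/
import Fermat.Agent.S43.Coeff.Ring
import Fermat.Agent.S43.Local.Params
import Fermat.Agent.S43.Local.ToPatch

set_option autoImplicit false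
set_option linter.unusedSectionVars false
set_option linter.style.haveILetI false

noncomputable section

namespace Fermat.Agent.S43.Assembly.Coeff

open IsLocalRing
open Fermat.Agent.S43.Local.Params Fermat.Agent.S43.Local.Model

/-! ### the half-difference and the half-sum of a unit and its inverse -/

section Half

variable {O : Type*} [CommRing O] (h2 : IsUnit (2 : O)) (u : Oˣ)

/-- `(u - u⁻¹) / 2` -/
def dPar : O := ((h2.unit⁻¹ : Oˣ) : O) * dOf u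

/-- `((u - u⁻¹) / 2) ^ 2` -/
def ePar : O := dPar h2 u ^ 2

/-- `(u + u⁻¹) / 2` -/
def tauPar : O := ((h2.unit⁻¹ : Oˣ) : O) * ((u : O) + ((u⁻¹ : Oˣ) : O))

theorem two_mul_half : (2 : O) * ((h2.unit⁻¹ : Oˣ) : O) = 1 := by
  have h := h2.unit.mul_inv
  rwa [IsUnit.unit_spec] at h

theorem two_mul_tauPar : 2 * tauPar h2 u = (u : O) + ((u⁻¹ : Oˣ) : O) := by
  rw [tauPar, ← mul_assoc, two_mul_half, one_mul]

theorem two_mul_dPar : 2 * dPar h2 u = dOf u := by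
  rw [dPar, ← mul_assoc, two_mul_half, one_mul]

theorem tauPar_sq : tauPar h2 u ^ 2 = 1 + ePar h2 u := by
  have h := two_mul_half h2
  have huv : (u : O) * ((u⁻¹ : Oˣ) : O) = 1 := Units.mul_inv u
  unfold ePar dPar tauPar dOf
  linear_combination ((u : O) * ((u⁻¹ : Oˣ) : O) * (2 * ((h2.unit⁻¹ : Oˣ) : O) + 1)) * h + huv

theorem ePar_eq : ePar h2 u = dPar h2 u ^ 2 := rfl

theorem dOf_sq_eq : dOf u ^ 2 = 4 * ePar h2 u := by
  rw [ePar, ← two_mul_dPar h2 u]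
  ring

theorem ePar_dvd_dOf_sq : ePar h2 u ∣ dOf u ^ 2 := ⟨4, by rw [dOf_sq_eq h2 u]; ring⟩

theorem dOf_sq_dvd_ePar : dOf u ^ 2 ∣ ePar h2 u := by
  refine ⟨((h2.unit⁻¹ : Oˣ) : O) ^ 2, ?_⟩
  rw [ePar, dPar]
  ring

end Half

/-! ### the parameters -/

section Params

variable {O : Type*} [CommRing O] [IsDomain O] [IsDiscreteValuationRing O]
  {p : ℕ} [hp : Fact p.Prime]

/-- **the hypotheses of `Spine.exists_prime_T0` / `FeedT.nonempty_datumJ_T` on the parameters**,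
for `d i = dPar h2 (u i)`, `e i = ePar h2 (u i)`, `q i = ℓ i`. -/
theorem params {ι : Type*} (hp2 : p ≠ 2) (hpm : (p : O) ∈ maximalIdeal O) {π : O}
    (hπO : maximalIdeal O = Ideal.span {π}) (h2 : IsUnit (2 : O)) (u : ι → Oˣ) (n : ι → ℕ)
    (hu : ∀ i, u i ^ p ^ n i = 1) (hu2 : ∀ i, u i ^ 2 ≠ 1) (ℓ : ι → ℕ)
    (hℓ : ∀ i, ((ℓ i : ℕ) : ZMod p) = 1) :
    Prime π ∧ (∀ i, ePar h2 (u i) = dPar h2 (u i) ^ 2) ∧ (∀ i, π ∣ dPar h2 (u i)) ∧
      (∀ i, π ∣ ePar h2 (u i)) ∧ (∀ i, ∃ N : ℕ, ePar h2 (u i) ∣ π ^ N) ∧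
      (∀ i, π ∣ ((ℓ i : ℕ) : O) - 1) := by
  obtain ⟨h1, -, h3, -, h5, h6⟩ :=
    Fermat.Agent.S43.Local.Params.params hp2 hpm hπO u n hu hu2 ℓ hℓ
  refine ⟨h1, fun i => rfl, fun i => ?_, fun i => ?_, fun i => ?_, h6⟩
  · exact Dvd.dvd.mul_left (h3 i) _
  · exact dvd_pow (Dvd.dvd.mul_left (h3 i) _) two_ne_zero
  · obtain ⟨N, hN⟩ := h5 i
    exact ⟨N, (ePar_dvd_dOf_sq h2 (u i)).trans hN⟩

/-- `h1top`, `hχtop` of `FeedT.nonempty_datumJ_T` -/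
theorem relIdeal_ne_top {ι κ : Type*} [Fintype ι] [Fintype κ] [IsNoetherianRing O]
    {π : O} (hπ : Prime π) (h2 : IsUnit (2 : O)) (e d q : ι → O) (hed : ∀ i, e i = d i ^ 2)
    (hd : ∀ i, π ∣ d i) :
    relIdeal O κ 0 q ≠ ⊤ ∧ relIdeal O κ e 1 ≠ ⊤ :=
  ⟨Fermat.Agent.S43.Local.ToPatch.relIdeal_zero_ne_top q,
    Fermat.Agent.S43.Local.ToPatch.relIdeal_one_ne_top π hπ h2 e d hed hd⟩

end Params

/-! ### the coefficient ring -/

/-- a primitive `p`-th root of unity, `p` odd, as a unit `ζ` with `ζ ^ p = 1`, `ζ ^ 2 ≠ 1` -/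
theorem exists_unit_of_primitiveRoot {O : Type*} [CommRing O] [IsDomain O] {p : ℕ} (hp : p.Prime)
    (hp2 : p ≠ 2) {ζ : O} (hζ : IsPrimitiveRoot ζ p) :
    ∃ u : Oˣ, (u : O) = ζ ∧ u ^ p = 1 ∧ u ^ 2 ≠ 1 := by
  have hu : IsUnit ζ := hζ.isUnit hp.ne_zero
  refine ⟨hu.unit, hu.unit_spec, ?_, ?_⟩
  · apply Units.ext
    rw [Units.val_pow_eq_pow_val, hu.unit_spec, hζ.pow_eq_one, Units.val_one]
  · intro h
    have h1 : ζ ^ 2 = 1 := by
      have := congrArg Units.val h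
      rwa [Units.val_pow_eq_pow_val, hu.unit_spec, Units.val_one] at this
    have h2 : p ∣ 2 := hζ.dvd_of_pow_eq_one 2 h1
    have h3 : p ≤ 2 := Nat.le_of_dvd (by norm_num) h2
    have h4 : 2 ≤ p := hp.two_le
    omega

/-- **THE COEFFICIENT RING WITH ITS UNIFORMISER AND ITS ROOT OF UNITY.** -/
theorem exists_coeff (p : ℕ) [Fact p.Prime] (hp2 : p ≠ 2) :
    ∃ (O : Type) (_ : CommRing O) (_ : IsDomain O) (_ : IsDiscreteValuationRing O)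
      (_ : IsAdicComplete (maximalIdeal O) O) (_ : Finite (ResidueField O)) (_ : CharZero O)
      (_ : Algebra ℤ_[p] O) (_ : Module.Finite ℤ_[p] O) (_ : IsLocalHom (algebraMap ℤ_[p] O)),
      Function.Injective (algebraMap ℤ_[p] O) ∧ (p : O) ∈ maximalIdeal O ∧
      Fermat.Agent.S43.Coeff.Ring.QuadSplit (ResidueField O) ∧ IsUnit (2 : O) ∧
      ∃ (π : O) (ζ : Oˣ), Prime π ∧ maximalIdeal O = Ideal.span {π} ∧
        IsPrimitiveRoot (ζ : O) p ∧ ζ ^ p = 1 ∧ ζ ^ 2 ≠ 1 := by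
  obtain ⟨O, i1, i2, i3, i4, i5, i6, i7, i8, i9, hinj, hpm, ⟨ζ, hζ⟩, hk⟩ :=
    Fermat.Agent.S43.Coeff.Ring.exists_coeffRing p
  obtain ⟨π, hπ, hπO⟩ := exists_uniformizer O
  obtain ⟨u, hu, hup, hu2⟩ := exists_unit_of_primitiveRoot (Fact.out : p.Prime) hp2 hζ
  exact ⟨O, i1, i2, i3, i4, i5, i6, i7, i8, i9, hinj, hpm, hk, isUnit_two hp2 hpm, π, u, hπ, hπO,
    hu ▸ hζ, hup, hu2⟩

end Fermat.Agent.S43.Assembly.Coeff
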