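/-
PROJECT R (S43, row 37), ASSEMBLY, file `LevelDefs` (helper8, chief R): the index sets of the
per-level theorem.

* `pJ N p S₀ : JZ N p S₀ → ℕ` : the primes of the index set of level zero (`hpJ`, `pJ_injective`);
* `gJ hNM : J M p S₀ → JZ N p S₀` : the inclusion of the index set of level `M` (`N ∣ M`) in the
  index set of level zero (`pJ_gJ`, `gJ_injective`);
* `mLev M p`, `HLev M p` : the twisting exponent and the prime-to-`p` subgroup of `(ZMod M)ˣ`, the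
  two parameters of the module of record at level `M` (`hHp_lev`, `hHm_lev`, `hHtor_lev`).
-/
import Mathlib
import Fermat.Agent.S43.Rho.Zero.Inst
import Fermat.Agent.S43.Rho.LamInst
import Fermat.Agent.S43.JH.PrimeToP

set_option autoImplicit false

noncomputable section

namespace Fermat.Agent.S43.Assembly.LevelDefs

open Fermat.Agent.S43.Rho.Zero.Inst (JZ)
open Fermat.Agent.S43.Rho.LamInst (J)
open Fermat.Agent.S43.JH.PrimeToP

/-- the primes of the index set of level zero -/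
abbrev pJ (N p : ℕ) (S₀ : Finset ℕ) : JZ N p S₀ → ℕ := fun j => ((j.1 : Nat.Primes) : ℕ)

theorem hpJ (N p : ℕ) (S₀ : Finset ℕ) (j : JZ N p S₀) : (pJ N p S₀ j).Prime := j.1.2

theorem pJ_injective (N p : ℕ) (S₀ : Finset ℕ) : Function.Injective (pJ N p S₀) := fun _ _ h =>
  Subtype.ext (Subtype.ext h)

/-- the inclusion of the index set of level `M` in the index set of level `N ∣ M` -/
def gJ {N M : ℕ} (hNM : N ∣ M) (p : ℕ) (S₀ : Finset ℕ) : J M p S₀ → JZ N p S₀ := fun k =>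
  ⟨k.1, Nat.Coprime.coprime_dvd_right hNM k.2.1, k.2.2.1, k.2.2.2⟩

theorem pJ_gJ {N M : ℕ} (hNM : N ∣ M) (p : ℕ) (S₀ : Finset ℕ) (k : J M p S₀) :
    pJ N p S₀ (gJ hNM p S₀ k) = ((k.1 : Nat.Primes) : ℕ) := rfl

theorem gJ_injective {N M : ℕ} (hNM : N ∣ M) (p : ℕ) (S₀ : Finset ℕ) :
    Function.Injective (gJ hNM p S₀) := fun _ _ h =>
  Subtype.ext (Subtype.ext (congrArg (pJ N p S₀) h))

/-- an index of level zero prime to `M` comes from level `M` -/
theorem exists_gJ_eq {N M : ℕ} (hNM : N ∣ M) (p : ℕ) (S₀ : Finset ℕ) (j : JZ N p S₀)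
    (hj : (pJ N p S₀ j).Coprime M) : ∃ k : J M p S₀, gJ hNM p S₀ k = j :=
  ⟨⟨j.1, hj, j.2.2.1, j.2.2.2⟩, Subtype.ext rfl⟩

/-- the twisting exponent at level `M` -/
abbrev mLev (M p : ℕ) [NeZero M] [Fact p.Prime] : ℕ := twExp (ZMod M)ˣ p

/-- the prime-to-`p` subgroup at level `M` -/
abbrev HLev (M p : ℕ) [NeZero M] [Fact p.Prime] : Subgroup (ZMod M)ˣ := primeToP (ZMod M)ˣ p

theorem hHp_lev (M p : ℕ) [NeZero M] [Fact p.Prime] : ¬ p ∣ Nat.card (HLev M p) :=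
  not_dvd_card_primeToP

theorem hHm_lev (M p : ℕ) [NeZero M] [Fact p.Prime] (hp2 : p ≠ 2) (d : (ZMod M)ˣ) :
    d ^ (2 * mLev M p + 1) ∈ HLev M p :=
  pow_twExp_mem hp2 d

theorem hHtor_lev (M p : ℕ) [NeZero M] [hp : Fact p.Prime] (d : (ZMod M)ˣ) (k : ℕ)
    (hk : k.Coprime p) (hd : d ^ k = 1) : d ∈ HLev M p :=
  mem_primeToP_of_coprime (Nat.Coprime.coprime_dvd_left (orderOf_dvd_of_pow_eq_one hd) hk)

/-- every element of `HLev M p` is killed by an exponent prime to `p` -/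
theorem exists_pow_eq_one_of_mem_HLev (M p : ℕ) [NeZero M] [hp : Fact p.Prime] (d : (ZMod M)ˣ)
    (hd : d ∈ HLev M p) : ∃ k : ℕ, k.Coprime p ∧ d ^ k = 1 := by
  refine ⟨Nat.card (HLev M p), ?_, ?_⟩
  · rw [Nat.coprime_comm]
    exact (Nat.Prime.coprime_iff_not_dvd hp.out).mpr (hHp_lev M p)
  · have h1 : (⟨d, hd⟩ : HLev M p) ^ Nat.card (HLev M p) = 1 := pow_card_eq_one'
    exact congrArg Subtype.val h1

/-- `p ∣ 2 * mLev M p + 1` as soon as `p` divides the order of `(ZMod M)ˣ` -/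
theorem dvd_two_mul_mLev_add_one (M p : ℕ) [NeZero M] [hp : Fact p.Prime] (hp2 : p ≠ 2)
    (hpM : p ∣ Nat.card (ZMod M)ˣ) : p ∣ 2 * mLev M p + 1 := by
  rw [mLev, two_mul_twExp_add_one hp2]
  refine dvd_pow_self p ?_
  intro h0
  have h1 : (Nat.card (ZMod M)ˣ).factorization p = 0 := h0
  rcases (Nat.factorization_eq_zero_iff _ _).mp h1 with h | h | h
  · exact h hp.out
  · exact h hpM
  · exact Nat.card_pos.ne' h

/-- `mLev M p` is prime to `p` as soon as `p` divides the order of `(ZMod M)ˣ` -/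
theorem coprime_mLev (M p : ℕ) [NeZero M] [hp : Fact p.Prime] (hp2 : p ≠ 2)
    (hpM : p ∣ Nat.card (ZMod M)ˣ) : (mLev M p).Coprime p := by
  rw [Nat.coprime_comm, Nat.Prime.coprime_iff_not_dvd hp.out]
  intro h
  have h1 := dvd_two_mul_mLev_add_one M p hp2 hpM
  have h2 : p ∣ 1 := (Nat.dvd_add_right (Dvd.dvd.mul_left h 2)).mp h1
  exact hp.out.one_lt.ne' (Nat.dvd_one.mp h2)

/-- `p` divides the order of `(ZMod M)ˣ` when `p ∣ ℓ - 1` for a prime `ℓ ∣ M` -/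
theorem dvd_card_units_of_dvd (M p : ℕ) [NeZero M] {ℓ : ℕ} (hℓ : ℓ.Prime) (hℓM : ℓ ∣ M)
    (hpℓ : p ∣ ℓ - 1) : p ∣ Nat.card (ZMod M)ˣ := by
  rw [Nat.card_eq_fintype_card, ZMod.card_units_eq_totient]
  have h1 : Nat.totient ℓ ∣ Nat.totient M := Nat.totient_dvd_of_dvd hℓM
  rw [Nat.totient_prime hℓ] at h1
  exact hpℓ.trans h1

end Fermat.Agent.S43.Assembly.LevelDefs

end
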