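/-
PROJECT R (S43, row 37), ASSEMBLY, brick (5)(b) of the chief's #6494 (helper16): THE TYPE-`χ` CHARACTER.

`p` an odd prime, `𝒪` the coefficient ring of `Assembly/Coeff.exists_coeff` with its root of unity
`ζ : 𝒪ˣ` (`IsPrimitiveRoot ζ p`), `T` a finite set of primes `ℓ ≡ 1 mod p` dividing `M`.

* ALGEBRA (generic in a commutative group `G ∋ ζ`):
  `gen ℓ` a generator of `(ZMod ℓ)ˣ`, `chiL ζ ℓ : (ZMod ℓ)ˣ →* G`, `gen ℓ ↦ ζ` (`chiL_gen`), with kernel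
  the `orderOf ζ`-th powers (`chiL_eq_one_iff`); `psi ζ T M = ∏_{ℓ ∈ T} chiL ζ ℓ ∘ (mod ℓ)` :
  `psi_pow_eq_one` (`ψ ^ p = 1`), `exists_psi_eq_pow`, `psi_eq_one`, `psi_eq_one_of_unitsMap_prod`
  (`ψ d = 1` for `d ≡ 1 mod ∏ ℓ`), `psi_eq_chiL_of_unitsMap_div` (`d ≡ 1 mod M / ℓ`),
  `isPrimitiveRoot_psi` (`ψ d` is a primitive `p`-th root of unity for `d ≡ 1 mod M / ℓ` which is not a
  `p`-th power modulo `ℓ`), `isPrimitiveRoot_psi_of_generator`, `psi_eq_one_of_pow_eq_one` (`ψ` kills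
  the prime-to-`p` part);
* HECKE SIDE: `xiChi 𝒪 π ψ = xiOf 𝒪 π * ψ`, `d ↦ single (π d) (ψ d)` (`coe_xiChi`), with helper24's
  `hΞ` (`xiChi_sub_xiOf_mem`, `xiChi_psi_sub_xiOf_mem`) and `h1'` (`xiChi_neg_one`, `xiChi_psi_neg_one`);
* GALOIS SIDE: `chiGal ψ a ℓ τ = ψ (cyc M τ) ^ a` in the shape of `RSide/Cond.TypeChi`, with
  `chiGal_pow_self` (`hχ` of `Rho/Props/TypeRhoT.typeChi_ofMat`), `chiResTrivial_chiGal`, and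
  **`isPrimitiveRoot_chiGal_tame`** : `χ ℓ σ` is a primitive `p`-th root of unity for `σ` a tame
  generator at `ℓ ∈ T` (`RSide/TrivBase.TameClause p ℓ σ`), `chiGal_tame_pow`, `chiGal_tame_sq_ne`.

The arithmetic input of the last item (NOT a consequence of the tame clause alone) is
**`chi_inertia_surjective`** : the mod `ℓ` cyclotomic character maps every inertia group at `ℓ` ONTO
`(ZMod ℓ)ˣ` (`ℚ(μ_ℓ)` is totally ramified at `ℓ`), proved from main's `S13/Local/Ram` and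
`S56/Ord/OmegaRam`; together with `chi_eq_one_of_mem_inertia` (the mod `ℓ'` character is unramified at
`ℓ ≠ ℓ'`) and `unitsMap_chi` it gives `psi_cyc_of_mem_inertia`.
-/
import Mathlib
import Fermat.Agent.S43.Hecke.Inst
import Fermat.Agent.S43.Tw.Defs
import Fermat.Agent.S43.RSide.TrivBase
import Fermat.Agent.S43.RSide.Cond
import Fermat.Agent.S56.Ord.OmegaRam
import Fermat.Agent.S56.Cheb.Galois.CycChar
import Fermat.Agent.S30.Algebra.Cyclotomic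
import Fermat.Agent.CFT.Bridge.Inertia
import Fermat.Agent.CFT.LocalBridge.Inertia

set_option autoImplicit false

noncomputable section

namespace Fermat.Agent.S43.Assembly.ChiChar

open scoped BigOperators
open Fermat.Agent.S43.Hecke.Inst Fermat.Agent.S43.Hecke.Shapiro
open Fermat.Agent.S56.Cheb.Galois.CycChar
open Fermat.Agent.S43.Tw.Defs (cyc)
open Fermat.Agent.S43.RSide.Cond (GalQ ChiResTrivial)
open Fermat.Agent.S43.RSide.TrivBase (TameClause)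

local notation "Qbar" => AlgebraicClosure ℚ
local notation "GQ" => (AlgebraicClosure ℚ ≃ₐ[ℚ] AlgebraicClosure ℚ)

/-! ### the character of `(ZMod ℓ)ˣ` of order `orderOf ζ` -/

section ChiL

variable {G : Type*} [CommGroup G] (ζ : G)

/-- a generator of `(ZMod ℓ)ˣ`, `ℓ` prime -/
def gen (ℓ : ℕ) [Fact ℓ.Prime] : (ZMod ℓ)ˣ :=
  Classical.choose (IsCyclic.exists_generator (α := (ZMod ℓ)ˣ))

theorem gen_spec (ℓ : ℕ) [Fact ℓ.Prime] (x : (ZMod ℓ)ˣ) : x ∈ Subgroup.zpowers (gen ℓ) :=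
  Classical.choose_spec (IsCyclic.exists_generator (α := (ZMod ℓ)ˣ)) x

theorem orderOf_gen (ℓ : ℕ) [Fact ℓ.Prime] : orderOf (gen ℓ) = ℓ - 1 := by
  rw [orderOf_eq_card_of_forall_mem_zpowers (gen_spec ℓ), Nat.card_eq_fintype_card,
    ZMod.card_units]

/-- the character of `(ZMod ℓ)ˣ` sending the generator `gen ℓ` to `ζ`, for `ℓ` prime with
`orderOf ζ ∣ ℓ - 1` -/
def chiLP (ℓ : ℕ) [Fact ℓ.Prime] (h : orderOf ζ ∣ ℓ - 1) : (ZMod ℓ)ˣ →* G :=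
  monoidHomOfForallMemZpowers (gen_spec ℓ) (g' := ζ) (by rw [orderOf_gen]; exact h)

/-- the character of `(ZMod ℓ)ˣ` sending the generator `gen ℓ` to `ζ` (`ℓ` prime,
`orderOf ζ ∣ ℓ - 1`; the trivial character otherwise) -/
def chiL (ℓ : ℕ) : (ZMod ℓ)ˣ →* G :=
  if h : ℓ.Prime ∧ orderOf ζ ∣ ℓ - 1 then
    haveI : Fact ℓ.Prime := ⟨h.1⟩
    chiLP ζ ℓ h.2
  else 1

theorem chiL_eq_chiLP (ℓ : ℕ) [hℓ : Fact ℓ.Prime] (h : orderOf ζ ∣ ℓ - 1) :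
    chiL ζ ℓ = chiLP ζ ℓ h := by
  unfold chiL
  rw [dif_pos ⟨hℓ.out, h⟩]

theorem chiL_gen (ℓ : ℕ) [Fact ℓ.Prime] (h : orderOf ζ ∣ ℓ - 1) : chiL ζ ℓ (gen ℓ) = ζ := by
  rw [chiL_eq_chiLP ζ ℓ h]
  exact monoidHomOfForallMemZpowers_apply_gen _ _

theorem chiL_mem_zpowers (ℓ : ℕ) (x : (ZMod ℓ)ˣ) : chiL ζ ℓ x ∈ Subgroup.zpowers ζ := by
  by_cases h : ℓ.Prime ∧ orderOf ζ ∣ ℓ - 1
  · have : Fact ℓ.Prime := ⟨h.1⟩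
    obtain ⟨k, hk⟩ := Subgroup.mem_zpowers_iff.mp (gen_spec ℓ x)
    rw [← hk, map_zpow, chiL_gen ζ ℓ h.2]
    exact Subgroup.zpow_mem_zpowers ζ k
  · unfold chiL
    rw [dif_neg h]
    exact one_mem _

/-- **the kernel of `chiL ζ ℓ` is the group of `orderOf ζ`-th powers** -/
theorem chiL_eq_one_iff (ℓ : ℕ) [Fact ℓ.Prime] (h : orderOf ζ ∣ ℓ - 1) (x : (ZMod ℓ)ˣ) :
    chiL ζ ℓ x = 1 ↔ ∃ y : (ZMod ℓ)ˣ, y ^ orderOf ζ = x := by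
  constructor
  · intro hx
    obtain ⟨k, hk⟩ := Subgroup.mem_zpowers_iff.mp (gen_spec ℓ x)
    rw [← hk, map_zpow, chiL_gen ζ ℓ h] at hx
    obtain ⟨j, hj⟩ := (orderOf_dvd_iff_zpow_eq_one).mpr hx
    refine ⟨gen ℓ ^ j, ?_⟩
    rw [← hk, hj, ← zpow_natCast, ← zpow_mul, mul_comm]
  · rintro ⟨y, rfl⟩
    obtain ⟨j, hj⟩ := Subgroup.mem_zpowers_iff.mp (chiL_mem_zpowers ζ ℓ y)
    rw [map_pow, ← hj, ← zpow_natCast, ← zpow_mul, mul_comm, zpow_mul, zpow_natCast,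
      pow_orderOf_eq_one, one_zpow]

/-- `chiL ζ ℓ` does not vanish at a generator (`ζ ≠ 1`) -/
theorem chiL_ne_one_of_generator (ℓ : ℕ) [Fact ℓ.Prime] (h : orderOf ζ ∣ ℓ - 1) (hζ1 : ζ ≠ 1)
    {x : (ZMod ℓ)ˣ} (hx : ∀ y : (ZMod ℓ)ˣ, y ∈ Subgroup.zpowers x) : chiL ζ ℓ x ≠ 1 := by
  intro h1
  apply hζ1
  obtain ⟨k, hk⟩ := Subgroup.mem_zpowers_iff.mp (hx (gen ℓ))
  rw [← chiL_gen ζ ℓ h, ← hk, map_zpow, h1, one_zpow]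

end ChiL

/-! ### the character `ψ` of `(ZMod M)ˣ` -/

section Psi

variable {G : Type*} [CommGroup G] (ζ : G) (T : Finset ℕ) (M : ℕ)

/-- the `ℓ`-component of `ψ` -/
def psiAt (ℓ : ℕ) : (ZMod M)ˣ →* G :=
  if h : ℓ ∣ M then (chiL ζ ℓ).comp (ZMod.unitsMap h) else 1

/-- **the type-`χ` character** `ψ = ∏_{ℓ ∈ T} chiL ζ ℓ ∘ (reduction modulo ℓ)` of `(ZMod M)ˣ` -/
def psi : (ZMod M)ˣ →* G := ∏ ℓ ∈ T, psiAt ζ M ℓ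

variable {M}

theorem psiAt_apply {ℓ : ℕ} (h : ℓ ∣ M) (d : (ZMod M)ˣ) :
    psiAt ζ M ℓ d = chiL ζ ℓ (ZMod.unitsMap h d) := by
  unfold psiAt
  rw [dif_pos h]
  rfl

theorem psiAt_mem_zpowers (ℓ : ℕ) (d : (ZMod M)ˣ) : psiAt ζ M ℓ d ∈ Subgroup.zpowers ζ := by
  by_cases h : ℓ ∣ M
  · rw [psiAt_apply ζ h]
    exact chiL_mem_zpowers ζ ℓ _
  · unfold psiAt
    rw [dif_neg h]
    exact one_mem _

theorem psi_apply (d : (ZMod M)ˣ) : psi ζ T M d = ∏ ℓ ∈ T, psiAt ζ M ℓ d := by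
  unfold psi
  rw [MonoidHom.finsetProd_apply]

theorem psi_mem_zpowers (d : (ZMod M)ˣ) : psi ζ T M d ∈ Subgroup.zpowers ζ := by
  rw [psi_apply]
  exact Subgroup.prod_mem _ fun ℓ _ => psiAt_mem_zpowers ζ ℓ d

/-- `ψ ^ p = 1` -/
theorem psi_pow_eq_one {p : ℕ} (hζ : ζ ^ p = 1) (d : (ZMod M)ˣ) : psi ζ T M d ^ p = 1 := by
  obtain ⟨k, hk⟩ := Subgroup.mem_zpowers_iff.mp (psi_mem_zpowers ζ T d)
  rw [← hk, ← zpow_natCast, ← zpow_mul, mul_comm, zpow_mul, zpow_natCast, hζ, one_zpow]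

/-- an element of `zpowers ζ` is a power of `ζ` with a natural exponent (`ζ` of finite order) -/
theorem exists_eq_pow_of_mem_zpowers {p : ℕ} (hp : p ≠ 0) (hζ : ζ ^ p = 1) {u : G}
    (hu : u ∈ Subgroup.zpowers ζ) : ∃ k : ℕ, u = ζ ^ k := by
  obtain ⟨k, hk⟩ := Subgroup.mem_zpowers_iff.mp hu
  refine ⟨(k % (p : ℤ)).toNat, ?_⟩
  have hp' : (p : ℤ) ≠ 0 := by exact_mod_cast hp
  have h0 : 0 ≤ k % (p : ℤ) := Int.emod_nonneg k hp'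
  rw [← hk, ← zpow_natCast, Int.toNat_of_nonneg h0]
  conv_lhs => rw [← Int.emod_add_mul_ediv k p]
  rw [zpow_add, zpow_mul, zpow_natCast, hζ, one_zpow, mul_one]

/-- the values of `ψ` are powers of `ζ` -/
theorem exists_psi_eq_pow {p : ℕ} (hp : p ≠ 0) (hζ : ζ ^ p = 1) (d : (ZMod M)ˣ) :
    ∃ k : ℕ, psi ζ T M d = ζ ^ k :=
  exists_eq_pow_of_mem_zpowers ζ hp hζ (psi_mem_zpowers ζ T d)

/-- `ψ d = 1` when `d ≡ 1` modulo every `ℓ ∈ T` -/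
theorem psi_eq_one {d : (ZMod M)ˣ} (h : ∀ ℓ ∈ T, ∀ h : ℓ ∣ M, ZMod.unitsMap h d = 1) :
    psi ζ T M d = 1 := by
  rw [psi_apply]
  refine Finset.prod_eq_one fun ℓ hℓ => ?_
  by_cases hM : ℓ ∣ M
  · rw [psiAt_apply ζ hM, h ℓ hℓ hM, map_one]
  · unfold psiAt
    rw [dif_neg hM]
    rfl

/-- `ψ d = 1` when `d ≡ 1` modulo `∏_{ℓ ∈ T} ℓ` -/
theorem psi_eq_one_of_unitsMap_prod (hTM : ∏ ℓ ∈ T, ℓ ∣ M) {d : (ZMod M)ˣ}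
    (hd : ZMod.unitsMap hTM d = 1) : psi ζ T M d = 1 := by
  refine psi_eq_one ζ T fun ℓ hℓ h => ?_
  have h1 : ℓ ∣ ∏ ℓ ∈ T, ℓ := Finset.dvd_prod_of_mem _ hℓ
  have h2 := ZMod.unitsMap_comp h1 hTM
  have h3 : ZMod.unitsMap h d = ZMod.unitsMap h1 (ZMod.unitsMap hTM d) := by
    rw [← MonoidHom.comp_apply, h2]
  rw [h3, hd, map_one]

/-- `ψ` kills the prime-to-`p` part of `(ZMod M)ˣ` -/
theorem psi_eq_one_of_pow_eq_one {p : ℕ} (hζ : ζ ^ p = 1) {d : (ZMod M)ˣ} {k : ℕ}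
    (hk : k.Coprime p) (hd : d ^ k = 1) : psi ζ T M d = 1 := by
  have h1 : psi ζ T M d ^ k = 1 := by rw [← map_pow, hd, map_one]
  have h2 := psi_pow_eq_one ζ T hζ d
  have h3 := pow_gcd_eq_one.mpr ⟨h1, h2⟩
  rwa [Nat.Coprime.gcd_eq_one hk, pow_one] at h3

/-- `ψ d` is its `ℓ`-component when `d ≡ 1` modulo the other `ℓ' ∈ T` -/
theorem psi_eq_psiAt {ℓ : ℕ} (hℓ : ℓ ∈ T) {d : (ZMod M)ˣ}
    (h : ∀ ℓ' ∈ T, ℓ' ≠ ℓ → ∀ h : ℓ' ∣ M, ZMod.unitsMap h d = 1) :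
    psi ζ T M d = psiAt ζ M ℓ d := by
  rw [psi_apply]
  refine Finset.prod_eq_single_of_mem ℓ hℓ fun ℓ' hℓ' hne => ?_
  by_cases hM : ℓ' ∣ M
  · rw [psiAt_apply ζ hM, h ℓ' hℓ' hne hM, map_one]
  · unfold psiAt
    rw [dif_neg hM]
    rfl

/-- `ψ d = chiL ζ ℓ (d mod ℓ)` when `d ≡ 1` modulo `M / ℓ` -/
theorem psi_eq_chiL_of_unitsMap_div (hT : ∀ ℓ ∈ T, ℓ.Prime) {ℓ : ℕ} (hℓ : ℓ ∈ T) (hℓM : ℓ ∣ M)
    {d : (ZMod M)ˣ} (hd : ZMod.unitsMap (Nat.div_dvd_of_dvd hℓM) d = 1) :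
    psi ζ T M d = chiL ζ ℓ (ZMod.unitsMap hℓM d) := by
  rw [psi_eq_psiAt ζ T hℓ, psiAt_apply ζ hℓM]
  intro ℓ' hℓ' hne h
  have h1 : ℓ' ∣ M / ℓ := by
    have h2 : ℓ' ∣ ℓ * (M / ℓ) := by rwa [Nat.mul_div_cancel' hℓM]
    rcases (Nat.Prime.dvd_mul (hT ℓ' hℓ')).mp h2 with h3 | h3
    · exact absurd ((Nat.prime_dvd_prime_iff_eq (hT ℓ' hℓ') (hT ℓ hℓ)).mp h3) hne
    · exact h3
  have h2 := ZMod.unitsMap_comp h1 (Nat.div_dvd_of_dvd hℓM)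
  have h3 : ZMod.unitsMap h d = ZMod.unitsMap h1 (ZMod.unitsMap (Nat.div_dvd_of_dvd hℓM) d) := by
    rw [← MonoidHom.comp_apply, h2]
  rw [h3, hd, map_one]

/-- a non-trivial power of a primitive `p`-th root of unity, `p` prime, is one -/
theorem isPrimitiveRoot_of_mem_zpowers {p : ℕ} (hp : p.Prime) {ζ : G} (hζ : IsPrimitiveRoot ζ p)
    {u : G} (hu : u ∈ Subgroup.zpowers ζ) (hu1 : u ≠ 1) : IsPrimitiveRoot u p := by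
  obtain ⟨k, rfl⟩ := exists_eq_pow_of_mem_zpowers ζ hp.ne_zero hζ.pow_eq_one hu
  refine hζ.pow_of_coprime _ ?_
  rw [Nat.coprime_comm, Nat.Prime.coprime_iff_not_dvd hp]
  rintro ⟨j, rfl⟩
  apply hu1
  rw [pow_mul, hζ.pow_eq_one, one_pow]

/-- **`ψ d` is a primitive `p`-th root of unity** for `d ≡ 1` modulo `M / ℓ`, `ℓ ∈ T`, which is not
a `p`-th power modulo `ℓ` -/
theorem isPrimitiveRoot_psi {p : ℕ} (hp : p.Prime) (hζ : IsPrimitiveRoot ζ p)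
    (hT : ∀ ℓ ∈ T, ℓ.Prime) {ℓ : ℕ} [Fact ℓ.Prime] (hℓ : ℓ ∈ T) (hℓM : ℓ ∣ M) (hpℓ : p ∣ ℓ - 1)
    {d : (ZMod M)ˣ} (hd : ZMod.unitsMap (Nat.div_dvd_of_dvd hℓM) d = 1)
    (hnp : ¬ ∃ y : (ZMod ℓ)ˣ, y ^ p = ZMod.unitsMap hℓM d) :
    IsPrimitiveRoot (psi ζ T M d) p := by
  refine isPrimitiveRoot_of_mem_zpowers hp hζ (psi_mem_zpowers ζ T d) ?_
  rw [psi_eq_chiL_of_unitsMap_div ζ T hT hℓ hℓM hd]
  intro h1
  apply hnp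
  have hord : orderOf ζ = p := hζ.eq_orderOf.symm
  have := (chiL_eq_one_iff ζ ℓ (by rw [hord]; exact hpℓ) _).mp h1
  rwa [hord] at this

/-- **`ψ d` is a primitive `p`-th root of unity** for `d ≡ 1` modulo `M / ℓ`, `ℓ ∈ T`, which
generates `(ZMod ℓ)ˣ` -/
theorem isPrimitiveRoot_psi_of_generator {p : ℕ} (hp : p.Prime) (hζ : IsPrimitiveRoot ζ p)
    (hT : ∀ ℓ ∈ T, ℓ.Prime) {ℓ : ℕ} [Fact ℓ.Prime] (hℓ : ℓ ∈ T) (hℓM : ℓ ∣ M) (hpℓ : p ∣ ℓ - 1)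
    {d : (ZMod M)ˣ} (hd : ZMod.unitsMap (Nat.div_dvd_of_dvd hℓM) d = 1)
    (hgen : ∀ y : (ZMod ℓ)ˣ, y ∈ Subgroup.zpowers (ZMod.unitsMap hℓM d)) :
    IsPrimitiveRoot (psi ζ T M d) p := by
  refine isPrimitiveRoot_of_mem_zpowers hp hζ (psi_mem_zpowers ζ T d) ?_
  rw [psi_eq_chiL_of_unitsMap_div ζ T hT hℓ hℓM hd]
  have hord : orderOf ζ = p := hζ.eq_orderOf.symm
  exact chiL_ne_one_of_generator ζ ℓ (by rw [hord]; exact hpℓ) (hζ.ne_one hp.one_lt) hgen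

end Psi

/-! ### congruence to `1` -/

section Cong

variable {𝒪 : Type*} [CommRing 𝒪]

/-- the units congruent to `1` modulo an ideal -/
def congSubgroup (I : Ideal 𝒪) : Subgroup 𝒪ˣ where
  carrier := {u | ((u : 𝒪ˣ) : 𝒪) - 1 ∈ I}
  one_mem' := by
    show ((1 : 𝒪ˣ) : 𝒪) - 1 ∈ I
    rw [Units.val_one, sub_self]
    exact I.zero_mem
  mul_mem' := by
    intro u v hu hv
    show ((u * v : 𝒪ˣ) : 𝒪) - 1 ∈ I
    have : ((u * v : 𝒪ˣ) : 𝒪) - 1 = (u : 𝒪) * ((v : 𝒪) - 1) + ((u : 𝒪) - 1) := by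
      rw [Units.val_mul]; ring
    rw [this]
    exact I.add_mem (I.mul_mem_left _ hv) hu
  inv_mem' := by
    intro u hu
    show ((u⁻¹ : 𝒪ˣ) : 𝒪) - 1 ∈ I
    have : ((u⁻¹ : 𝒪ˣ) : 𝒪) - 1 = -(((u⁻¹ : 𝒪ˣ) : 𝒪) * ((u : 𝒪) - 1)) := by
      rw [mul_sub, Units.inv_mul, mul_one]; ring
    rw [this]
    exact I.neg_mem (I.mul_mem_left _ hu)

theorem sub_one_mem_of_mem_zpowers {I : Ideal 𝒪} {ζ u : 𝒪ˣ} (hζ : ((ζ : 𝒪ˣ) : 𝒪) - 1 ∈ I)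
    (hu : u ∈ Subgroup.zpowers ζ) : ((u : 𝒪ˣ) : 𝒪) - 1 ∈ I := by
  have h : Subgroup.zpowers ζ ≤ congSubgroup I := by
    rw [Subgroup.zpowers_le]
    exact hζ
  exact h hu

/-- a `p`-th root of unity in a local ring of residue characteristic `p` is `≡ 1` modulo the maximal
ideal -/
theorem sub_one_mem_maximalIdeal [IsLocalRing 𝒪] {p : ℕ} [hp : Fact p.Prime]
    (hpm : (p : 𝒪) ∈ IsLocalRing.maximalIdeal 𝒪) {x : 𝒪} (hx : x ^ p = 1) :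
    x - 1 ∈ IsLocalRing.maximalIdeal 𝒪 := by
  have hchar : CharP (IsLocalRing.ResidueField 𝒪) p := by
    refine (CharP.charP_iff_prime_eq_zero hp.out).mpr ?_
    have := (IsLocalRing.residue_eq_zero_iff (p : 𝒪)).mpr hpm
    rwa [map_natCast] at this
  rw [← IsLocalRing.residue_eq_zero_iff, map_sub, map_one]
  have h1 : (IsLocalRing.residue 𝒪 x - 1) ^ p = 0 := by
    rw [sub_pow_char, one_pow, ← map_pow, hx, map_one, sub_self]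
  exact pow_eq_zero_iff (hp.out.ne_zero) |>.mp h1

end Cong

/-! ### the nebentypus of type `χ` -/

section Xi

variable {M : ℕ} {Δ : Type*} [CommGroup Δ] (𝒪 : Type*) [CommRing 𝒪] (π : (ZMod M)ˣ →* Δ)
  (ψ : (ZMod M)ˣ →* 𝒪ˣ)

/-- **the nebentypus of type `χ`** : `Ξ' = xiOf 𝒪 π * (ψ pushed to 𝒪[Δ])`,
`d ↦ single (π d) (ψ d)` -/
def xiChi : (ZMod M)ˣ →* (MonoidAlgebra 𝒪 Δ)ˣ :=
  xiOf 𝒪 π * (Units.map (algebraMap 𝒪 (MonoidAlgebra 𝒪 Δ)).toMonoidHom).comp ψ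

theorem xiChi_apply (d : (ZMod M)ˣ) :
    xiChi 𝒪 π ψ d =
      xiOf 𝒪 π d * Units.map (algebraMap 𝒪 (MonoidAlgebra 𝒪 Δ)).toMonoidHom (ψ d) := rfl

theorem coe_xiOf (d : (ZMod M)ˣ) :
    ((xiOf 𝒪 π d : (MonoidAlgebra 𝒪 Δ)ˣ) : MonoidAlgebra 𝒪 Δ) = MonoidAlgebra.single (π d) 1 :=
  rfl

theorem coe_xiChi (d : (ZMod M)ˣ) :
    ((xiChi 𝒪 π ψ d : (MonoidAlgebra 𝒪 Δ)ˣ) : MonoidAlgebra 𝒪 Δ) =
      MonoidAlgebra.single (π d) ((ψ d : 𝒪ˣ) : 𝒪) := by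
  rw [xiChi_apply, Units.val_mul, coe_xiOf]
  show MonoidAlgebra.single (π d) 1 * algebraMap 𝒪 (MonoidAlgebra 𝒪 Δ) ((ψ d : 𝒪ˣ) : 𝒪) = _
  rw [MonoidAlgebra.coe_algebraMap, Function.comp_apply, Algebra.algebraMap_self_apply,
    MonoidAlgebra.single_mul_single, mul_one, one_mul]

/-- **helper24's `hΞ`** : `Ξ' ≡ xiOf 𝒪 π` modulo `ϖ` when the values of `ψ` are `≡ 1` modulo `ϖ` -/
theorem xiChi_sub_xiOf_mem {ϖ : 𝒪} (hψ : ∀ d, ϖ ∣ ((ψ d : 𝒪ˣ) : 𝒪) - 1) (d : (ZMod M)ˣ) :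
    ((xiChi 𝒪 π ψ d : (MonoidAlgebra 𝒪 Δ)ˣ) : MonoidAlgebra 𝒪 Δ) -
      ((xiOf 𝒪 π d : (MonoidAlgebra 𝒪 Δ)ˣ) : MonoidAlgebra 𝒪 Δ) ∈
        Ideal.span ({(MonoidAlgebra.single (1 : Δ) ϖ : MonoidAlgebra 𝒪 Δ)} :
          Set (MonoidAlgebra 𝒪 Δ)) := by
  obtain ⟨c, hc⟩ := hψ d
  rw [coe_xiChi, coe_xiOf, ← MonoidAlgebra.single_sub, hc, Ideal.mem_span_singleton]
  refine ⟨MonoidAlgebra.single (π d) c, ?_⟩
  rw [MonoidAlgebra.single_mul_single, one_mul]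

/-- **helper24's `h1'`** : `Ξ' (-1) = 1` when `ψ (-1) = 1` -/
theorem xiChi_neg_one (h1 : xiOf 𝒪 π (-1) = 1) (hψ : ψ (-1) = 1) : xiChi 𝒪 π ψ (-1) = 1 := by
  rw [xiChi_apply, h1, hψ, map_one, mul_one]

/-- a character of odd order is trivial at `-1` -/
theorem apply_neg_one_of_odd {H : Type*} [Group H] (φ : (ZMod M)ˣ →* H) {p : ℕ} (hp : Odd p)
    (hφ : ∀ d, φ d ^ p = 1) : φ (-1) = 1 := by
  have h2 : φ (-1) ^ 2 = 1 := by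
    rw [← map_pow]
    simp
  obtain ⟨k, rfl⟩ := hp
  have h3 := hφ (-1)
  rwa [pow_succ, pow_mul, h2, one_pow, one_mul] at h3

variable {𝒪}
variable [IsLocalRing 𝒪] {p : ℕ} [hp : Fact p.Prime] (ζ : 𝒪ˣ) (T : Finset ℕ)

/-- the values of `ψ = psi ζ T M` are `≡ 1` modulo a uniformiser -/
theorem dvd_psi_sub_one (hpm : (p : 𝒪) ∈ IsLocalRing.maximalIdeal 𝒪) {ϖ : 𝒪}
    (hϖ : IsLocalRing.maximalIdeal 𝒪 = Ideal.span {ϖ}) (hζ : ζ ^ p = 1) (d : (ZMod M)ˣ) :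
    ϖ ∣ ((psi ζ T M d : 𝒪ˣ) : 𝒪) - 1 := by
  rw [← Ideal.mem_span_singleton, ← hϖ]
  refine sub_one_mem_of_mem_zpowers (sub_one_mem_maximalIdeal hpm ?_) (psi_mem_zpowers ζ T d)
  rw [← Units.val_pow_eq_pow_val, hζ, Units.val_one]

/-- **helper24's `hΞ` for `Ξ' = xiChi 𝒪 π (psi ζ T M)`** -/
theorem xiChi_psi_sub_xiOf_mem (hpm : (p : 𝒪) ∈ IsLocalRing.maximalIdeal 𝒪) {ϖ : 𝒪}
    (hϖ : IsLocalRing.maximalIdeal 𝒪 = Ideal.span {ϖ}) (hζ : ζ ^ p = 1) (d : (ZMod M)ˣ) :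
    ((xiChi 𝒪 π (psi ζ T M) d : (MonoidAlgebra 𝒪 Δ)ˣ) : MonoidAlgebra 𝒪 Δ) -
      ((xiOf 𝒪 π d : (MonoidAlgebra 𝒪 Δ)ˣ) : MonoidAlgebra 𝒪 Δ) ∈
        Ideal.span ({(MonoidAlgebra.single (1 : Δ) ϖ : MonoidAlgebra 𝒪 Δ)} :
          Set (MonoidAlgebra 𝒪 Δ)) :=
  xiChi_sub_xiOf_mem 𝒪 π (psi ζ T M) (dvd_psi_sub_one ζ T hpm hϖ hζ) d

omit [IsLocalRing 𝒪] in
/-- **helper24's `h1'` for `Ξ' = xiChi 𝒪 π (psi ζ T M)`**, `p` odd -/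
theorem xiChi_psi_neg_one (hp2 : p ≠ 2) (hζ : ζ ^ p = 1) (h1 : xiOf 𝒪 π (-1) = 1) :
    xiChi 𝒪 π (psi ζ T M) (-1) = 1 :=
  xiChi_neg_one 𝒪 π _ h1
    (apply_neg_one_of_odd _ (hp.out.odd_of_ne_two hp2) (psi_pow_eq_one ζ T hζ))

end Xi

/-! ### cyclotomic characters and inertia -/

section Compat

/-- the cyclotomic characters are compatible with the reduction maps -/
theorem unitsMap_chi {n M : ℕ} [NeZero n] [NeZero M] (h : n ∣ M) (g : GQ) :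
    ZMod.unitsMap h (chi M g) = chi n g := by
  apply Units.ext
  have h1 := chi_eq_of_pow n g ((chi M g : (ZMod M)ˣ) : ZMod M).val (fun t ht => by
    refine chi_spec M g t ?_
    obtain ⟨c, rfl⟩ := h
    rw [pow_mul, ht, one_pow])
  rw [h1, ZMod.unitsMap_val, ZMod.natCast_val]

/-- **the mod `ℓ'` cyclotomic character is unramified at `ℓ ≠ ℓ'`** -/
theorem chi_eq_one_of_mem_inertia {ℓ ℓ' : ℕ} (hℓ : ℓ.Prime) [Fact ℓ'.Prime] (hne : ℓ ≠ ℓ')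
    {A : ValuationSubring Qbar} (hA : A.LiesOverPrime ℓ) {σ : GQ}
    (hσ : σ ∈ A.inertiaSubgroupIn ℚ) : chi ℓ' σ = 1 := by
  rw [chi_eq_one_iff]
  intro t ht
  have hℓ'0 : ℓ' ≠ 0 := (Fact.out : ℓ'.Prime).ne_zero
  have htA : t ∈ A := Fermat.Agent.S56.Ord.OmegaRam.mem_of_pow_eq_one A hℓ'0 ht
  refine Fermat.Agent.S30.Algebra.Cyclotomic.eq_of_sub_mem_nonunits ℓ' A hℓ hne hA (n := 1)
    ?_ (by rwa [pow_one])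
    (((Fermat.Agent.CFT.Bridge.Inertia.mem_inertiaSubgroupIn_iff ℚ).1 hσ).2 t htA)
  rw [pow_one, ← map_pow, ht, map_one]

end Compat

section Surj

variable {ℓ : ℕ} [hℓ : Fact ℓ.Prime] {A : ValuationSubring Qbar}

/-- **the mod `ℓ` cyclotomic character maps the inertia group at `ℓ` ONTO `(ZMod ℓ)ˣ`**
(`ℚ(μ_ℓ)` is totally ramified at `ℓ`) -/
theorem chi_inertia_surjective (hA : A.LiesOverPrime ℓ) (u : (ZMod ℓ)ˣ) :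
    ∃ s ∈ A.inertiaSubgroupIn ℚ, chi ℓ s = u := by
  classical
  have hp : ℓ.Prime := hℓ.out
  obtain ⟨ζ, hζ⟩ := exists_primitiveRoot ℓ
  set G : Subgroup (ZMod ℓ)ˣ := (A.inertiaSubgroupIn ℚ).map (chi ℓ) with hG
  suffices hGtop : G = ⊤ by
    have hu : u ∈ G := by rw [hGtop]; exact Subgroup.mem_top u
    obtain ⟨s, hs, hsu⟩ := Subgroup.mem_map.mp hu
    exact ⟨s, hs, hsu⟩
  -- the product over `G`
  set F : G → Qbar := fun a => 1 - ζ ^ (((a : (ZMod ℓ)ˣ) : ZMod ℓ)).val with hF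
  set β : Qbar := ∏ a : G, F a with hβ
  have hpowmod : ∀ n : ℕ, ζ ^ (n % ℓ) = ζ ^ n := by
    intro n
    conv_rhs => rw [← Nat.mod_add_div n ℓ]
    rw [pow_add, pow_mul, hζ.pow_eq_one, one_pow, mul_one]
  have hfix : ∀ s ∈ A.inertiaSubgroupIn ℚ, s β = β := by
    intro s hs
    have hc : chi ℓ s ∈ G := Subgroup.mem_map.mpr ⟨s, hs, rfl⟩
    have h1 : ∀ a : G, s (F a) = F (⟨chi ℓ s, hc⟩ * a) := by
      intro a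
      simp only [hF]
      rw [map_sub, map_one, map_pow, chi_spec ℓ s ζ hζ.pow_eq_one, ← pow_mul]
      congr 1
      rw [← hpowmod]
      congr 1
      rw [Subgroup.coe_mul, Units.val_mul, ZMod.val_mul]
    rw [hβ, map_prod, Finset.prod_congr rfl (fun a _ => h1 a)]
    exact Equiv.prod_comp (Equiv.mulLeft (⟨chi ℓ s, hc⟩ : G)) F
  have hcop : ∀ a : G, (((a : (ZMod ℓ)ˣ) : ZMod ℓ)).val.Coprime ℓ :=
    fun a => ZMod.val_coe_unit_coprime (a : (ZMod ℓ)ˣ)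
  have hne : β ≠ 0 := by
    rw [hβ, Finset.prod_ne_zero_iff]
    intro a _ h0
    have h1 : ζ ^ (((a : (ZMod ℓ)ˣ) : ZMod ℓ)).val = 1 := (sub_eq_zero.mp h0).symm
    have h2 := hζ.dvd_of_pow_eq_one _ h1
    have h3 := Nat.Coprime.eq_one_of_dvd (hcop a).symm h2
    exact hp.one_lt.ne' h3
  obtain ⟨n, hn⟩ := Fermat.Agent.S13.Local.Ram.exists_zpow_valuation_eq' hp hA hne hfix
  have hvβ : A.valuation β = A.valuation (1 - ζ) ^ Nat.card G := by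
    rw [hβ, map_prod, Finset.prod_congr rfl (fun a _ =>
      Fermat.Agent.S56.Ord.OmegaRam.valuation_one_sub_pow_eq A hp hζ (hcop a)),
      Finset.prod_const, Finset.card_univ, Nat.card_eq_fintype_card]
  have h1 := Fermat.Agent.S56.Ord.OmegaRam.valuation_one_sub_pow_pred A hp hζ
  have hv0 : 0 < A.valuation ((ℓ : ℕ) : Qbar) :=
    zero_lt_iff.mpr (Fermat.Agent.S13.Local.Ram.valuation_natCast_ne_zero hp A)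
  have hv1 : A.valuation ((ℓ : ℕ) : Qbar) < 1 :=
    Fermat.Agent.S13.Local.Ram.valuation_natCast_lt_one hA
  -- `card G ∣ ℓ - 1`
  have hdvd : Nat.card G ∣ ℓ - 1 := by
    have := Subgroup.card_subgroup_dvd_card G
    rwa [Nat.card_eq_fintype_card (α := (ZMod ℓ)ˣ), ZMod.card_units] at this
  obtain ⟨e, he⟩ := hdvd
  rw [he, pow_mul, ← hvβ, hn, ← zpow_natCast, ← zpow_mul] at h1
  have h2 : n * (e : ℤ) = 1 := by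
    apply zpow_right_injective₀ hv0 hv1.ne
    simpa using h1
  have h3 : (e : ℤ) ∣ 1 := Dvd.intro_left _ h2
  have h4 : e ∣ 1 := by exact_mod_cast h3
  have h5 : e = 1 := Nat.dvd_one.mp h4
  rw [h5, mul_one] at he
  rw [← Subgroup.card_eq_iff_eq_top, Nat.card_eq_fintype_card (α := (ZMod ℓ)ˣ), ZMod.card_units,
    he]

end Surj

section Field

variable (M : ℕ) [NeZero M]

/-- **`cyc M` is trivial on the fixing subgroup of the finite Galois extension `ℚ(μ_M)`** -/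
theorem exists_field_cyc_eq_one :
    ∃ (F : IntermediateField ℚ Qbar) (_ : IsGalois ℚ F) (_ : FiniteDimensional ℚ F),
      ∀ s ∈ F.fixingSubgroup, cyc M s = 1 := by
  obtain ⟨ζ, hζ⟩ := exists_primitiveRoot M
  have : Algebra.IsIntegral ℚ Qbar := (AlgebraicClosure.isAlgebraic ℚ).isIntegral
  have : IsCyclotomicExtension {M} ℚ (IntermediateField.adjoin ℚ {ζ}) :=
    hζ.intermediateField_adjoin_isCyclotomicExtension ℚ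
  refine ⟨IntermediateField.adjoin ℚ {ζ}, IsCyclotomicExtension.isGalois {M} ℚ _,
    IsCyclotomicExtension.finiteDimensional {M} ℚ _, fun s hs => ?_⟩
  show chi M s = 1
  rw [chi_eq_one_iff]
  intro t ht
  obtain ⟨i, -, rfl⟩ := hζ.eq_pow_of_pow_eq_one ht
  rw [map_pow]
  congr 1
  exact (IntermediateField.mem_fixingSubgroup_iff _ _).1 hs ζ
    (IntermediateField.mem_adjoin_simple_self ℚ ζ)

end Field

/-! ### the tame generators -/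

section Tame

variable {M : ℕ} [NeZero M] {𝒪 : Type} [CommRing 𝒪] (ψ : (ZMod M)ˣ →* 𝒪ˣ)

/-- **a character of `p`-power order ramified at `ℓ` does not vanish at a tame generator** -/
theorem psi_cyc_tame_ne_one {p ℓ : ℕ} [Fact ℓ.Prime] (hψ : ∀ d, ψ d ^ p = 1)
    {σ : (padicPlace ℓ).inertiaSubgroupIn ℚ} (hσ : TameClause p ℓ σ)
    (hram : ∃ s ∈ (padicPlace ℓ).inertiaSubgroupIn ℚ, ψ (cyc M s) ≠ 1) :
    ψ (cyc M (σ : GQ)) ≠ 1 := by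
  intro h1
  obtain ⟨s, hs, hne⟩ := hram
  obtain ⟨F, hF1, hF2, hF⟩ := exists_field_cyc_eq_one M
  set f : (padicPlace ℓ).inertiaSubgroupIn ℚ →* 𝒪ˣ :=
    (ψ.comp (cyc M)).comp ((padicPlace ℓ).inertiaSubgroupIn ℚ).subtype with hf
  have hfix : ∀ t : (padicPlace ℓ).inertiaSubgroupIn ℚ, (t : GQ) ∈ F.fixingSubgroup → f t = 1 := by
    intro t ht
    show ψ (cyc M (t : GQ)) = 1
    rw [hF _ ht, map_one]
  have hpg : IsPGroup p f.range := by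
    rintro ⟨g, t, rfl⟩
    refine ⟨1, ?_⟩
    apply Subtype.ext
    rw [pow_one]
    exact hψ _
  obtain ⟨m, hm⟩ := hσ F 𝒪ˣ f hfix hpg ⟨s, hs⟩
  apply hne
  have h2 : f σ = 1 := h1
  have h3 : f ⟨s, hs⟩ = 1 := by rw [hm, h2, one_pow]
  exact h3

variable (ζ : 𝒪ˣ) (T : Finset ℕ)

/-- **on an inertia group at `ℓ ∈ T` the character `ψ ∘ cyc M` is `chiL ζ ℓ ∘ (cyclotomic character
modulo ℓ)`** -/
theorem psi_cyc_of_mem_inertia (hT : ∀ ℓ ∈ T, ℓ.Prime) {ℓ : ℕ} [Fact ℓ.Prime] (hℓ : ℓ ∈ T)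
    (hℓM : ℓ ∣ M) {A : ValuationSubring Qbar} (hA : A.LiesOverPrime ℓ) {s : GQ}
    (hs : s ∈ A.inertiaSubgroupIn ℚ) :
    psi ζ T M (cyc M s) = chiL ζ ℓ (chi ℓ s) := by
  rw [psi_eq_psiAt ζ T hℓ, psiAt_apply ζ hℓM]
  · congr 1
    exact unitsMap_chi hℓM s
  · intro ℓ' hℓ' hne h
    have : Fact ℓ'.Prime := ⟨hT ℓ' hℓ'⟩
    have h1 : ZMod.unitsMap h (cyc M s) = chi ℓ' s := unitsMap_chi h s
    rw [h1]
    exact chi_eq_one_of_mem_inertia (hT ℓ hℓ) (Ne.symm hne) hA hs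

/-- **`ψ ∘ cyc M` is ramified at `ℓ ∈ T`** : it takes the value `ζ` on every inertia group at `ℓ` -/
theorem exists_mem_inertia_psi_cyc_eq (hT : ∀ ℓ ∈ T, ℓ.Prime) {ℓ : ℕ} [Fact ℓ.Prime] (hℓ : ℓ ∈ T)
    (hℓM : ℓ ∣ M) (hord : orderOf ζ ∣ ℓ - 1) {A : ValuationSubring Qbar}
    (hA : A.LiesOverPrime ℓ) :
    ∃ s ∈ A.inertiaSubgroupIn ℚ, psi ζ T M (cyc M s) = ζ := by
  obtain ⟨s, hs, hsg⟩ := chi_inertia_surjective hA (gen ℓ)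
  refine ⟨s, hs, ?_⟩
  rw [psi_cyc_of_mem_inertia ζ T hT hℓ hℓM hA hs, hsg, chiL_gen ζ ℓ hord]

/-- **`ψ (cyc M σ)` is a primitive `p`-th root of unity for `σ` a tame generator at `ℓ ∈ T`** -/
theorem isPrimitiveRoot_psi_cyc_tame {p : ℕ} (hp : p.Prime) (hζ : IsPrimitiveRoot ζ p)
    (hT : ∀ ℓ ∈ T, ℓ.Prime) {ℓ : ℕ} [Fact ℓ.Prime] (hℓ : ℓ ∈ T) (hℓM : ℓ ∣ M) (hpℓ : p ∣ ℓ - 1)
    {σ : (padicPlace ℓ).inertiaSubgroupIn ℚ} (hσ : TameClause p ℓ σ) :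
    IsPrimitiveRoot (psi ζ T M (cyc M (σ : GQ))) p := by
  refine isPrimitiveRoot_of_mem_zpowers hp hζ (psi_mem_zpowers ζ T _) ?_
  refine psi_cyc_tame_ne_one (psi ζ T M) (psi_pow_eq_one ζ T hζ.pow_eq_one) hσ ?_
  have hord : orderOf ζ = p := hζ.eq_orderOf.symm
  obtain ⟨s, hs, hsζ⟩ := exists_mem_inertia_psi_cyc_eq ζ T hT hℓ hℓM (by rw [hord]; exact hpℓ)
    (Fermat.Agent.CFT.LocalBridge.liesOverPrime_padicPlace ℓ)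
  exact ⟨s, hs, by rw [hsζ]; exact hζ.ne_one hp.one_lt⟩

end Tame

/-! ### the Galois characters `χ ℓ` -/

section Gal

variable {M : ℕ} [NeZero M] {𝒪 : Type} [CommRing 𝒪] (ψ : (ZMod M)ˣ →* 𝒪ˣ) (a : ℕ)

/-- **the family `χ`** of `RSide/Cond.TypeChi` : `χ ℓ τ = ψ (cyc M τ) ^ a` (the same character for
every `ℓ`; only its restriction to the inertia groups at `ℓ ∈ T` is used) -/
def chiGal : ℕ → GalQ →* 𝒪ˣ := fun _ => (powMonoidHom a).comp (ψ.comp (cyc M))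

theorem chiGal_apply (ℓ : ℕ) (τ : GalQ) : chiGal ψ a ℓ τ = ψ (cyc M τ) ^ a := rfl

/-- **`hχ` of `Rho/Props/TypeRhoT.typeChi_ofMat`** : `(χ ℓ τ) ^ ℓ = χ ℓ τ` for `ℓ ≡ 1 mod p` -/
theorem chiGal_pow_self {p : ℕ} (hψ : ∀ d, ψ d ^ p = 1) {ℓ : ℕ} (hℓ0 : ℓ ≠ 0) (hpℓ : p ∣ ℓ - 1)
    (τ : GalQ) : chiGal ψ a ℓ τ ^ ℓ = chiGal ψ a ℓ τ := by
  obtain ⟨c, hc⟩ := hpℓ
  have h1 : ℓ = p * c + 1 := by omega
  rw [chiGal_apply]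
  conv_lhs => rw [h1]
  rw [pow_succ, ← pow_mul, mul_comm a, mul_assoc, pow_mul, hψ, one_pow, one_mul]

/-- `hχ` in the literal of `typeChi_ofMat` -/
theorem chiGal_pow_self_inertia {p : ℕ} (hψ : ∀ d, ψ d ^ p = 1) {ℓ : ℕ} (hℓ0 : ℓ ≠ 0)
    (hpℓ : p ∣ ℓ - 1) :
    ∀ A : ValuationSubring Qbar, A.LiesOverPrime ℓ →
      ∀ τ ∈ A.inertiaSubgroupIn ℚ, (chiGal ψ a ℓ τ) ^ ℓ = chiGal ψ a ℓ τ :=
  fun _ _ τ _ => chiGal_pow_self ψ a hψ hℓ0 hpℓ τ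

/-- `χ ℓ` is trivial modulo the maximal ideal (helper21's `ChiResTrivial`) -/
theorem chiResTrivial_chiGal [IsLocalRing 𝒪]
    (hψ : ∀ d, ((ψ d : 𝒪ˣ) : 𝒪) - 1 ∈ IsLocalRing.maximalIdeal 𝒪) :
    ChiResTrivial (chiGal ψ a) := by
  intro ℓ σ
  rw [chiGal_apply]
  have h : ψ (cyc M σ) ∈ congSubgroup (IsLocalRing.maximalIdeal 𝒪) := hψ _
  exact (congSubgroup (IsLocalRing.maximalIdeal 𝒪)).pow_mem h a

variable (ζ : 𝒪ˣ) (T : Finset ℕ) {p : ℕ}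

/-- `ChiResTrivial` for `ψ = psi ζ T M` -/
theorem chiResTrivial_chiGal_psi [IsLocalRing 𝒪] [Fact p.Prime]
    (hpm : (p : 𝒪) ∈ IsLocalRing.maximalIdeal 𝒪) (hζ : ζ ^ p = 1) :
    ChiResTrivial (chiGal (psi ζ T M) a) := by
  refine chiResTrivial_chiGal _ a fun d => ?_
  refine sub_one_mem_of_mem_zpowers (sub_one_mem_maximalIdeal hpm ?_) (psi_mem_zpowers ζ T d)
  rw [← Units.val_pow_eq_pow_val, hζ, Units.val_one]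

/-- **`χ ℓ σ` is a primitive `p`-th root of unity for `σ` a tame generator at `ℓ ∈ T`** (in `𝒪ˣ`) -/
theorem isPrimitiveRoot_chiGal_tame (hp : p.Prime) (hζ : IsPrimitiveRoot ζ p)
    (hT : ∀ ℓ ∈ T, ℓ.Prime) {a : ℕ} (ha : a.Coprime p) {ℓ : ℕ} [Fact ℓ.Prime] (hℓ : ℓ ∈ T)
    (hℓM : ℓ ∣ M) (hpℓ : p ∣ ℓ - 1) {σ : (padicPlace ℓ).inertiaSubgroupIn ℚ}
    (hσ : TameClause p ℓ σ) :
    IsPrimitiveRoot (chiGal (psi ζ T M) a ℓ (σ : GQ)) p := by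
  rw [chiGal_apply]
  exact (isPrimitiveRoot_psi_cyc_tame ζ T hp hζ hT hℓ hℓM hpℓ hσ).pow_of_coprime a ha

/-- the same in `𝒪` -/
theorem isPrimitiveRoot_coe_chiGal_tame (hp : p.Prime) (hζ : IsPrimitiveRoot ζ p)
    (hT : ∀ ℓ ∈ T, ℓ.Prime) {a : ℕ} (ha : a.Coprime p) {ℓ : ℕ} [Fact ℓ.Prime] (hℓ : ℓ ∈ T)
    (hℓM : ℓ ∣ M) (hpℓ : p ∣ ℓ - 1) {σ : (padicPlace ℓ).inertiaSubgroupIn ℚ}
    (hσ : TameClause p ℓ σ) :
    IsPrimitiveRoot ((chiGal (psi ζ T M) a ℓ (σ : GQ) : 𝒪ˣ) : 𝒪) p :=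
  IsPrimitiveRoot.coe_units_iff.mpr
    (isPrimitiveRoot_chiGal_tame ζ T hp hζ hT ha hℓ hℓM hpℓ hσ)

/-- `(χ ℓ σ) ^ p = 1` (`hu` of `Assembly/Coeff.params` at `u i := χ ℓ_i σ_i`, `n i := 1`) -/
theorem chiGal_tame_pow (hp : p.Prime) (hζ : IsPrimitiveRoot ζ p)
    (hT : ∀ ℓ ∈ T, ℓ.Prime) {a : ℕ} (ha : a.Coprime p) {ℓ : ℕ} [Fact ℓ.Prime] (hℓ : ℓ ∈ T)
    (hℓM : ℓ ∣ M) (hpℓ : p ∣ ℓ - 1) {σ : (padicPlace ℓ).inertiaSubgroupIn ℚ}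
    (hσ : TameClause p ℓ σ) : chiGal (psi ζ T M) a ℓ (σ : GQ) ^ p = 1 :=
  (isPrimitiveRoot_chiGal_tame ζ T hp hζ hT ha hℓ hℓM hpℓ hσ).pow_eq_one

/-- `(χ ℓ σ) ^ 2 ≠ 1`, `p` odd (`hu2` of `Assembly/Coeff.params`) -/
theorem chiGal_tame_sq_ne (hp : p.Prime) (hp2 : p ≠ 2) (hζ : IsPrimitiveRoot ζ p)
    (hT : ∀ ℓ ∈ T, ℓ.Prime) {a : ℕ} (ha : a.Coprime p) {ℓ : ℕ} [Fact ℓ.Prime] (hℓ : ℓ ∈ T)
    (hℓM : ℓ ∣ M) (hpℓ : p ∣ ℓ - 1) {σ : (padicPlace ℓ).inertiaSubgroupIn ℚ}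
    (hσ : TameClause p ℓ σ) : chiGal (psi ζ T M) a ℓ (σ : GQ) ^ 2 ≠ 1 := by
  intro h
  have h1 := (isPrimitiveRoot_chiGal_tame ζ T hp hζ hT ha hℓ hℓM hpℓ hσ).dvd_of_pow_eq_one 2 h
  have h2 : p ≤ 2 := Nat.le_of_dvd (by norm_num) h1
  have h3 : 2 ≤ p := hp.two_le
  omega

end Gal

/-! ### the bundle -/

section Bundle

/-- **THE TYPE-`χ` CHARACTER** (brick (5)(b) of the chief's #6494), in one statement:
`ψ = psi ζ T M`, `Ξ' = xiChi 𝒪 π ψ`, `χ = chiGal ψ a`. -/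
theorem exists_chiChar {p : ℕ} [hp : Fact p.Prime] (hp2 : p ≠ 2) {𝒪 : Type} [CommRing 𝒪]
    [IsLocalRing 𝒪] (hpm : (p : 𝒪) ∈ IsLocalRing.maximalIdeal 𝒪) {ϖ : 𝒪}
    (hϖ : IsLocalRing.maximalIdeal 𝒪 = Ideal.span {ϖ}) (ζ : 𝒪ˣ)
    (hζ : IsPrimitiveRoot ((ζ : 𝒪ˣ) : 𝒪) p) (T : Finset ℕ) (hT : ∀ ℓ ∈ T, ℓ.Prime ∧ p ∣ ℓ - 1)
    {M : ℕ} [NeZero M] (hTM : ∀ ℓ ∈ T, ℓ ∣ M) {Δ : Type} [CommGroup Δ] (π : (ZMod M)ˣ →* Δ)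
    (h1 : xiOf 𝒪 π (-1) = 1) {a : ℕ} (ha : a.Coprime p) :
    ∃ (ψ : (ZMod M)ˣ →* 𝒪ˣ) (Ξ' : (ZMod M)ˣ →* (MonoidAlgebra 𝒪 Δ)ˣ) (χ : ℕ → GalQ →* 𝒪ˣ),
      (∀ d, ψ d ^ p = 1) ∧
      (∀ d, (∀ ℓ ∈ T, ∀ h : ℓ ∣ M, ZMod.unitsMap h d = 1) → ψ d = 1) ∧
      (∀ (d : (ZMod M)ˣ) (k : ℕ), k.Coprime p → d ^ k = 1 → ψ d = 1) ∧
      (∀ d, ((Ξ' d : (MonoidAlgebra 𝒪 Δ)ˣ) : MonoidAlgebra 𝒪 Δ) =
        MonoidAlgebra.single (π d) ((ψ d : 𝒪ˣ) : 𝒪)) ∧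
      (∀ d, ((Ξ' d : (MonoidAlgebra 𝒪 Δ)ˣ) : MonoidAlgebra 𝒪 Δ) -
        ((xiOf 𝒪 π d : (MonoidAlgebra 𝒪 Δ)ˣ) : MonoidAlgebra 𝒪 Δ) ∈
          Ideal.span ({(MonoidAlgebra.single (1 : Δ) ϖ : MonoidAlgebra 𝒪 Δ)} :
            Set (MonoidAlgebra 𝒪 Δ))) ∧
      Ξ' (-1) = 1 ∧
      (∀ (ℓ : ℕ) (τ : GalQ), χ ℓ τ = ψ (cyc M τ) ^ a) ∧
      (∀ ℓ ∈ T, ∀ τ : GalQ, χ ℓ τ ^ ℓ = χ ℓ τ) ∧
      ChiResTrivial χ ∧
      ∀ (ℓ : ℕ) [Fact ℓ.Prime], ℓ ∈ T →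
        ∀ σ : (padicPlace ℓ).inertiaSubgroupIn ℚ, TameClause p ℓ σ →
          IsPrimitiveRoot ((χ ℓ (σ : GQ) : 𝒪ˣ) : 𝒪) p ∧ χ ℓ (σ : GQ) ^ p = 1 ∧
            χ ℓ (σ : GQ) ^ 2 ≠ 1 := by
  have hζu : IsPrimitiveRoot ζ p := IsPrimitiveRoot.coe_units_iff.mp hζ
  have hζp : ζ ^ p = 1 := hζu.pow_eq_one
  have hTp : ∀ ℓ ∈ T, ℓ.Prime := fun ℓ hℓ => (hT ℓ hℓ).1
  refine ⟨psi ζ T M, xiChi 𝒪 π (psi ζ T M), chiGal (psi ζ T M) a,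
    psi_pow_eq_one ζ T hζp, fun d hd => psi_eq_one ζ T hd,
    fun d k hk hd => psi_eq_one_of_pow_eq_one ζ T hζp hk hd,
    coe_xiChi 𝒪 π _, xiChi_psi_sub_xiOf_mem π ζ T hpm hϖ hζp,
    xiChi_psi_neg_one π ζ T hp2 hζp h1, fun _ _ => rfl,
    fun ℓ hℓ τ => chiGal_pow_self _ a (psi_pow_eq_one ζ T hζp) (hT ℓ hℓ).1.ne_zero (hT ℓ hℓ).2 τ,
    chiResTrivial_chiGal_psi a ζ T hpm hζp, ?_⟩
  intro ℓ _ hℓ σ hσ
  exact ⟨isPrimitiveRoot_coe_chiGal_tame ζ T hp.out hζu hTp ha hℓ (hTM ℓ hℓ) (hT ℓ hℓ).2 hσ,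
    chiGal_tame_pow ζ T hp.out hζu hTp ha hℓ (hTM ℓ hℓ) (hT ℓ hℓ).2 hσ,
    chiGal_tame_sq_ne ζ T hp.out hp2 hζu hTp ha hℓ (hTM ℓ hℓ) (hT ℓ hℓ).2 hσ⟩

end Bundle

end Fermat.Agent.S43.Assembly.ChiChar
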