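/-
PROJECT R (S43), the spine, SETUP: **THE TAYLOR–WILES GROUP** (chief's brick #6494 (5)(a); helper18).

`p` a prime, `Q : Fin r → ℕ` an injective family of primes with `p ^ m ∣ Q i - 1`, `M` a level with
`Q i ∥ M` (e.g. `M = N * ∏ i, Q i`, `Q i ∤ N`).

* `Delta r p m := (i : Fin r) → Multiplicative (ZMod (p ^ m))` (a `Type`; with `e := MulEquiv.refl _`,
  `Patch/GroupRing.gen (fun _ => m) e i` is the `i`-th standard generator `Pi.mulSingle i (ofAdd 1)`:
  `gen_refl`);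
* `piTW … : (ZMod M)ˣ →* Delta r p m`, the product over `i` of a surjection
  `(ZMod (Q i))ˣ →* Multiplicative (ZMod (p ^ m))` (`phiQ`, the cyclic group `(ZMod q)ˣ` modulo its
  subgroup of index `p ^ m`) composed with the reduction `ZMod.unitsMap`;
* `piTW_apply_eq_one`, `piTW_eq_one` : `π d` is trivial (in one coordinate / everywhere) as soon as
  `d ≡ 1` modulo a divisor `K` of `M` divisible by `Q j` (by all `Q i`); in particular for
  `K = ∏ i, Q i` (`piTW_eq_one_of_prod`) and, in the coordinates `j ≠ i`, for `K = M / Q i`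
  (`piTW_apply_eq_one_of_div`);
* `exists_gen` : for every `i` and every `a` prime to `p` there is `d ≡ 1 mod M / Q i` with
  `π (d ^ a) = gen i`;
* `piTW_surjective`;
* `piTW_eq_one_of_pow_eq_one` : `d ^ k = 1`, `k` prime to `p` ⟹ `π d = 1` (the prime-to-`p` part of
  `(ZMod M)ˣ` is in the kernel); `piTW_neg_one` : `π (-1) = 1` (`p` odd);
* the level `M = N * ∏ i, Q i` (`Q` injective, `Q i ∤ N`): `piLevel`, `piLevel_surjective`,
  `piLevel_exists_gen`, `piLevel_eq_one`, `piLevel_apply_eq_one_of_div`, and all six clauses in one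
  statement `exists_pi`;
* the instances on `O[Δ]` asked by helper24's `Hecke/Main.heckeSideOf` are in helper20's
  `Assembly/TwGroupRing.lean` (generic in `(Δ, e)`; it meets this file at `e := MulEquiv.refl _`).
-/
import Mathlib
import Fermat.Agent.S43.Patch.GroupRing

set_option autoImplicit false
set_option linter.unusedSectionVars false
set_option linter.style.haveILetI false

noncomputable section

namespace Fermat.Agent.S43.Assembly.TwGroup

open Fermat.Agent.S43.Patch.GroupRing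

/-! ### the Chinese remainder theorem for units of `ZMod` -/

/-- CRT for units, product form -/
theorem exists_unit_crt_mul {A B : ℕ} (h : A.Coprime B) (u : (ZMod A)ˣ) (v : (ZMod B)ˣ) :
    ∃ d : (ZMod (A * B))ˣ, ZMod.unitsMap (dvd_mul_right A B) d = u ∧
      ZMod.unitsMap (dvd_mul_left B A) d = v := by
  set e := ZMod.chineseRemainder h with he
  set x : (ZMod A × ZMod B)ˣ := MulEquiv.prodUnits.symm (u, v) with hx
  have hx1 : ((x : (ZMod A × ZMod B)ˣ) : ZMod A × ZMod B).1 = (u : ZMod A) := rfl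
  have hx2 : ((x : (ZMod A × ZMod B)ˣ) : ZMod A × ZMod B).2 = (v : ZMod B) := rfl
  set y : ZMod (A * B) := e.symm ((x : (ZMod A × ZMod B)ˣ) : ZMod A × ZMod B) with hy
  have hey : e y = ((x : (ZMod A × ZMod B)ˣ) : ZMod A × ZMod B) := e.apply_symm_apply _
  have hcast : e y = (ZMod.cast y : ZMod A × ZMod B) := rfl
  have he1 : (e y).1 = (ZMod.cast y : ZMod A) := by
    rw [hcast, Prod.fst_zmod_cast]
  have he2 : (e y).2 = (ZMod.cast y : ZMod B) := by
    rw [hcast, Prod.snd_zmod_cast]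
  refine ⟨Units.map (e.symm : ZMod A × ZMod B →* ZMod (A * B)) x, ?_, ?_⟩
  · apply Units.ext
    rw [ZMod.unitsMap_val]
    show (ZMod.cast y : ZMod A) = u
    rw [← he1, hey, hx1]
  · apply Units.ext
    rw [ZMod.unitsMap_val]
    show (ZMod.cast y : ZMod B) = v
    rw [← he2, hey, hx2]

/-- CRT for units, for a level `M = A * B` -/
theorem exists_unit_crt {M A B : ℕ} (hM : M = A * B) (h : A.Coprime B) (hA : A ∣ M) (hB : B ∣ M)
    (u : (ZMod A)ˣ) (v : (ZMod B)ˣ) :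
    ∃ d : (ZMod M)ˣ, ZMod.unitsMap hA d = u ∧ ZMod.unitsMap hB d = v := by
  subst hM
  exact exists_unit_crt_mul h u v

/-- `d ≡ 1 mod L`, `K ∣ L` ⟹ `d ≡ 1 mod K` -/
theorem unitsMap_eq_one_of_dvd {K L M : ℕ} (hKL : K ∣ L) (hLM : L ∣ M) {d : (ZMod M)ˣ}
    (hd : ZMod.unitsMap hLM d = 1) : ZMod.unitsMap (hKL.trans hLM) d = 1 := by
  have h1 : ZMod.unitsMap (hKL.trans hLM) d = ZMod.unitsMap hKL (ZMod.unitsMap hLM d) := by
    rw [← MonoidHom.comp_apply, ZMod.unitsMap_comp]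
  rw [h1, hd, map_one]

/-! ### the cyclic quotient of `(ZMod q)ˣ` -/

section Cyclic

variable (q : ℕ) (hq : q.Prime)

/-- a generator of `(ZMod q)ˣ` -/
def genQ : (ZMod q)ˣ :=
  haveI : Fact q.Prime := ⟨hq⟩
  Classical.choose (IsCyclic.exists_generator (α := (ZMod q)ˣ))

theorem genQ_spec (x : (ZMod q)ˣ) : x ∈ Subgroup.zpowers (genQ q hq) :=
  haveI : Fact q.Prime := ⟨hq⟩
  Classical.choose_spec (IsCyclic.exists_generator (α := (ZMod q)ˣ)) x

theorem orderOf_genQ : orderOf (genQ q hq) = q - 1 := by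
  haveI : Fact q.Prime := ⟨hq⟩
  rw [orderOf_eq_card_of_forall_mem_zpowers (genQ_spec q hq), Nat.card_eq_fintype_card,
    ZMod.card_units]

variable (n : ℕ) [NeZero n] (hn : n ∣ q - 1)

theorem orderOf_ofAdd_one : orderOf (Multiplicative.ofAdd (1 : ZMod n)) = n := by
  rw [orderOf_ofAdd_eq_addOrderOf, ZMod.addOrderOf_one]

/-- the surjection `(ZMod q)ˣ →* Multiplicative (ZMod n)`, `n ∣ q - 1`, sending the chosen generator
to the standard generator -/
def phiQ : (ZMod q)ˣ →* Multiplicative (ZMod n) :=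
  monoidHomOfForallMemZpowers (genQ_spec q hq) (g' := Multiplicative.ofAdd (1 : ZMod n))
    (by rw [orderOf_ofAdd_one, orderOf_genQ]; exact hn)

@[simp] theorem phiQ_genQ : phiQ q hq n hn (genQ q hq) = Multiplicative.ofAdd 1 :=
  monoidHomOfForallMemZpowers_apply_gen _ _

end Cyclic

/-! ### the Taylor–Wiles group and `π` -/

/-- **the Taylor–Wiles group** `Δ = (ℤ/p^m)^r` -/
abbrev Delta (r p m : ℕ) : Type := (_i : Fin r) → Multiplicative (ZMod (p ^ m))

section TW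

variable {r : ℕ} (p m : ℕ) [hp : Fact p.Prime] (Q : Fin r → ℕ) (hQ : ∀ i, (Q i).Prime)
  (hQp : ∀ i, p ^ m ∣ Q i - 1) {M : ℕ} (hQM : ∀ i, Q i ∣ M)

/-- every element of `Δ` is killed by `p ^ m` -/
theorem pow_card_eq_one (x : Delta r p m) : x ^ (p ^ m) = 1 := by
  funext i
  show (x i) ^ (p ^ m) = 1
  rw [← ofAdd_toAdd (x i), ← ofAdd_nsmul, nsmul_eq_mul, ZMod.natCast_self, zero_mul, ofAdd_zero]

/-- with `e := MulEquiv.refl`, the generators of `Patch/GroupRing` are the standard ones -/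
theorem gen_refl (i : Fin r) :
    gen (fun _ : Fin r => m) (MulEquiv.refl (Delta r p m)) i =
      Pi.mulSingle i (Multiplicative.ofAdd 1) := rfl

/-- **the diamond map** `π : (ZMod M)ˣ →* Δ` -/
def piTW : (ZMod M)ˣ →* Delta r p m :=
  MonoidHom.pi fun i => (phiQ (Q i) (hQ i) (p ^ m) (hQp i)).comp (ZMod.unitsMap (hQM i))

theorem piTW_apply (d : (ZMod M)ˣ) (i : Fin r) :
    piTW p m Q hQ hQp hQM d i = phiQ (Q i) (hQ i) (p ^ m) (hQp i) (ZMod.unitsMap (hQM i) d) := rfl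

/-- `(π d) j = 1` when `d ≡ 1` modulo a divisor `K` of `M` with `Q j ∣ K` -/
theorem piTW_apply_eq_one {K : ℕ} (hK : K ∣ M) (j : Fin r) (hjK : Q j ∣ K) {d : (ZMod M)ˣ}
    (hd : ZMod.unitsMap hK d = 1) : piTW p m Q hQ hQp hQM d j = 1 := by
  rw [piTW_apply]
  have h1 : ZMod.unitsMap (hQM j) d = ZMod.unitsMap hjK (ZMod.unitsMap hK d) := by
    rw [← MonoidHom.comp_apply, ZMod.unitsMap_comp]
  rw [h1, hd, map_one, map_one]

/-- `π d = 1` when `d ≡ 1` modulo a divisor `K` of `M` divisible by every `Q i` -/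
theorem piTW_eq_one {K : ℕ} (hK : K ∣ M) (hQK : ∀ i, Q i ∣ K) {d : (ZMod M)ˣ}
    (hd : ZMod.unitsMap hK d = 1) : piTW p m Q hQ hQp hQM d = 1 := by
  funext j
  exact piTW_apply_eq_one p m Q hQ hQp hQM hK j (hQK j) hd

/-- `π d = 1` when `d ≡ 1 mod ∏ i, Q i` -/
theorem piTW_eq_one_of_prod (hK : ∏ i, Q i ∣ M) {d : (ZMod M)ˣ}
    (hd : ZMod.unitsMap hK d = 1) : piTW p m Q hQ hQp hQM d = 1 :=
  piTW_eq_one p m Q hQ hQp hQM hK
    (fun i => Finset.dvd_prod_of_mem Q (Finset.mem_univ i)) hd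

/-- `d ^ k = 1` with `k` prime to `p` ⟹ `π d = 1` -/
theorem piTW_eq_one_of_pow_eq_one {d : (ZMod M)ˣ} {k : ℕ} (hk : k.Coprime p) (hd : d ^ k = 1) :
    piTW p m Q hQ hQp hQM d = 1 := by
  have h1 : piTW p m Q hQ hQp hQM d ^ k = 1 := by rw [← map_pow, hd, map_one]
  have h2 := pow_card_eq_one p m (piTW p m Q hQ hQp hQM d)
  have h3 := pow_gcd_eq_one.mpr ⟨h1, h2⟩
  rwa [Nat.Coprime.pow_right m hk, pow_one] at h3

/-- `π (-1) = 1` for `p` odd -/
theorem piTW_neg_one (hp2 : p ≠ 2) : piTW p m Q hQ hQp hQM (-1) = 1 := by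
  refine piTW_eq_one_of_pow_eq_one p m Q hQ hQp hQM (k := 2) ?_ (by simp)
  rw [Nat.coprime_comm]
  exact (Nat.Prime.coprime_iff_not_dvd hp.out).mpr fun h =>
    hp2 ((Nat.prime_dvd_prime_iff_eq hp.out Nat.prime_two).mp h)

/-- in a coordinate `j` with `Q j ∣ M / Q i`, `π d` is trivial when `d ≡ 1 mod M / Q i` -/
theorem piTW_apply_eq_one_of_div (i j : Fin r) (hdiv : Q j ∣ M / Q i) {d : (ZMod M)ˣ}
    (hd : ZMod.unitsMap (Nat.div_dvd_of_dvd (hQM i)) d = 1) : piTW p m Q hQ hQp hQM d j = 1 :=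
  piTW_apply_eq_one p m Q hQ hQp hQM (Nat.div_dvd_of_dvd (hQM i)) j hdiv hd

/-- an inverse of `a` modulo `p ^ m`, for `a` prime to `p` -/
theorem exists_mul_eq_one {a : ℕ} (ha : a.Coprime p) :
    ∃ b : ℕ, ((a * b : ℕ) : ZMod (p ^ m)) = 1 := by
  have hapm : a.Coprime (p ^ m) := Nat.Coprime.pow_right m ha
  refine ⟨(((ZMod.unitOfCoprime a hapm)⁻¹ : (ZMod (p ^ m))ˣ) : ZMod (p ^ m)).val, ?_⟩
  rw [Nat.cast_mul, ZMod.natCast_zmod_val]
  have h1 := (ZMod.unitOfCoprime a hapm).mul_inv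
  rwa [ZMod.coe_unitOfCoprime] at h1

/-- **the generators are hit, inside the `Q i`-part**: for `a` prime to `p` there is a unit
`d ≡ 1 mod M / Q i` with `π (d ^ a) = gen i` -/
theorem exists_gen (i : Fin r) (hcop : (M / Q i).Coprime (Q i))
    (hdiv : ∀ j, j ≠ i → Q j ∣ M / Q i) {a : ℕ} (ha : a.Coprime p) :
    ∃ d : (ZMod M)ˣ, ZMod.unitsMap (Nat.div_dvd_of_dvd (hQM i)) d = 1 ∧
      piTW p m Q hQ hQp hQM (d ^ a) = Pi.mulSingle i (Multiplicative.ofAdd 1) := by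
  obtain ⟨b, hb⟩ := exists_mul_eq_one p m ha
  obtain ⟨d, hd1, hd2⟩ := exists_unit_crt (Nat.div_mul_cancel (hQM i)).symm hcop
    (Nat.div_dvd_of_dvd (hQM i)) (hQM i) 1 (genQ (Q i) (hQ i) ^ b)
  refine ⟨d, hd1, ?_⟩
  funext j
  by_cases hj : j = i
  · subst hj
    rw [Pi.mulSingle_eq_same, piTW_apply, map_pow, hd2, ← pow_mul, map_pow, phiQ_genQ,
      ← ofAdd_nsmul, nsmul_one, mul_comm, hb]
  · rw [Pi.mulSingle_eq_of_ne hj, map_pow, Pi.pow_apply,
      piTW_apply_eq_one_of_div p m Q hQ hQp hQM i j (hdiv j hj) hd1, one_pow]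

/-- the same with `gen` of `Patch/GroupRing` at `e := MulEquiv.refl` -/
theorem exists_gen' (i : Fin r) (hcop : (M / Q i).Coprime (Q i))
    (hdiv : ∀ j, j ≠ i → Q j ∣ M / Q i) {a : ℕ} (ha : a.Coprime p) :
    ∃ d : (ZMod M)ˣ, ZMod.unitsMap (Nat.div_dvd_of_dvd (hQM i)) d = 1 ∧
      piTW p m Q hQ hQp hQM (d ^ a) =
        gen (fun _ : Fin r => m) (MulEquiv.refl (Delta r p m)) i :=
  exists_gen p m Q hQ hQp hQM i hcop hdiv ha

/-- **`π` is onto** -/
theorem piTW_surjective (hcop : ∀ i, (M / Q i).Coprime (Q i))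
    (hdiv : ∀ i j, j ≠ i → Q j ∣ M / Q i) :
    Function.Surjective (piTW p m Q hQ hQp hQM) := by
  rw [← MonoidHom.mrange_eq_top, eq_top_iff, ← closure_range_mulSingle (fun _ : Fin r => p ^ m),
    Submonoid.closure_le]
  rintro _ ⟨i, rfl⟩
  obtain ⟨d, _, hd⟩ := exists_gen p m Q hQ hQp hQM i (hcop i) (hdiv i) (a := 1)
    (Nat.coprime_one_left p)
  rw [pow_one] at hd
  exact ⟨d, hd⟩

end TW

/-! ### the level `M = N * ∏ i, Q i` -/

section Level

variable {r : ℕ} (Q : Fin r → ℕ) (N : ℕ)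

theorem dvd_level (i : Fin r) : Q i ∣ N * ∏ j, Q j :=
  Dvd.dvd.mul_left (Finset.dvd_prod_of_mem Q (Finset.mem_univ i)) N

theorem prod_dvd_level : ∏ j, Q j ∣ N * ∏ j, Q j := dvd_mul_left _ _

theorem level_div (hQ : ∀ i, (Q i).Prime) (i : Fin r) :
    (N * ∏ j, Q j) / Q i = N * ∏ j ∈ Finset.univ.erase i, Q j := by
  rw [← Finset.mul_prod_erase Finset.univ Q (Finset.mem_univ i), mul_left_comm,
    Nat.mul_div_cancel_left _ (hQ i).pos]

theorem coprime_level_div (hQ : ∀ i, (Q i).Prime) (hinj : Function.Injective Q)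
    (hN : ∀ i, ¬ Q i ∣ N) (i : Fin r) : ((N * ∏ j, Q j) / Q i).Coprime (Q i) := by
  rw [level_div Q N hQ i]
  refine Nat.Coprime.mul_left ?_ ?_
  · exact ((hQ i).coprime_iff_not_dvd.mpr (hN i)).symm
  · refine Nat.Coprime.prod_left fun j hj => ?_
    exact (Nat.coprime_primes (hQ j) (hQ i)).mpr fun h => (Finset.ne_of_mem_erase hj) (hinj h)

theorem dvd_level_div (hQ : ∀ i, (Q i).Prime) (i j : Fin r) (hj : j ≠ i) :
    Q j ∣ (N * ∏ k, Q k) / Q i := by
  rw [level_div Q N hQ i]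
  exact Dvd.dvd.mul_left
    (Finset.dvd_prod_of_mem Q (Finset.mem_erase.mpr ⟨hj, Finset.mem_univ j⟩)) N

theorem level_dvd_div (hQ : ∀ i, (Q i).Prime) (i : Fin r) : N ∣ (N * ∏ k, Q k) / Q i := by
  rw [level_div Q N hQ i]
  exact dvd_mul_right _ _

variable (hQ : ∀ i, (Q i).Prime) (p m : ℕ) [hp : Fact p.Prime] (hQp : ∀ i, p ^ m ∣ Q i - 1)

/-- **`π` at the level `N * ∏ Q i`** -/
abbrev piLevel : (ZMod (N * ∏ j, Q j))ˣ →* Delta r p m :=
  piTW p m Q hQ hQp (dvd_level Q N)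

theorem piLevel_surjective (hinj : Function.Injective Q) (hN : ∀ i, ¬ Q i ∣ N) :
    Function.Surjective (piLevel Q N hQ p m hQp) :=
  piTW_surjective p m Q hQ hQp (dvd_level Q N) (coprime_level_div Q N hQ hinj hN)
    (dvd_level_div Q N hQ)

/-- at the level `N * ∏ Q i`: for `a` prime to `p` there is `d ≡ 1 mod (N * ∏ Q) / Q i`
(so `d ≡ 1 mod N` and `mod Q j`, `j ≠ i`) with `π (d ^ a) = gen i` -/
theorem piLevel_exists_gen (hinj : Function.Injective Q) (hN : ∀ i, ¬ Q i ∣ N) (i : Fin r)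
    {a : ℕ} (ha : a.Coprime p) :
    ∃ d : (ZMod (N * ∏ j, Q j))ˣ,
      ZMod.unitsMap (Nat.div_dvd_of_dvd (dvd_level Q N i)) d = 1 ∧
      piLevel Q N hQ p m hQp (d ^ a) = Pi.mulSingle i (Multiplicative.ofAdd 1) :=
  exists_gen p m Q hQ hQp (dvd_level Q N) i (coprime_level_div Q N hQ hinj hN i)
    (fun j hj => dvd_level_div Q N hQ i j hj) ha

/-- `π d = 1` for `d ≡ 1 mod ∏ Q i` -/
theorem piLevel_eq_one {d : (ZMod (N * ∏ j, Q j))ˣ}
    (hd : ZMod.unitsMap (prod_dvd_level Q N) d = 1) : piLevel Q N hQ p m hQp d = 1 :=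
  piTW_eq_one_of_prod p m Q hQ hQp (dvd_level Q N) (prod_dvd_level Q N) hd

/-- in the coordinates `j ≠ i`, `π d` is trivial when `d ≡ 1 mod (N * ∏ Q) / Q i` -/
theorem piLevel_apply_eq_one_of_div (i j : Fin r) (hj : j ≠ i) {d : (ZMod (N * ∏ j, Q j))ˣ}
    (hd : ZMod.unitsMap (Nat.div_dvd_of_dvd (dvd_level Q N i)) d = 1) :
    piLevel Q N hQ p m hQp d j = 1 :=
  piTW_apply_eq_one_of_div p m Q hQ hQp (dvd_level Q N) i j (dvd_level_div Q N hQ i j hj) hd

include hQ in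
/-- `d ≡ 1 mod (N * ∏ Q) / Q i` ⟹ `d ≡ 1 mod N` -/
theorem unitsMap_level_eq_one (i : Fin r) {d : (ZMod (N * ∏ j, Q j))ˣ}
    (hd : ZMod.unitsMap (Nat.div_dvd_of_dvd (dvd_level Q N i)) d = 1) :
    ZMod.unitsMap (dvd_mul_right N (∏ j, Q j)) d = 1 :=
  unitsMap_eq_one_of_dvd (level_dvd_div Q N hQ i) (Nat.div_dvd_of_dvd (dvd_level Q N i)) hd

include hQ hQp in
/-- **the Taylor–Wiles group with its six clauses, in one statement** (chief's #6494 (5)(a)) -/
theorem exists_pi (hp2 : p ≠ 2) (hinj : Function.Injective Q) (hN : ∀ i, ¬ Q i ∣ N) :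
    ∃ π : (ZMod (N * ∏ j, Q j))ˣ →* Delta r p m,
      Function.Surjective π ∧
      (∀ d, ZMod.unitsMap (prod_dvd_level Q N) d = 1 → π d = 1) ∧
      (∀ i j, j ≠ i → ∀ d,
        ZMod.unitsMap (Nat.div_dvd_of_dvd (dvd_level Q N i)) d = 1 → π d j = 1) ∧
      (∀ i a, a.Coprime p → ∃ d,
        ZMod.unitsMap (Nat.div_dvd_of_dvd (dvd_level Q N i)) d = 1 ∧
        π (d ^ a) = gen (fun _ : Fin r => m) (MulEquiv.refl (Delta r p m)) i) ∧
      π (-1) = 1 ∧
      (∀ d k, k.Coprime p → d ^ k = 1 → π d = 1) :=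
  ⟨piLevel Q N hQ p m hQp, piLevel_surjective Q N hQ p m hQp hinj hN,
    fun _ hd => piLevel_eq_one Q N hQ p m hQp hd,
    fun i j hj _ hd => piLevel_apply_eq_one_of_div Q N hQ p m hQp i j hj hd,
    fun i _ ha => piLevel_exists_gen Q N hQ p m hQp hinj hN i ha,
    piTW_neg_one p m Q hQ hQp (dvd_level Q N) hp2,
    fun _ _ hk hd => piTW_eq_one_of_pow_eq_one p m Q hQ hQp (dvd_level Q N) hk hd⟩

end Level

end Fermat.Agent.S43.Assembly.TwGroup
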