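/-
PROJECT R (S43), the spine, SETUP: **`π` IS ONTO ALREADY ON THE UNITS `≡ 1 mod N`** (helper18; the
arithmetic clause (ii) of helper24's `Hecke/BridgeTate.exists_bridge_TQ` at `Ξ := xiChi 𝒪 π ψ`).

At the level `M = N * ∏ i, Q i` (`Q` injective, primes, `Q i ∤ N`):

* `coprime_level` : `N` and `∏ i, Q i` are coprime;
* `exists_piLevel_eq` : every `δ ∈ Δ` is `π d` for a unit `d ≡ 1 mod N` (`π` factors through
  `(ZMod (∏ Q i))ˣ`: Chinese remainder theorem);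
* `exists_piLevel_eq_and_eq_one` : for any character `ψ` of `(ZMod M)ˣ` trivial on the units
  `≡ 1 mod N`: `∀ δ, ∃ d, π d = δ ∧ ψ d = 1`;
* `exists_piLevel_eq_and_psi_eq_one` : the same for helper16's `ChiChar.psi ζ T M`, `∏ ℓ ∈ T, ℓ ∣ N`;
* `exists_coe_xiChi_eq_single`, `exists_coe_xiOf_eq_single` : helper24's literal
  `∀ δ, ∃ d, ↑(Ξ d) = single δ 1` at `Ξ := xiChi 𝒪 π ψ` and at `Ξ := xiOf 𝒪 π`;
* section `At` : the same statements at a variable level `M` with `hM : M = N * ∏ i, Q i`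
  (`π := TwGroup.piTW p m Q hQ hQp hQM` for ANY `hQM`), proofs by `subst`.
-/
import Mathlib
import Fermat.Agent.S43.Assembly.TwGroup
import Fermat.Agent.S43.Assembly.ChiChar

set_option autoImplicit false
set_option linter.unusedSectionVars false

noncomputable section

namespace Fermat.Agent.S43.Assembly.TwSplit

open Fermat.Agent.S43.Assembly.TwGroup Fermat.Agent.S43.Assembly.ChiChar
open Fermat.Agent.S43.Hecke.Inst

variable {r : ℕ} (Q : Fin r → ℕ) (N : ℕ) (hQ : ∀ i, (Q i).Prime)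

include hQ in
/-- `N` and `∏ Q i` are coprime -/
theorem coprime_level (hN : ∀ i, ¬ Q i ∣ N) : N.Coprime (∏ j, Q j) :=
  Nat.Coprime.prod_right fun j _ => ((hQ j).coprime_iff_not_dvd.mpr (hN j)).symm

variable (p m : ℕ) [hp : Fact p.Prime] (hQp : ∀ i, p ^ m ∣ Q i - 1)

/-- **every element of `Δ` is `π d` with `d ≡ 1 mod N`** -/
theorem exists_piLevel_eq (hinj : Function.Injective Q) (hN : ∀ i, ¬ Q i ∣ N) (δ : Delta r p m) :
    ∃ d : (ZMod (N * ∏ j, Q j))ˣ,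
      piLevel Q N hQ p m hQp d = δ ∧ ZMod.unitsMap (dvd_mul_right N (∏ j, Q j)) d = 1 := by
  obtain ⟨d₀, hd₀⟩ := piLevel_surjective Q N hQ p m hQp hinj hN δ
  obtain ⟨d, hd1, hd2⟩ := exists_unit_crt_mul (coprime_level Q N hQ hN) 1
    (ZMod.unitsMap (prod_dvd_level Q N) d₀)
  refine ⟨d, ?_, hd1⟩
  have h1 : ZMod.unitsMap (prod_dvd_level Q N) (d * d₀⁻¹) = 1 := by
    rw [map_mul, map_inv, hd2, mul_inv_cancel]
  have h2 := piLevel_eq_one Q N hQ p m hQp h1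
  rw [map_mul, map_inv, mul_inv_eq_one] at h2
  rw [h2, hd₀]

/-- **`π` is onto on the kernel of any character trivial on the units `≡ 1 mod N`** -/
theorem exists_piLevel_eq_and_eq_one (hinj : Function.Injective Q) (hN : ∀ i, ¬ Q i ∣ N)
    {G : Type*} [Monoid G] (ψ : (ZMod (N * ∏ j, Q j))ˣ →* G)
    (hψ : ∀ d, ZMod.unitsMap (dvd_mul_right N (∏ j, Q j)) d = 1 → ψ d = 1) (δ : Delta r p m) :
    ∃ d : (ZMod (N * ∏ j, Q j))ˣ, piLevel Q N hQ p m hQp d = δ ∧ ψ d = 1 := by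
  obtain ⟨d, hd, hd1⟩ := exists_piLevel_eq Q N hQ p m hQp hinj hN δ
  exact ⟨d, hd, hψ d hd1⟩

/-- helper16's `ψ = psi ζ T M` is trivial on the units `≡ 1 mod N` when `∏ ℓ ∈ T, ℓ ∣ N` -/
theorem psi_eq_one_of_unitsMap_level {G : Type*} [CommGroup G] (ζ : G) (T : Finset ℕ)
    (hTN : ∏ ℓ ∈ T, ℓ ∣ N) {d : (ZMod (N * ∏ j, Q j))ˣ}
    (hd : ZMod.unitsMap (dvd_mul_right N (∏ j, Q j)) d = 1) :
    psi ζ T (N * ∏ j, Q j) d = 1 :=
  psi_eq_one_of_unitsMap_prod ζ T (hTN.trans (dvd_mul_right N (∏ j, Q j)))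
    (unitsMap_eq_one_of_dvd hTN (dvd_mul_right N (∏ j, Q j)) hd)

/-- **`∀ δ, ∃ d, π d = δ ∧ ψ d = 1`** for helper16's `ψ` -/
theorem exists_piLevel_eq_and_psi_eq_one (hinj : Function.Injective Q) (hN : ∀ i, ¬ Q i ∣ N)
    {G : Type*} [CommGroup G] (ζ : G) (T : Finset ℕ) (hTN : ∏ ℓ ∈ T, ℓ ∣ N) (δ : Delta r p m) :
    ∃ d : (ZMod (N * ∏ j, Q j))ˣ,
      piLevel Q N hQ p m hQp d = δ ∧ psi ζ T (N * ∏ j, Q j) d = 1 :=
  exists_piLevel_eq_and_eq_one Q N hQ p m hQp hinj hN (psi ζ T (N * ∏ j, Q j))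
    (fun _ hd => psi_eq_one_of_unitsMap_level Q N ζ T hTN hd) δ

/-! ### helper24's literal -/

section Xi

variable (𝒪 : Type*) [CommRing 𝒪]

/-- **clause (ii) of `BridgeTate.exists_bridge_TQ` at `Ξ := xiChi 𝒪 π ψ`**, any `ψ` trivial on the
units `≡ 1 mod N` -/
theorem exists_coe_xiChi_eq_single (hinj : Function.Injective Q) (hN : ∀ i, ¬ Q i ∣ N)
    (ψ : (ZMod (N * ∏ j, Q j))ˣ →* 𝒪ˣ)
    (hψ : ∀ d, ZMod.unitsMap (dvd_mul_right N (∏ j, Q j)) d = 1 → ψ d = 1) (δ : Delta r p m) :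
    ∃ d : (ZMod (N * ∏ j, Q j))ˣ,
      ((xiChi 𝒪 (piLevel Q N hQ p m hQp) ψ d : (MonoidAlgebra 𝒪 (Delta r p m))ˣ) :
        MonoidAlgebra 𝒪 (Delta r p m)) = MonoidAlgebra.single δ 1 := by
  obtain ⟨d, hd, hd1⟩ := exists_piLevel_eq_and_eq_one Q N hQ p m hQp hinj hN ψ hψ δ
  refine ⟨d, ?_⟩
  rw [coe_xiChi, hd, hd1, Units.val_one]

/-- the same at helper16's `ψ = psi ζ T M` -/
theorem exists_coe_xiChi_psi_eq_single (hinj : Function.Injective Q) (hN : ∀ i, ¬ Q i ∣ N)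
    (ζ : 𝒪ˣ) (T : Finset ℕ) (hTN : ∏ ℓ ∈ T, ℓ ∣ N) (δ : Delta r p m) :
    ∃ d : (ZMod (N * ∏ j, Q j))ˣ,
      ((xiChi 𝒪 (piLevel Q N hQ p m hQp) (psi ζ T (N * ∏ j, Q j)) d :
        (MonoidAlgebra 𝒪 (Delta r p m))ˣ) : MonoidAlgebra 𝒪 (Delta r p m)) =
          MonoidAlgebra.single δ 1 :=
  exists_coe_xiChi_eq_single Q N hQ p m hQp 𝒪 hinj hN _
    (fun _ hd => psi_eq_one_of_unitsMap_level Q N ζ T hTN hd) δ

/-- **clause (ii) at `Ξ := xiOf 𝒪 π`** -/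
theorem exists_coe_xiOf_eq_single (hinj : Function.Injective Q) (hN : ∀ i, ¬ Q i ∣ N)
    (δ : Delta r p m) :
    ∃ d : (ZMod (N * ∏ j, Q j))ˣ,
      ((xiOf 𝒪 (piLevel Q N hQ p m hQp) d : (MonoidAlgebra 𝒪 (Delta r p m))ˣ) :
        MonoidAlgebra 𝒪 (Delta r p m)) = MonoidAlgebra.single δ 1 := by
  obtain ⟨d, hd⟩ := piLevel_surjective Q N hQ p m hQp hinj hN δ
  exact ⟨d, by rw [coe_xiOf, hd]⟩

end Xi

/-! ### the same at a variable level `M` with an equation `M = N * ∏ i, Q i` -/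

section At

variable {M : ℕ} (hM : M = N * ∏ j, Q j) (hQM : ∀ i, Q i ∣ M)

include hM in
theorem piTW_surjective_at (hinj : Function.Injective Q) (hN : ∀ i, ¬ Q i ∣ N) :
    Function.Surjective (piTW p m Q hQ hQp hQM) := by
  subst hM
  exact piLevel_surjective Q N hQ p m hQp hinj hN

include hM in
theorem exists_piTW_eq_at (hinj : Function.Injective Q) (hN : ∀ i, ¬ Q i ∣ N) (hNM : N ∣ M)
    (δ : Delta r p m) :
    ∃ d : (ZMod M)ˣ, piTW p m Q hQ hQp hQM d = δ ∧ ZMod.unitsMap hNM d = 1 := by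
  subst hM
  exact exists_piLevel_eq Q N hQ p m hQp hinj hN δ

include hM in
theorem exists_piTW_eq_and_eq_one_at (hinj : Function.Injective Q) (hN : ∀ i, ¬ Q i ∣ N)
    (hNM : N ∣ M) {G : Type*} [Monoid G] (ψ : (ZMod M)ˣ →* G)
    (hψ : ∀ d, ZMod.unitsMap hNM d = 1 → ψ d = 1) (δ : Delta r p m) :
    ∃ d : (ZMod M)ˣ, piTW p m Q hQ hQp hQM d = δ ∧ ψ d = 1 := by
  obtain ⟨d, hd, hd1⟩ := exists_piTW_eq_at Q N hQ p m hQp hM hQM hinj hN hNM δ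
  exact ⟨d, hd, hψ d hd1⟩

include hM in
/-- `∀ δ, ∃ d, π d = δ ∧ psi ζ T M d = 1` at a variable level -/
theorem exists_piTW_eq_and_psi_eq_one_at (hinj : Function.Injective Q) (hN : ∀ i, ¬ Q i ∣ N)
    {G : Type*} [CommGroup G] (ζ : G) (T : Finset ℕ) (hTN : ∏ ℓ ∈ T, ℓ ∣ N) (δ : Delta r p m) :
    ∃ d : (ZMod M)ˣ, piTW p m Q hQ hQp hQM d = δ ∧ psi ζ T M d = 1 := by
  subst hM
  exact exists_piLevel_eq_and_psi_eq_one Q N hQ p m hQp hinj hN ζ T hTN δ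

include hM in
/-- **clause (ii) of `BridgeTate.exists_bridge_TQ` at `Ξ := xiChi 𝒪 π (psi ζ T M)`**, variable level -/
theorem exists_coe_xiChi_psi_eq_single_at (𝒪 : Type*) [CommRing 𝒪] (hinj : Function.Injective Q)
    (hN : ∀ i, ¬ Q i ∣ N) (ζ : 𝒪ˣ) (T : Finset ℕ) (hTN : ∏ ℓ ∈ T, ℓ ∣ N) (δ : Delta r p m) :
    ∃ d : (ZMod M)ˣ,
      ((xiChi 𝒪 (piTW p m Q hQ hQp hQM) (psi ζ T M) d : (MonoidAlgebra 𝒪 (Delta r p m))ˣ) :
        MonoidAlgebra 𝒪 (Delta r p m)) = MonoidAlgebra.single δ 1 := by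
  obtain ⟨d, hd, hd1⟩ :=
    exists_piTW_eq_and_psi_eq_one_at Q N hQ p m hQp hM hQM hinj hN ζ T hTN δ
  exact ⟨d, by rw [coe_xiChi, hd, hd1, Units.val_one]⟩

include hM in
/-- **clause (ii) at `Ξ := xiOf 𝒪 π`**, variable level -/
theorem exists_coe_xiOf_eq_single_at (𝒪 : Type*) [CommRing 𝒪] (hinj : Function.Injective Q)
    (hN : ∀ i, ¬ Q i ∣ N) (δ : Delta r p m) :
    ∃ d : (ZMod M)ˣ,
      ((xiOf 𝒪 (piTW p m Q hQ hQp hQM) d : (MonoidAlgebra 𝒪 (Delta r p m))ˣ) :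
        MonoidAlgebra 𝒪 (Delta r p m)) = MonoidAlgebra.single δ 1 := by
  obtain ⟨d, hd⟩ := piTW_surjective_at Q N hQ p m hQp hM hQM hinj hN δ
  exact ⟨d, by rw [coe_xiOf, hd]⟩

end At

end Fermat.Agent.S43.Assembly.TwSplit
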