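/-
PROJECT R (S43), the spine, SETUP: **THE INERTIA ELEMENTS AT THE TAYLOR--WILES PRIMES** (helper18;
follow-up of `Assembly/TwGroup` and `RSide/DispPush`).

`π = TwGroup.piTW … : (ZMod M)ˣ →* Δ` the diamond map, `cyc M : G_ℚ →* (ZMod M)ˣ` the cyclotomic
character.  On the Galois side:

* `piTW_cyc_apply` : `π (cyc M s) j = φ_{Q j} (chi (Q j) s)` (the `j`-th coordinate only sees the
  cyclotomic character modulo `Q j`);
* `piTW_cyc_eq_one_of_inertia` : `π (cyc M s) = 1` for `s` in an inertia group at a prime `ℓ` different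
  from every `Q j` (e.g. `ℓ ∣ N`: this is `Ξ (cyc M s) = 1` of `TypePush`);
* `piTW_cyc_apply_eq_one_of_inertia` : at an inertia group at `Q i`, the coordinates `j ≠ i` are `1`;
* **`exists_tau`** : for every `i`, every valuation ring `A` over `Q i` and every exponent `a` prime to
  `p` there is `τ ∈ I_A` with `π (cyc M τ ^ a) = gen i` (`ℚ(μ_{Q i})` is totally ramified at `Q i`:
  helper16's `ChiChar.chi_inertia_surjective`); this is the `δ` of `RSide/DispPush` at `a := m`, the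
  exponent of the twist.
-/
import Mathlib
import Fermat.Agent.S43.Assembly.TwGroup
import Fermat.Agent.S43.Assembly.ChiChar

set_option autoImplicit false
set_option linter.unusedSectionVars false

noncomputable section

namespace Fermat.Agent.S43.Assembly.TwTau

open Fermat.Agent.S43.Assembly.TwGroup Fermat.Agent.S43.Assembly.ChiChar
open Fermat.Agent.S56.Cheb.Galois.CycChar
open Fermat.Agent.S43.Tw.Defs (cyc)
open Fermat.Agent.S43.Patch.GroupRing

local notation "Qbar" => AlgebraicClosure ℚ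
local notation "GQ" => (AlgebraicClosure ℚ ≃ₐ[ℚ] AlgebraicClosure ℚ)

variable {r : ℕ} (p m : ℕ) [hp : Fact p.Prime] (Q : Fin r → ℕ) (hQ : ∀ i, (Q i).Prime)
  (hQp : ∀ i, p ^ m ∣ Q i - 1) {M : ℕ} [NeZero M] (hQM : ∀ i, Q i ∣ M)

/-- the `j`-th coordinate of `π ∘ cyc M` only sees the cyclotomic character modulo `Q j` -/
theorem piTW_cyc_apply (s : GQ) (j : Fin r) [NeZero (Q j)] :
    piTW p m Q hQ hQp hQM (cyc M s) j = phiQ (Q j) (hQ j) (p ^ m) (hQp j) (chi (Q j) s) := by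
  rw [piTW_apply]
  congr 1
  exact unitsMap_chi (hQM j) s

/-- a coordinate `j` is trivial on the inertia groups at the primes `ℓ ≠ Q j` -/
theorem piTW_cyc_apply_eq_one {ℓ : ℕ} (hℓ : ℓ.Prime) (j : Fin r) (hne : ℓ ≠ Q j)
    {A : ValuationSubring Qbar} (hA : A.LiesOverPrime ℓ) {s : GQ}
    (hs : s ∈ A.inertiaSubgroupIn ℚ) : piTW p m Q hQ hQp hQM (cyc M s) j = 1 := by
  have : Fact (Q j).Prime := ⟨hQ j⟩
  have : NeZero (Q j) := ⟨(hQ j).ne_zero⟩
  rw [piTW_cyc_apply, chi_eq_one_of_mem_inertia hℓ hne hA hs, map_one]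

/-- **`π ∘ cyc M` is trivial on the inertia groups at the primes outside `Q`** -/
theorem piTW_cyc_eq_one_of_inertia {ℓ : ℕ} (hℓ : ℓ.Prime) (hne : ∀ j, ℓ ≠ Q j)
    {A : ValuationSubring Qbar} (hA : A.LiesOverPrime ℓ) {s : GQ}
    (hs : s ∈ A.inertiaSubgroupIn ℚ) : piTW p m Q hQ hQp hQM (cyc M s) = 1 := by
  funext j
  exact piTW_cyc_apply_eq_one p m Q hQ hQp hQM hℓ j (hne j) hA hs

/-- the same for a power -/
theorem piTW_cyc_pow_eq_one_of_inertia {ℓ : ℕ} (hℓ : ℓ.Prime) (hne : ∀ j, ℓ ≠ Q j)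
    {A : ValuationSubring Qbar} (hA : A.LiesOverPrime ℓ) {s : GQ}
    (hs : s ∈ A.inertiaSubgroupIn ℚ) (a : ℕ) : piTW p m Q hQ hQp hQM (cyc M s ^ a) = 1 := by
  rw [map_pow, piTW_cyc_eq_one_of_inertia p m Q hQ hQp hQM hℓ hne hA hs, one_pow]

/-- at an inertia group at `Q i`, the coordinates `j ≠ i` of `π ∘ cyc M` are trivial -/
theorem piTW_cyc_apply_eq_one_of_inertia (hinj : Function.Injective Q) (i j : Fin r) (hj : j ≠ i)
    {A : ValuationSubring Qbar} (hA : A.LiesOverPrime (Q i)) {s : GQ}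
    (hs : s ∈ A.inertiaSubgroupIn ℚ) : piTW p m Q hQ hQp hQM (cyc M s) j = 1 :=
  piTW_cyc_apply_eq_one p m Q hQ hQp hQM (hQ i) j (fun h => hj (hinj h).symm) hA hs

/-- **the inertia element at the `i`-th Taylor--Wiles prime**: for `a` prime to `p` there is `τ` in
the inertia group of `A ∣ Q i` with `π (cyc M τ ^ a) = gen i` -/
theorem exists_tau (hinj : Function.Injective Q) (i : Fin r) {A : ValuationSubring Qbar}
    (hA : A.LiesOverPrime (Q i)) {a : ℕ} (ha : a.Coprime p) :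
    ∃ τ ∈ A.inertiaSubgroupIn ℚ,
      piTW p m Q hQ hQp hQM (cyc M τ ^ a) = Pi.mulSingle i (Multiplicative.ofAdd 1) := by
  have : Fact (Q i).Prime := ⟨hQ i⟩
  have : NeZero (Q i) := ⟨(hQ i).ne_zero⟩
  obtain ⟨b, hb⟩ := exists_mul_eq_one p m ha
  obtain ⟨τ, hτ, hτu⟩ := chi_inertia_surjective hA (genQ (Q i) (hQ i) ^ b)
  refine ⟨τ, hτ, ?_⟩
  funext j
  rw [map_pow, Pi.pow_apply]
  by_cases hj : j = i
  · subst hj
    rw [Pi.mulSingle_eq_same, piTW_cyc_apply, hτu, map_pow, phiQ_genQ, ← pow_mul, ← ofAdd_nsmul,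
      nsmul_one, mul_comm, hb]
  · rw [Pi.mulSingle_eq_of_ne hj,
      piTW_cyc_apply_eq_one_of_inertia p m Q hQ hQp hQM hinj i j hj hA hτ, one_pow]

/-- the same with `gen` of `Patch/GroupRing` at `e := MulEquiv.refl` -/
theorem exists_tau' (hinj : Function.Injective Q) (i : Fin r) {A : ValuationSubring Qbar}
    (hA : A.LiesOverPrime (Q i)) {a : ℕ} (ha : a.Coprime p) :
    ∃ τ ∈ A.inertiaSubgroupIn ℚ,
      piTW p m Q hQ hQp hQM (cyc M τ ^ a) =
        gen (fun _ : Fin r => m) (MulEquiv.refl (Delta r p m)) i :=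
  exists_tau p m Q hQ hQp hQM hinj i hA ha

end Fermat.Agent.S43.Assembly.TwTau
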