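/-
PROJECT R (S43, row 37), ASSEMBLY, file `LevelDisp` (helper18): **THE DIAMONDS AT THE TAYLOR--WILES
PRIMES OF ONE LEVEL** = the hypotheses `hdisp₁`, `hdispχ` of `RSide/FeedQ.nonempty_datumJ_Q(')`, in
the vocabulary of the chief's `Assembly/LevelHecke.exists_heckeSide`:

level `M = N ∏ Qn i`, `Δ = Delta r p (mT + 1)`, `π = TwGroup.piTW p (mT + 1) Qn hQp hQdvd hQM`,
`m = mLev M p`, `H = HLev M p`, the full Hecke algebra `TQ M m p H O S₀ 𝔪` with a datum `h` and an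
input `hin` of (CL+), a subalgebra `T' ≤ TQ` with its datum `h'` (the trace algebra `TQtr`), and a
ring map `Φ : TQ →+* End(M1)` with `Φ (dQ d) = single (π d) 1 •` (clause 7 of `exists_heckeSide`),
resp. `Φχ (dQ d) = ↑(xiChi O π (psi ζ T M) d) •` (clause 8).  Then, for every `i : Fin r`,

  `∃ b : ↥T', ∀ x, (Φ.comp (Subalgebra.inclusion hle).toRingHom) b x = γ (sq O (X i)) • x`.

Everything is discharged inside: the inertia element `τ_i` at `Qn i` with `π (cyc M τ_i ^ m) = gen i`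
(`Assembly/TwTau.exists_tau'`, `m` prime to `p` by `LevelDefs.coprime_mLev`), the gate cubic
(`Rho/Feed/GateLevel.rQ_cubic_D_prime`), the arithmetic of the level, the torsion-freeness of `LamQ`,
and on the `χ`-side `ψ (cyc M τ_i ^ m) = 1` (`τ_i` is unramified at the primes of `N`).
-/
import Mathlib
import Fermat.Agent.S43.Assembly.LevelDefs
import Fermat.Agent.S43.Assembly.TwTau
import Fermat.Agent.S43.Assembly.TwSplit
import Fermat.Agent.S43.Rho.Feed.DispInst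
import Fermat.Agent.S43.Rho.Feed.GateLevel
import Fermat.Agent.S43.Rho.Feed.LevelArith
import Fermat.Agent.S43.RSide.TypePush

set_option autoImplicit false
set_option linter.unusedSectionVars false
set_option linter.style.haveILetI false

noncomputable section

namespace Fermat.Agent.S43.Assembly.LevelDisp

open Polynomial IsLocalRing
open Fermat.Agent.S43.Rho Fermat.Agent.S43.Rho.Props
open Fermat.Agent.S43.Rho.Feed.Inst Fermat.Agent.S43.Rho.Feed.Base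
open Fermat.Agent.S43.Rho.LamInstD
open Fermat.Agent.S43.Rho.LamInst (Sg)
open Fermat.Agent.S43.Tw.Defs (cyc)
open Fermat.Agent.S31.Core (Qbar GQ)
open Fermat.Agent.S53.Dictionary (mapMat resMatOf)
open Fermat.Agent.S43.Patch.GroupRing Fermat.Agent.S43.Patch.GroupRingInv
  Fermat.Agent.S43.Patch.EvenOdd
open Fermat.Agent.S43.Assembly.LevelDefs
open Fermat.Agent.S43.Assembly.TwGroup (Delta piTW)
open Fermat.Agent.S43.Assembly.ChiChar (psi xiChi)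
open Fermat.Agent.S43.Rho.Feed
open scoped IsMulCommutative

attribute [local instance] Glue.smulCommClassT Glue.algebraEnd

/-! ### arithmetic at a Taylor--Wiles prime of the level -/

section Arith

variable {N r : ℕ} {Qn : Fin r → ℕ} {M : ℕ}

/-- `Qn i` does not divide `M / Qn i` (no squarefreeness of `N` is needed) -/
theorem not_dvd_div_Qn (hQinj : Function.Injective Qn) (hQp : ∀ i, (Qn i).Prime)
    (hQN : ∀ i, ¬ Qn i ∣ N) (hM : M = N * ∏ i, Qn i) (i : Fin r) : ¬ Qn i ∣ M / Qn i := by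
  subst hM
  intro h
  have h1 := TwGroup.coprime_level_div Qn N hQp hQinj hQN i
  have h2 : Qn i ∣ 1 := by
    have := Nat.dvd_gcd h (dvd_refl (Qn i))
    rwa [h1] at this
  exact (hQp i).one_lt.ne' (Nat.dvd_one.mp h2)

/-- `(Qn i)² - 1 ≠ 0` in a ring of characteristic zero -/
theorem sq_sub_one_ne_zero {O : Type*} [CommRing O] [CharZero O] {q : ℕ} (hq : q.Prime) :
    ((q : O) ^ 2 - 1) ≠ 0 := by
  intro h
  have h1 : ((q ^ 2 : ℕ) : O) = ((1 : ℕ) : O) := by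
    push_cast
    exact sub_eq_zero.mp h
  have h2 : q ^ 2 = 1 := Nat.cast_injective h1
  have h3 := hq.two_le
  nlinarith

end Arith

/-! ### the statement -/

section Main

variable (p : ℕ) [hp : Fact p.Prime] (hp2 : p ≠ 2)
  (O : Type) [CommRing O] [IsDomain O] [IsLocalRing O] [IsNoetherianRing O]
  [IsAdicComplete (maximalIdeal O) O] [CharZero O] [Algebra ℤ_[p] O]
  (hpO : (p : O) ∈ maximalIdeal O)
  (N : ℕ) (hN5 : 5 ≤ N) (S₀ : Finset ℕ)
  {r : ℕ} (mT : ℕ) (Qn : Fin r → ℕ) (hQinj : Function.Injective Qn)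
  (hQp : ∀ i, (Qn i).Prime) (hQdvd : ∀ i, p ^ (mT + 1) ∣ Qn i - 1) (hQN : ∀ i, ¬ Qn i ∣ N)
  {M : ℕ} [NeZero M] (hM : M = N * ∏ i, Qn i) (hQM : ∀ i, Qn i ∣ M) (hM5 : 5 ≤ M)
  (𝔪 : Ideal (MvPolynomial (K M p S₀) O)) [𝔪.IsMaximal]
  [Module.Finite O (LamQ M (mLev M p) p (HLev M p) O S₀ 𝔪)]
  [IsMulCommutative ↥(TQ M (mLev M p) p (HLev M p) O S₀ 𝔪)]
  [IsLocalRing ↥(TQ M (mLev M p) p (HLev M p) O S₀ 𝔪)]
  [IsLocalHom (algebraMap O ↥(TQ M (mLev M p) p (HLev M p) O S₀ 𝔪))]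
  [Invertible (2 : ↥(TQ M (mLev M p) p (HLev M p) O S₀ 𝔪))]
  {Sg' : Finset ℕ}
  (h : Dens.Datum Sg' (maximalIdeal O) (rQ M (mLev M p) p (HLev M p) O S₀ 𝔪) (eps p O)
    (TQ M (mLev M p) p (HLev M p) O S₀ 𝔪))
  {c g₀ h₀ : GQ}
  (hin : CH.Input (E := Module.End ↥(TQ M (mLev M p) p (HLev M p) O S₀ 𝔪)
      (LamQ M (mLev M p) p (HLev M p) O S₀ 𝔪)) (Dens.rT h) (Dens.tT h)
    (Glue.dHom (eps p O) (TQ M (mLev M p) p (HLev M p) O S₀ 𝔪)) c g₀ h₀)
  {T' : Subalgebra O (Module.End O (LamQ M (mLev M p) p (HLev M p) O S₀ 𝔪))}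
  [IsMulCommutative ↥T']
  (h' : Dens.Datum Sg' (maximalIdeal O) (rQ M (mLev M p) p (HLev M p) O S₀ 𝔪) (eps p O) T')
  (hle : T' ≤ TQ M (mLev M p) p (HLev M p) O S₀ 𝔪)
  (rbar : ResidualGaloisRep (ResidueField O))
  (b : Module.Basis (Fin 2) (ResidueField O) rbar.V)
  (hmap : mapMat (residue ↥(TQ M (mLev M p) p (HLev M p) O S₀ 𝔪)) (CH.rep hin) =
    mapMat (ResidueField.map (algebraMap O ↥(TQ M (mLev M p) p (HLev M p) O S₀ 𝔪)))
      (resMatOf rbar b))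
  (hunr : ∀ i, rbar.IsUnramifiedAt (Qn i))
  (γ : MvPowerSeries (Fin r) O →ₐ[O] MonoidAlgebra O (Delta r p (mT + 1)))
  (hγ : ∀ i, γ (MvPowerSeries.X i) =
    zel O (gen (fun _ : Fin r => mT + 1) (MulEquiv.refl (Delta r p (mT + 1)))) i)
  {M1 : Type*} [AddCommGroup M1] [Module (MonoidAlgebra O (Delta r p (mT + 1))) M1]
  {A' : Type*} [Semiring A'] [Module A' M1]
  (Φ : ↥(TQ M (mLev M p) p (HLev M p) O S₀ 𝔪) →+* Module.End A' M1)

include hp2 hpO hN5 hQinj hQN hM hM5 hin h' hmap hunr hγ in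
/-- **one Taylor--Wiles prime, one side, the diamond acting through `τ`** (the common core) -/
theorem hdisp_core (i : Fin r)
    (hΦd : ∀ A : ValuationSubring Qbar, A.LiesOverPrime (Qn i) →
      ∀ τ ∈ A.inertiaSubgroupIn ℚ, ∀ x : M1,
      Φ (dQ M (mLev M p) p (HLev M p) O S₀ 𝔪 (cyc M τ ^ mLev M p)) x =
        (MonoidAlgebra.single (piTW p (mT + 1) Qn hQp hQdvd hQM (cyc M τ ^ mLev M p)) (1 : O) :
          MonoidAlgebra O (Delta r p (mT + 1))) • x) :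
    ∃ b : ↥T', ∀ x : M1,
      (Φ.comp (Subalgebra.inclusion hle).toRingHom) b x =
        γ (sq O (MvPowerSeries.X i)) • x := by
  haveI : Fact (Qn i).Prime := ⟨hQp i⟩
  have hA := Fermat.Agent.CFT.LocalBridge.liesOverPrime_padicPlace (Qn i)
  have hN0 : N ≠ 0 := by omega
  have hpQ : p ∣ Qn i - 1 := (dvd_pow_self p (Nat.succ_ne_zero mT)).trans (hQdvd i)
  have hpM : p ∣ Nat.card (ZMod M)ˣ := dvd_card_units_of_dvd M p (hQp i) (hQM i) hpQ
  have hcop : (mLev M p).Coprime p := coprime_mLev M p hp2 hpM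
  obtain ⟨τ, hτ, hτπ⟩ := TwTau.exists_tau' p (mT + 1) Qn hQp hQdvd hQM hQinj i hA hcop
  have hℓ2 : ¬ Qn i ∣ M / Qn i := not_dvd_div_Qn hQinj hQp hQN hM i
  have h5 : 5 ≤ M / Qn i := LevelArith.five_le_div_Qn hN0 hQp hQN hM hN5 i
  have hpℓ : p ≠ Qn i := LevelArith.ne_of_dvd_sub_one hp.out (hQp i) (hQdvd i)
  have hcube := GateLevel.rQ_cubic_D_prime (hQp i) (hQM i) hℓ2 h5 (mLev M p) p hp2 hpℓ
    (GateLevel.containsTorAt_of_forall (hQM i) (hHtor_lev M p)) (hHm_lev M p hp2) O S₀ 𝔪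
    _ hA τ hτ
  exact DispInst.hdisp_TQ M (mLev M p) p (HLev M p) O S₀ 𝔪 h hin h' hle (hQp i) hpℓ.symm (hQM i)
    hℓ2 hpO rbar b hmap (hunr i)
    (fun w hw => GateType.torsionFree_LamQ M (mLev M p) p (HLev M p) O S₀ 𝔪 hM5
      (sq_sub_one_ne_zero (hQp i)) w hw)
    _ hA τ hτ hcube (piTW p (mT + 1) Qn hQp hQdvd hQM) γ _ hγ i (Or.inl hτπ.symm) Φ
    (hΦd _ hA τ hτ)

include hp2 hpO hN5 hQinj hQN hM hM5 hin h' hmap hunr hγ in
/-- **`hdisp₁`** : `Φ₁ (dQ d) = single (π d) 1 •` (clause 7 of `LevelHecke.exists_heckeSide`) -/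
theorem hdisp₁
    (hΦd : ∀ (d : (ZMod M)ˣ) (x : M1), Φ (dQ M (mLev M p) p (HLev M p) O S₀ 𝔪 d) x =
      (MonoidAlgebra.single (piTW p (mT + 1) Qn hQp hQdvd hQM d) (1 : O) :
        MonoidAlgebra O (Delta r p (mT + 1))) • x) (i : Fin r) :
    ∃ b : ↥T', ∀ x : M1,
      (Φ.comp (Subalgebra.inclusion hle).toRingHom) b x =
        γ (sq O (MvPowerSeries.X i)) • x :=
  hdisp_core p hp2 O hpO N hN5 S₀ mT Qn hQinj hQp hQdvd hQN hM hQM hM5 𝔪 h hin h' hle rbar b hmap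
    hunr γ hγ Φ i (fun _ _ _ _ x => hΦd _ x)

include hp2 hpO hN5 hQinj hQN hM hM5 hin h' hmap hunr hγ in
/-- **`hdispχ`** : `Φχ (dQ d) = ↑(xiChi O π (psi ζ T M) d) •` (clause 8 of
`LevelHecke.exists_heckeSide`), `∏ ℓ ∈ T, ℓ ∣ N` -/
theorem hdispχ (ζ : Oˣ) (T : Finset ℕ) (hTN : ∏ ℓ ∈ T, ℓ ∣ N) (hNM : N ∣ M)
    (hΦd : ∀ (d : (ZMod M)ˣ) (z : M1), Φ (dQ M (mLev M p) p (HLev M p) O S₀ 𝔪 d) z =
      ((xiChi O (piTW p (mT + 1) Qn hQp hQdvd hQM) (psi ζ T M) d :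
        (MonoidAlgebra O (Delta r p (mT + 1)))ˣ) : MonoidAlgebra O (Delta r p (mT + 1))) • z)
    (i : Fin r) :
    ∃ b : ↥T', ∀ z : M1,
      (Φ.comp (Subalgebra.inclusion hle).toRingHom) b z =
        γ (sq O (MvPowerSeries.X i)) • z := by
  refine hdisp_core p hp2 O hpO N hN5 S₀ mT Qn hQinj hQp hQdvd hQN hM hQM hM5 𝔪 h hin h' hle rbar b
    hmap hunr γ hγ Φ i (fun A hA τ hτ z => ?_)
  have h1 : ZMod.unitsMap hNM (cyc M τ ^ mLev M p) = 1 :=
    Fermat.Agent.S43.RSide.TypePush.unitsMap_cyc_pow_eq_one (hQp i) hA hτ hNM (hQN i) _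
  have h2 : psi ζ T M (cyc M τ ^ mLev M p) = 1 :=
    ChiChar.psi_eq_one_of_unitsMap_prod ζ T (hTN.trans hNM)
      (TwGroup.unitsMap_eq_one_of_dvd hTN hNM h1)
  rw [hΦd, ChiChar.coe_xiChi, h2, Units.val_one]

end Main

end Fermat.Agent.S43.Assembly.LevelDisp
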