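/-
PROJECT R (S43, row 37), ASSEMBLY, file `LevelTrace` (helper16; hand-out (2) of the chief's #6609):
**THE TWO TRACE IDENTITIES ON INERTIA AT A PRIME `ℓ ∥ M` OF THE LEVEL, IN THE FULL HECKE ALGEBRA**.

`rR := CH.rep hin'` over a subalgebra `T' ≤ TQ M (mLev M p) p (HLev M p) O S₀ 𝔪` (the trace algebra
`TQtr`), `s` in an inertia group at `ℓ ∥ M`, `ℓ ≠ p`, `5 ≤ M / ℓ`, `ρ̄` unramified at `ℓ`,
`d = cyc M s ^ mLev M p` :

* **`inclusion_trace`**    : `incl (tr rR s)   = ⟨d⟩ + ⟨d⟩⁻¹` ;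
* **`inclusion_trace_sq`** : `incl (tr rR s²) = ⟨d⟩² + ⟨d⟩⁻²` ;
* `det_eq_one` : `det rR s = 1`.

NO GATE HYPOTHESIS : the cubic is helper7's `Rho/Feed/GateLevel.rQ_cubic_D_prime` at
`(m, H) := (mLev M p, HLev M p)` (helper4's gate G inside), the types over the full `TQ` are helper15's
`Rho/Feed/GateType.trace_rhoT_inertia` / `trace_sq_rhoT_inertia`, the passage `T' → TQ` is
`RSide/TypePush.inclusion_trace_rep`.
-/
import Mathlib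
import Fermat.Agent.S43.Assembly.LevelDefs
import Fermat.Agent.S43.Rho.Feed.GateLevel
import Fermat.Agent.S43.Rho.Feed.GateType
import Fermat.Agent.S43.RSide.TypePush

set_option autoImplicit false
set_option linter.unusedSectionVars false

noncomputable section

namespace Fermat.Agent.S43.Assembly.LevelTrace

open IsLocalRing
open Fermat.Agent.S43.Rho Fermat.Agent.S43.Rho.Props
open Fermat.Agent.S43.Rho.Feed.Inst (eps)
open Fermat.Agent.S43.Rho.LamInstD (K TQ tQ dQ rQ LamQ)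
open Fermat.Agent.S43.Assembly.LevelDefs
open Fermat.Agent.S43.Tw.Defs (cyc)
open Fermat.Agent.S31.Core (Qbar GQ)
open Fermat.Agent.S53.Dictionary (mapMat resMatOf)
open scoped IsMulCommutative

attribute [local instance] Glue.smulCommClassT Glue.algebraEnd

variable (M : ℕ) [NeZero M] (p : ℕ) [hp : Fact p.Prime] (hp2 : p ≠ 2)
  (O : Type) [CommRing O] [Algebra ℤ_[p] O] (S₀ : Finset ℕ)
  (𝔪 : Ideal (MvPolynomial (K M p S₀) O)) [𝔪.IsMaximal]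
  [IsLocalRing O] [IsNoetherianRing O]
  [Module.Finite O (LamQ M (mLev M p) p (HLev M p) O S₀ 𝔪)]
  [IsMulCommutative ↥(TQ M (mLev M p) p (HLev M p) O S₀ 𝔪)]
  [IsLocalRing ↥(TQ M (mLev M p) p (HLev M p) O S₀ 𝔪)]
  [IsLocalHom (algebraMap O ↥(TQ M (mLev M p) p (HLev M p) O S₀ 𝔪))]
  [Invertible (2 : ↥(TQ M (mLev M p) p (HLev M p) O S₀ 𝔪))]
  {Sg : Finset ℕ}
  (h : Dens.Datum Sg (maximalIdeal O) (rQ M (mLev M p) p (HLev M p) O S₀ 𝔪) (eps p O)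
    (TQ M (mLev M p) p (HLev M p) O S₀ 𝔪))
  {c g₀ h₀ : GQ}
  (hin : CH.Input (E := Module.End ↥(TQ M (mLev M p) p (HLev M p) O S₀ 𝔪)
      (LamQ M (mLev M p) p (HLev M p) O S₀ 𝔪)) (Dens.rT h) (Dens.tT h)
    (Glue.dHom (eps p O) (TQ M (mLev M p) p (HLev M p) O S₀ 𝔪)) c g₀ h₀)
  {T' : Subalgebra O (Module.End O (LamQ M (mLev M p) p (HLev M p) O S₀ 𝔪))}
  [IsMulCommutative ↥T'] [IsLocalRing ↥T'] [IsLocalHom (algebraMap O ↥T')] [Invertible (2 : ↥T')]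
  (h' : Dens.Datum Sg (maximalIdeal O) (rQ M (mLev M p) p (HLev M p) O S₀ 𝔪) (eps p O) T')
  {c' g₀' h₀' : GQ}
  (hin' : CH.Input (E := Module.End ↥T' (LamQ M (mLev M p) p (HLev M p) O S₀ 𝔪)) (Dens.rT h')
    (Dens.tT h') (Glue.dHom (eps p O) T') c' g₀' h₀')
  (hle : T' ≤ TQ M (mLev M p) p (HLev M p) O S₀ 𝔪)
  {ℓ : ℕ} (hℓ : ℓ.Prime) (hℓp : ℓ ≠ p) (hℓM : ℓ ∣ M) (hℓ2 : ¬ ℓ ∣ M / ℓ) (hN : 5 ≤ M / ℓ)
  (hpO : (p : O) ∈ maximalIdeal O)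
  (rbar : ResidualGaloisRep (ResidueField O))
  (b : Module.Basis (Fin 2) (ResidueField O) rbar.V)
  (hmap : mapMat (residue ↥(TQ M (mLev M p) p (HLev M p) O S₀ 𝔪)) (CH.rep hin) =
    mapMat (ResidueField.map (algebraMap O ↥(TQ M (mLev M p) p (HLev M p) O S₀ 𝔪)))
      (resMatOf rbar b))

include hp2 hℓ hℓp hℓM hℓ2 hN in
/-- **the gate cubic at `ℓ ∥ M`** on the module of record at `(mLev M p, HLev M p)` -/
theorem cubic (A : ValuationSubring Qbar) (hA : A.LiesOverPrime ℓ) (s : GQ)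
    (hs : s ∈ A.inertiaSubgroupIn ℚ) :
    (rQ M (mLev M p) p (HLev M p) O S₀ 𝔪 s -
          (dQ M (mLev M p) p (HLev M p) O S₀ 𝔪 (cyc M s ^ mLev M p) :
            TQ M (mLev M p) p (HLev M p) O S₀ 𝔪)) *
        (rQ M (mLev M p) p (HLev M p) O S₀ 𝔪 s -
          (dQ M (mLev M p) p (HLev M p) O S₀ 𝔪 (cyc M s ^ mLev M p) :
            TQ M (mLev M p) p (HLev M p) O S₀ 𝔪)) *
      (rQ M (mLev M p) p (HLev M p) O S₀ 𝔪 s -
          (dQ M (mLev M p) p (HLev M p) O S₀ 𝔪 (cyc M s ^ mLev M p)⁻¹ :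
            TQ M (mLev M p) p (HLev M p) O S₀ 𝔪)) = 0 :=
  Fermat.Agent.S43.Rho.Feed.GateLevel.rQ_cubic_D_prime hℓ hℓM hℓ2 hN (mLev M p) p hp2 hℓp.symm
    (Fermat.Agent.S43.Rho.Feed.GateLevel.containsTorAt_of_forall hℓM (hHtor_lev M p))
    (hHm_lev M p hp2) O S₀ 𝔪 A hA s hs

include hp2 hℓ hℓp hℓM hℓ2 hN hpO hmap in
/-- **`incl (tr rR s) = ⟨d⟩ + ⟨d⟩⁻¹`**, `d = cyc M s ^ mLev M p`, `s` in inertia at `ℓ ∥ M` -/
theorem inclusion_trace (hunr : rbar.IsUnramifiedAt ℓ)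
    (htf : ∀ w : LamQ M (mLev M p) p (HLev M p) O S₀ 𝔪, ((ℓ : O) ^ 2 - 1) • w = 0 → w = 0)
    (A : ValuationSubring Qbar) (hA : A.LiesOverPrime ℓ) (s : GQ)
    (hs : s ∈ A.inertiaSubgroupIn ℚ) :
    Subalgebra.inclusion hle ((CH.rep hin' s).trace) =
      dQ M (mLev M p) p (HLev M p) O S₀ 𝔪 (cyc M s ^ mLev M p) +
        dQ M (mLev M p) p (HLev M p) O S₀ 𝔪 (cyc M s ^ mLev M p)⁻¹ := by
  rw [Fermat.Agent.S43.RSide.TypePush.inclusion_trace_rep h hin h' hin' hle s,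
    CH.trace_rep hin s, ← Det.trace_rhoT h hin s]
  exact Fermat.Agent.S43.Rho.Feed.GateType.trace_rhoT_inertia M (mLev M p) p (HLev M p) O S₀ 𝔪 h
    hin hℓ hℓp hℓM hℓ2 hpO rbar b hmap hunr htf A hA s hs
    (cubic M p hp2 O S₀ 𝔪 hℓ hℓp hℓM hℓ2 hN A hA s hs)

include hp2 hℓ hℓp hℓM hℓ2 hN hpO hmap in
/-- **`incl (tr rR s²) = ⟨d⟩² + ⟨d⟩⁻²`**, `d = cyc M s ^ mLev M p`, `s` in inertia at `ℓ ∥ M` -/
theorem inclusion_trace_sq (hunr : rbar.IsUnramifiedAt ℓ)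
    (htf : ∀ w : LamQ M (mLev M p) p (HLev M p) O S₀ 𝔪, ((ℓ : O) ^ 2 - 1) • w = 0 → w = 0)
    (A : ValuationSubring Qbar) (hA : A.LiesOverPrime ℓ) (s : GQ)
    (hs : s ∈ A.inertiaSubgroupIn ℚ) :
    Subalgebra.inclusion hle ((CH.rep hin' (s * s)).trace) =
      dQ M (mLev M p) p (HLev M p) O S₀ 𝔪 (cyc M s ^ mLev M p) *
          dQ M (mLev M p) p (HLev M p) O S₀ 𝔪 (cyc M s ^ mLev M p) +
        dQ M (mLev M p) p (HLev M p) O S₀ 𝔪 (cyc M s ^ mLev M p)⁻¹ *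
          dQ M (mLev M p) p (HLev M p) O S₀ 𝔪 (cyc M s ^ mLev M p)⁻¹ := by
  rw [Fermat.Agent.S43.RSide.TypePush.inclusion_trace_rep h hin h' hin' hle (s * s),
    CH.trace_rep hin (s * s), ← Det.trace_rhoT h hin (s * s)]
  exact Fermat.Agent.S43.Rho.Feed.GateType.trace_sq_rhoT_inertia M (mLev M p) p (HLev M p) O S₀ 𝔪
    h hin hℓ hℓp hℓM hℓ2 hpO rbar b hmap hunr htf A hA s hs
    (cubic M p hp2 O S₀ 𝔪 hℓ hℓp hℓM hℓ2 hN A hA s hs)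

include hℓ hℓp in
/-- **`det rR s = 1`** on inertia at `ℓ ≠ p` -/
theorem det_eq_one (A : ValuationSubring Qbar) (hA : A.LiesOverPrime ℓ) (s : GQ)
    (hs : s ∈ A.inertiaSubgroupIn ℚ) : (CH.rep hin' s).det = 1 :=
  Fermat.Agent.S43.RSide.TypePush.hdetσ h' hin'
    (Fermat.Agent.S43.Rho.Feed.GateType.eps_eq_one_of_inertia p O hℓ hℓp A hA s hs)

end Fermat.Agent.S43.Assembly.LevelTrace
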