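/-
PROJECT R (S43, row 37), ASSEMBLY, file `LevelType` (helper16): **`hdetσ`, `htr1`, `htrχ` OF
`RSide/FeedQ.nonempty_datumJ_Q(')` FOR ONE TAYLOR--WILES LEVEL**, in the vocabulary of the chief's
`LevelHecke.exists_heckeSide` (companion of helper18's `LevelDisp`).

Level `M = N ∏ Qn i`, `N` squarefree, `Δ = Delta r p (mT + 1)`,
`π = piTW p (mT + 1) Qn hQp hQdvd hQM`, `Ξ' = xiChi O π (psi ζ T M)`, `m = mLev M p`,
`H = HLev M p`, the full Hecke algebra `TQ M m p H O S₀ 𝔪` with a datum `h` and an input `hin` of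
(CL+), a subalgebra `T' ≤ TQ` with its datum `h'` and input `hin'` (the trace algebra `TQtr`), and a
ring map `Φ : TQ →+* End_{A'}(M1)`.

INPUT = clauses 6, 7, 8 of `exists_heckeSide` VERBATIM :
`hΦd : Φ (dQ d) x = single (π d) 1 • x` (clause 7), resp.
`hΦO : Φ (algebraMap O TQ a) z = single 1 a • z` (clause 6) and
`hΦd : Φ (dQ d) z = ↑(xiChi O π (psi ζ T M) d) • z` (clause 8).
OUTPUT, for `rR := CH.rep hin'` and `σ` in an inertia group at a prime `ℓ ∣ N`, `ℓ ≠ p` at which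
`rbar` is unramified :

* **`htr1`** : `(Φ ∘ incl) (tr rR σ) = 2` ;
* **`htrχ`** (`ℓ ∈ T`, `p ∣ ℓ - 1`) :
  `(Φ ∘ incl) (tr rR σ) = (Φ ∘ incl) (algebraMap O T' (↑u + ↑u⁻¹))`,
  `u = ChiFix.uFix ζ p ℓ σ` (helper21's LEVEL-INDEPENDENT parameter) ;
* `hdetσ` : `det rR σ = 1`.

Everything else is discharged inside: the gate cubic (`LevelTrace`), `π (cyc M σ ^ m) = 1`,
`Ξ' (cyc M σ ^ m) = u`, `p ∣ 2 mLev M p + 1`, the arithmetic of the level (`ℓ ∣ M`,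
`¬ ℓ ∣ M / ℓ`, `5 ≤ M / ℓ` from ONE Taylor--Wiles prime `Qn i₀`), the torsion-freeness of `LamQ`.
The first half of the file (`…_of_prod`) is the same for any `M` with `∏ Qn i ∣ M`, `ℓ ≠ Qn i`.
-/
import Mathlib
import Fermat.Agent.S43.Assembly.LevelTrace
import Fermat.Agent.S43.RSide.ChiFix
import Fermat.Agent.S43.Assembly.TwGroup
import Fermat.Agent.S43.Rho.Feed.LevelArith

set_option autoImplicit false
set_option linter.unusedSectionVars false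
set_option linter.style.haveILetI false

noncomputable section

namespace Fermat.Agent.S43.Assembly.LevelType

open IsLocalRing
open Fermat.Agent.S43.Rho Fermat.Agent.S43.Rho.Props
open Fermat.Agent.S43.Rho.Feed.Inst (eps)
open Fermat.Agent.S43.Rho.LamInstD (K TQ tQ dQ rQ LamQ)
open Fermat.Agent.S43.Assembly.LevelDefs
open Fermat.Agent.S43.Assembly.TwGroup (Delta piTW)
open Fermat.Agent.S43.Assembly.ChiChar (psi xiChi chiGal)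
open Fermat.Agent.S43.RSide.ChiFix (uFix)
open Fermat.Agent.S43.Tw.Defs (cyc)
open Fermat.Agent.S31.Core (Qbar GQ)
open Fermat.Agent.S53.Dictionary (mapMat resMatOf)
open Fermat.Agent.S43.Rho.Feed
open scoped IsMulCommutative

attribute [local instance] Glue.smulCommClassT Glue.algebraEnd

/-! ### PART 1 : any `M` with `∏ Qn i ∣ M`, a prime `ℓ ∥ M`, `ℓ ≠ Qn i` -/

section Prod

variable (M : ℕ) [NeZero M] (p : ℕ) [hp : Fact p.Prime] (hp2 : p ≠ 2)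
  (O : Type) [CommRing O] [Algebra ℤ_[p] O] (S₀ : Finset ℕ)
  (𝔪 : Ideal (MvPolynomial (K M p S₀) O)) [𝔪.IsMaximal]
  [IsLocalRing O] [IsNoetherianRing O]
  [Module.Finite O (LamQ M (mLev M p) p (HLev M p) O S₀ 𝔪)]
  [IsMulCommutative ↥(TQ M (mLev M p) p (HLev M p) O S₀ 𝔪)]
  [IsLocalRing ↥(TQ M (mLev M p) p (HLev M p) O S₀ 𝔪)]
  [IsLocalHom (algebraMap O ↥(TQ M (mLev M p) p (HLev M p) O S₀ 𝔪))]
  [Invertible (2 : ↥(TQ M (mLev M p) p (HLev M p) O S₀ 𝔪))]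
  {Sg : Finset ℕ}
  (h : Dens.Datum Sg (maximalIdeal O) (rQ M (mLev M p) p (HLev M p) O S₀ 𝔪) (eps p O)
    (TQ M (mLev M p) p (HLev M p) O S₀ 𝔪))
  {c g₀ h₀ : GQ}
  (hin : CH.Input (E := Module.End ↥(TQ M (mLev M p) p (HLev M p) O S₀ 𝔪)
      (LamQ M (mLev M p) p (HLev M p) O S₀ 𝔪)) (Dens.rT h) (Dens.tT h)
    (Glue.dHom (eps p O) (TQ M (mLev M p) p (HLev M p) O S₀ 𝔪)) c g₀ h₀)
  {T' : Subalgebra O (Module.End O (LamQ M (mLev M p) p (HLev M p) O S₀ 𝔪))}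
  [IsMulCommutative ↥T'] [IsLocalRing ↥T'] [IsLocalHom (algebraMap O ↥T')] [Invertible (2 : ↥T')]
  (h' : Dens.Datum Sg (maximalIdeal O) (rQ M (mLev M p) p (HLev M p) O S₀ 𝔪) (eps p O) T')
  {c' g₀' h₀' : GQ}
  (hin' : CH.Input (E := Module.End ↥T' (LamQ M (mLev M p) p (HLev M p) O S₀ 𝔪)) (Dens.rT h')
    (Dens.tT h') (Glue.dHom (eps p O) T') c' g₀' h₀')
  (hle : T' ≤ TQ M (mLev M p) p (HLev M p) O S₀ 𝔪)
  {ℓ : ℕ} [hℓF : Fact ℓ.Prime] (hℓp : ℓ ≠ p) (hℓM : ℓ ∣ M) (hℓ2 : ¬ ℓ ∣ M / ℓ) (hN : 5 ≤ M / ℓ)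
  (hpO : (p : O) ∈ maximalIdeal O)
  (rbar : ResidualGaloisRep (ResidueField O))
  (b : Module.Basis (Fin 2) (ResidueField O) rbar.V)
  (hmap : mapMat (residue ↥(TQ M (mLev M p) p (HLev M p) O S₀ 𝔪)) (CH.rep hin) =
    mapMat (ResidueField.map (algebraMap O ↥(TQ M (mLev M p) p (HLev M p) O S₀ 𝔪)))
      (resMatOf rbar b))
  -- the Taylor--Wiles group
  {r : ℕ} (mT : ℕ) (Qn : Fin r → ℕ) (hQp : ∀ i, (Qn i).Prime)
  (hQdvd : ∀ i, p ^ (mT + 1) ∣ Qn i - 1) (hQM : ∀ i, Qn i ∣ M) (hQprod : ∏ i, Qn i ∣ M)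
  (hℓQ : ∀ i, ℓ ≠ Qn i)
  -- the module and the action
  {M1 : Type*} [AddCommGroup M1] [Module (MonoidAlgebra O (Delta r p (mT + 1))) M1]
  {A' : Type*} [Semiring A'] [Module A' M1]
  (Φ : ↥(TQ M (mLev M p) p (HLev M p) O S₀ 𝔪) →+* Module.End A' M1)

include hQp hℓQ in
/-- a prime `ℓ ≠ Qn i` does not divide the product of the Taylor--Wiles primes -/
theorem not_dvd_prod : ¬ ℓ ∣ ∏ i, Qn i := by
  intro hd
  obtain ⟨i, -, hi⟩ := (Prime.dvd_finsetProd_iff (Nat.Prime.prime hℓF.out) _).mp hd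
  exact hℓQ i ((Nat.prime_dvd_prime_iff_eq hℓF.out (hQp i)).mp hi)

include hQprod hℓQ in
/-- **`π (cyc M s ^ m) = 1`** for `s` in an inertia group at `ℓ ≠ Qn i` -/
theorem piTW_cyc_pow (A : ValuationSubring Qbar) (hA : A.LiesOverPrime ℓ) (s : GQ)
    (hs : s ∈ A.inertiaSubgroupIn ℚ) (m : ℕ) :
    piTW p (mT + 1) Qn hQp hQdvd hQM (cyc M s ^ m) = 1 :=
  Fermat.Agent.S43.Assembly.TwGroup.piTW_eq_one_of_prod p (mT + 1) Qn hQp hQdvd hQM hQprod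
    (Fermat.Agent.S43.RSide.TypePush.unitsMap_cyc_pow_eq_one hℓF.out hA hs hQprod
      (not_dvd_prod Qn hQp hℓQ) m)

include hQprod hℓQ in
/-- the same for the inverse -/
theorem piTW_cyc_pow_inv (A : ValuationSubring Qbar) (hA : A.LiesOverPrime ℓ) (s : GQ)
    (hs : s ∈ A.inertiaSubgroupIn ℚ) (m : ℕ) :
    piTW p (mT + 1) Qn hQp hQdvd hQM (cyc M s ^ m)⁻¹ = 1 := by
  rw [map_inv, piTW_cyc_pow M p mT Qn hQp hQdvd hQM hQprod hℓQ A hA s hs m, inv_one]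

include hp2 hℓp hℓM hℓ2 hN hpO hmap hQprod hℓQ in
/-- **`htr1` of `FeedQ.nonempty_datumJ_Q`** at one inertia element at `ℓ ∥ M`, `ℓ ≠ Qn i` -/
theorem htr1_of_prod (hunr : rbar.IsUnramifiedAt ℓ)
    (htf : ∀ w : LamQ M (mLev M p) p (HLev M p) O S₀ 𝔪, ((ℓ : O) ^ 2 - 1) • w = 0 → w = 0)
    (hΦd : ∀ (d : (ZMod M)ˣ) (x : M1), Φ (dQ M (mLev M p) p (HLev M p) O S₀ 𝔪 d) x =
      (MonoidAlgebra.single (piTW p (mT + 1) Qn hQp hQdvd hQM d) (1 : O) :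
        MonoidAlgebra O (Delta r p (mT + 1))) • x)
    (A : ValuationSubring Qbar) (hA : A.LiesOverPrime ℓ) (s : GQ)
    (hs : s ∈ A.inertiaSubgroupIn ℚ) :
    (Φ.comp (Subalgebra.inclusion hle).toRingHom) ((CH.rep hin' s).trace) = 2 := by
  have ht : (Subalgebra.inclusion hle).toRingHom ((CH.rep hin' s).trace) =
      dQ M (mLev M p) p (HLev M p) O S₀ 𝔪 (cyc M s ^ mLev M p) +
        dQ M (mLev M p) p (HLev M p) O S₀ 𝔪 (cyc M s ^ mLev M p)⁻¹ :=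
    Fermat.Agent.S43.Assembly.LevelTrace.inclusion_trace M p hp2 O S₀ 𝔪 h hin h' hin' hle
      hℓF.out hℓp hℓM hℓ2 hN hpO rbar b hmap hunr htf A hA s hs
  refine @Fermat.Agent.S43.RSide.TypePush.comp_trace_eq_two ↥T'
    ↥(TQ M (mLev M p) p (HLev M p) O S₀ 𝔪) (Module.End A' M1) _ _ _
    (Subalgebra.inclusion hle).toRingHom Φ _ _ _ ht ?_ ?_
  · refine LinearMap.ext fun x => ?_
    rw [hΦd, piTW_cyc_pow M p mT Qn hQp hQdvd hQM hQprod hℓQ A hA s hs, ← MonoidAlgebra.one_def,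
      one_smul]
    rfl
  · refine LinearMap.ext fun x => ?_
    rw [hΦd, piTW_cyc_pow_inv M p mT Qn hQp hQdvd hQM hQprod hℓQ A hA s hs,
      ← MonoidAlgebra.one_def, one_smul]
    rfl

section Chi

variable (ζ : Oˣ) (hζp : ζ ^ p = 1) (T : Finset ℕ) (hT : ∀ ℓ ∈ T, ℓ.Prime) (hℓT : ℓ ∈ T)
  (hpℓ : p ∣ ℓ - 1)
  (hΦO : ∀ (a : O) (z : M1),
    Φ (algebraMap O (TQ M (mLev M p) p (HLev M p) O S₀ 𝔪) a) z =
      (MonoidAlgebra.single (1 : Delta r p (mT + 1)) a :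
        MonoidAlgebra O (Delta r p (mT + 1))) • z)
  (hΦd : ∀ (d : (ZMod M)ˣ) (z : M1), Φ (dQ M (mLev M p) p (HLev M p) O S₀ 𝔪 d) z =
    ((xiChi O (piTW p (mT + 1) Qn hQp hQdvd hQM) (psi ζ T M) d :
      (MonoidAlgebra O (Delta r p (mT + 1)))ˣ) : MonoidAlgebra O (Delta r p (mT + 1))) • z)

include hp2 hℓM hζp hT hℓT hpℓ in
/-- **the twisted character at the level `(M, mLev M p)` is helper21's level-independent `uFix`** -/
theorem chiGal_eq_uFix (A : ValuationSubring Qbar) (hA : A.LiesOverPrime ℓ) (s : GQ)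
    (hs : s ∈ A.inertiaSubgroupIn ℚ) :
    chiGal (psi ζ T M) (mLev M p) ℓ s = uFix ζ p ℓ s :=
  Fermat.Agent.S43.RSide.ChiFix.chiGal_psi_eq_uFix ζ T (hp.out.odd_of_ne_two hp2) hζp hT hℓT hℓM
    hA hs (dvd_two_mul_mLev_add_one M p hp2 (dvd_card_units_of_dvd M p hℓF.out hℓM hpℓ))

include hp2 hℓM hζp hT hℓT hpℓ hQprod hℓQ hΦO hΦd in
/-- `Φ ⟨d⟩ = Φ (algebraMap u)`, `d = cyc M s ^ mLev M p`, `u = uFix ζ p ℓ s` -/
theorem Phichi_dQ (A : ValuationSubring Qbar) (hA : A.LiesOverPrime ℓ) (s : GQ)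
    (hs : s ∈ A.inertiaSubgroupIn ℚ) :
    Φ (dQ M (mLev M p) p (HLev M p) O S₀ 𝔪 (cyc M s ^ mLev M p)) =
      Φ (algebraMap O (TQ M (mLev M p) p (HLev M p) O S₀ 𝔪) ((uFix ζ p ℓ s : Oˣ) : O)) := by
  refine LinearMap.ext fun z => ?_
  rw [hΦd, hΦO,
    Fermat.Agent.S43.RSide.TypePush.coe_xiChi_cyc_pow hℓF.out hA hs O
      (piTW p (mT + 1) Qn hQp hQdvd hQM) (psi ζ T M) hQprod (not_dvd_prod Qn hQp hℓQ)
      (fun d hd => Fermat.Agent.S43.Assembly.TwGroup.piTW_eq_one_of_prod p (mT + 1) Qn hQp hQdvd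
        hQM hQprod hd) (mLev M p),
    chiGal_eq_uFix M p hp2 O hℓM ζ hζp T hT hℓT hpℓ A hA s hs, MonoidAlgebra.coe_algebraMap,
    Function.comp_apply, Algebra.algebraMap_self_apply]

include hp2 hℓM hζp hT hℓT hpℓ hQprod hℓQ hΦO hΦd in
/-- the same for the inverse -/
theorem Phichi_dQ_inv (A : ValuationSubring Qbar) (hA : A.LiesOverPrime ℓ) (s : GQ)
    (hs : s ∈ A.inertiaSubgroupIn ℚ) :
    Φ (dQ M (mLev M p) p (HLev M p) O S₀ 𝔪 (cyc M s ^ mLev M p)⁻¹) =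
      Φ (algebraMap O (TQ M (mLev M p) p (HLev M p) O S₀ 𝔪)
        (((uFix ζ p ℓ s)⁻¹ : Oˣ) : O)) := by
  refine LinearMap.ext fun z => ?_
  rw [hΦd, hΦO,
    Fermat.Agent.S43.RSide.TypePush.coe_xiChi_cyc_pow_inv hℓF.out hA hs O
      (piTW p (mT + 1) Qn hQp hQdvd hQM) (psi ζ T M) hQprod (not_dvd_prod Qn hQp hℓQ)
      (fun d hd => Fermat.Agent.S43.Assembly.TwGroup.piTW_eq_one_of_prod p (mT + 1) Qn hQp hQdvd
        hQM hQprod hd) (mLev M p),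
    chiGal_eq_uFix M p hp2 O hℓM ζ hζp T hT hℓT hpℓ A hA s hs, MonoidAlgebra.coe_algebraMap,
    Function.comp_apply, Algebra.algebraMap_self_apply]

include hp2 hℓp hℓM hℓ2 hN hpO hmap hζp hT hℓT hpℓ hQprod hℓQ hΦO hΦd in
/-- **`htrχ` of `FeedQ.nonempty_datumJ_Q`** at one inertia element at `ℓ ∥ M`, `ℓ ≠ Qn i`, `ℓ ∈ T`,
with `ζ i := ↑u`, `ζ' i := ↑u⁻¹`, `u = uFix ζ p ℓ s` -/
theorem htrχ_of_prod (hunr : rbar.IsUnramifiedAt ℓ)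
    (htf : ∀ w : LamQ M (mLev M p) p (HLev M p) O S₀ 𝔪, ((ℓ : O) ^ 2 - 1) • w = 0 → w = 0)
    (A : ValuationSubring Qbar) (hA : A.LiesOverPrime ℓ) (s : GQ)
    (hs : s ∈ A.inertiaSubgroupIn ℚ) :
    (Φ.comp (Subalgebra.inclusion hle).toRingHom) ((CH.rep hin' s).trace) =
      (Φ.comp (Subalgebra.inclusion hle).toRingHom)
        (algebraMap O ↥T' (((uFix ζ p ℓ s : Oˣ) : O) + (((uFix ζ p ℓ s)⁻¹ : Oˣ) : O))) := by
  have ht : (Subalgebra.inclusion hle).toRingHom ((CH.rep hin' s).trace) =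
      dQ M (mLev M p) p (HLev M p) O S₀ 𝔪 (cyc M s ^ mLev M p) +
        dQ M (mLev M p) p (HLev M p) O S₀ 𝔪 (cyc M s ^ mLev M p)⁻¹ :=
    Fermat.Agent.S43.Assembly.LevelTrace.inclusion_trace M p hp2 O S₀ 𝔪 h hin h' hin' hle
      hℓF.out hℓp hℓM hℓ2 hN hpO rbar b hmap hunr htf A hA s hs
  have h1 := @Fermat.Agent.S43.RSide.TypePush.comp_trace_eq_map ↥T'
    ↥(TQ M (mLev M p) p (HLev M p) O S₀ 𝔪) (Module.End A' M1) _ _ _
    (Subalgebra.inclusion hle).toRingHom Φ _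
    (algebraMap O ↥T' ((uFix ζ p ℓ s : Oˣ) : O))
    (algebraMap O ↥T' (((uFix ζ p ℓ s)⁻¹ : Oˣ) : O)) _ _ ht
    (Phichi_dQ M p hp2 O S₀ 𝔪 hℓM mT Qn hQp hQdvd hQM hQprod hℓQ Φ ζ hζp T hT hℓT hpℓ hΦO hΦd
      A hA s hs)
    (Phichi_dQ_inv M p hp2 O S₀ 𝔪 hℓM mT Qn hQp hQdvd hQM hQprod hℓQ Φ ζ hζp T hT hℓT hpℓ hΦO
      hΦd A hA s hs)
  rw [h1, map_add (algebraMap O ↥T')]

end Chi

include hℓp in
/-- **`hdetσ` of `FeedQ.nonempty_datumJ_Q`** -/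
theorem hdetσ (A : ValuationSubring Qbar) (hA : A.LiesOverPrime ℓ) (s : GQ)
    (hs : s ∈ A.inertiaSubgroupIn ℚ) : (CH.rep hin' s).det = 1 :=
  Fermat.Agent.S43.Assembly.LevelTrace.det_eq_one M p O S₀ 𝔪 h' hin' hℓF.out hℓp A hA s hs

end Prod

/-! ### PART 2 : the level `M = N ∏ Qn i` of `LevelHecke.exists_heckeSide`, a prime `ℓ ∣ N` -/

section Arith

/-- `ℓ² - 1 ≠ 0` in a ring of characteristic zero -/
theorem sq_sub_one_ne_zero {O : Type*} [CommRing O] [CharZero O] {q : ℕ} (hq : q.Prime) :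
    ((q : O) ^ 2 - 1) ≠ 0 := by
  intro h
  have h1 : ((q ^ 2 : ℕ) : O) = ((1 : ℕ) : O) := by
    push_cast
    exact sub_eq_zero.mp h
  have h2 : q ^ 2 = 1 := Nat.cast_injective h1
  have h3 := hq.two_le
  nlinarith

/-- a Taylor--Wiles prime (`p ^ (mT + 1) ∣ Q - 1`, `p` an odd prime) is `≥ 5` -/
theorem five_le_of_dvd_sub_one {p mT Q : ℕ} (hp : p.Prime) (hp2 : p ≠ 2) (hQ : Q.Prime)
    (hdvd : p ^ (mT + 1) ∣ Q - 1) : 5 ≤ Q := by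
  have h1 : p ∣ Q - 1 := (dvd_pow_self p (Nat.succ_ne_zero mT)).trans hdvd
  have h2 : 0 < Q - 1 := Nat.sub_pos_of_lt hQ.one_lt
  have h3 : p ≤ Q - 1 := Nat.le_of_dvd h2 h1
  have h4 : 3 ≤ p := by
    have := hp.two_le
    omega
  have h5 : Q ≠ 4 := by
    rintro rfl
    norm_num at hQ
  omega

end Arith

section Level

variable (p : ℕ) [hp : Fact p.Prime] (hp2 : p ≠ 2)
  (O : Type) [CommRing O] [IsDomain O] [IsLocalRing O] [IsNoetherianRing O]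
  [IsAdicComplete (maximalIdeal O) O] [CharZero O] [Algebra ℤ_[p] O]
  (hpO : (p : O) ∈ maximalIdeal O)
  (N : ℕ) (hsqN : Squarefree N) (S₀ : Finset ℕ)
  {r : ℕ} (mT : ℕ) (Qn : Fin r → ℕ) (hQinj : Function.Injective Qn)
  (hQp : ∀ i, (Qn i).Prime) (hQdvd : ∀ i, p ^ (mT + 1) ∣ Qn i - 1) (hQN : ∀ i, ¬ Qn i ∣ N)
  {M : ℕ} [NeZero M] (hM : M = N * ∏ i, Qn i) (hQM : ∀ i, Qn i ∣ M) (hM5 : 5 ≤ M) (i₀ : Fin r)
  (𝔪 : Ideal (MvPolynomial (K M p S₀) O)) [𝔪.IsMaximal]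
  [Module.Finite O (LamQ M (mLev M p) p (HLev M p) O S₀ 𝔪)]
  [IsMulCommutative ↥(TQ M (mLev M p) p (HLev M p) O S₀ 𝔪)]
  [IsLocalRing ↥(TQ M (mLev M p) p (HLev M p) O S₀ 𝔪)]
  [IsLocalHom (algebraMap O ↥(TQ M (mLev M p) p (HLev M p) O S₀ 𝔪))]
  [Invertible (2 : ↥(TQ M (mLev M p) p (HLev M p) O S₀ 𝔪))]
  {Sg : Finset ℕ}
  (h : Dens.Datum Sg (maximalIdeal O) (rQ M (mLev M p) p (HLev M p) O S₀ 𝔪) (eps p O)
    (TQ M (mLev M p) p (HLev M p) O S₀ 𝔪))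
  {c g₀ h₀ : GQ}
  (hin : CH.Input (E := Module.End ↥(TQ M (mLev M p) p (HLev M p) O S₀ 𝔪)
      (LamQ M (mLev M p) p (HLev M p) O S₀ 𝔪)) (Dens.rT h) (Dens.tT h)
    (Glue.dHom (eps p O) (TQ M (mLev M p) p (HLev M p) O S₀ 𝔪)) c g₀ h₀)
  {T' : Subalgebra O (Module.End O (LamQ M (mLev M p) p (HLev M p) O S₀ 𝔪))}
  [IsMulCommutative ↥T'] [IsLocalRing ↥T'] [IsLocalHom (algebraMap O ↥T')] [Invertible (2 : ↥T')]
  (h' : Dens.Datum Sg (maximalIdeal O) (rQ M (mLev M p) p (HLev M p) O S₀ 𝔪) (eps p O) T')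
  {c' g₀' h₀' : GQ}
  (hin' : CH.Input (E := Module.End ↥T' (LamQ M (mLev M p) p (HLev M p) O S₀ 𝔪)) (Dens.rT h')
    (Dens.tT h') (Glue.dHom (eps p O) T') c' g₀' h₀')
  (hle : T' ≤ TQ M (mLev M p) p (HLev M p) O S₀ 𝔪)
  (rbar : ResidualGaloisRep (ResidueField O))
  (b : Module.Basis (Fin 2) (ResidueField O) rbar.V)
  (hmap : mapMat (residue ↥(TQ M (mLev M p) p (HLev M p) O S₀ 𝔪)) (CH.rep hin) =
    mapMat (ResidueField.map (algebraMap O ↥(TQ M (mLev M p) p (HLev M p) O S₀ 𝔪)))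
      (resMatOf rbar b))
  {ℓ : ℕ} [hℓF : Fact ℓ.Prime] (hℓN : ℓ ∣ N) (hℓp : ℓ ≠ p) (hunr : rbar.IsUnramifiedAt ℓ)
  {M1 : Type*} [AddCommGroup M1] [Module (MonoidAlgebra O (Delta r p (mT + 1))) M1]
  {A' : Type*} [Semiring A'] [Module A' M1]
  (Φ : ↥(TQ M (mLev M p) p (HLev M p) O S₀ 𝔪) →+* Module.End A' M1)

include hQN hℓN in
/-- a prime of `N` is none of the Taylor--Wiles primes -/
theorem ne_Qn (i : Fin r) : ℓ ≠ Qn i := fun hi => hQN i (hi ▸ hℓN)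

include hp2 hsqN hQp hQdvd hQN hM hℓN in
/-- `5 ≤ M / ℓ` at a prime `ℓ ∣ N`, from ONE Taylor--Wiles prime -/
theorem five_le_div (i₀ : Fin r) : 5 ≤ M / ℓ :=
  LevelArith.five_le_div_of_dvd_N hsqN.ne_zero hQp hQN hM hℓF.out hℓN i₀
    (five_le_of_dvd_sub_one hp.out hp2 (hQp i₀) (hQdvd i₀))

include hp2 hpO hsqN hQinj hQN hM hM5 i₀ hmap hℓN hℓp hunr in
/-- **`htr1` of `FeedQ.nonempty_datumJ_Q(')`** at one inertia element at a prime `ℓ ∣ N` ;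
`hΦd` = clause 7 of `LevelHecke.exists_heckeSide` -/
theorem htr1
    (hΦd : ∀ (d : (ZMod M)ˣ) (x : M1), Φ (dQ M (mLev M p) p (HLev M p) O S₀ 𝔪 d) x =
      (MonoidAlgebra.single (piTW p (mT + 1) Qn hQp hQdvd hQM d) (1 : O) :
        MonoidAlgebra O (Delta r p (mT + 1))) • x)
    (A : ValuationSubring Qbar) (hA : A.LiesOverPrime ℓ) (σ : GQ)
    (hσ : σ ∈ A.inertiaSubgroupIn ℚ) :
    (Φ.comp (Subalgebra.inclusion hle).toRingHom) ((CH.rep hin' σ).trace) = 2 :=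
  htr1_of_prod M p hp2 O S₀ 𝔪 h hin h' hin' hle hℓp (LevelArith.dvd_level_of_dvd hM hℓN)
    (LevelArith.not_dvd_div_of_dvd_N hsqN hQinj hQp hQN hM hℓF.out hℓN)
    (five_le_div p hp2 N hsqN mT Qn hQp hQdvd hQN hM hℓN i₀) hpO rbar b hmap mT Qn hQp hQdvd hQM
    (LevelArith.prod_dvd_level hM) (ne_Qn N Qn hQN hℓN) Φ hunr
    (fun w hw => GateType.torsionFree_LamQ M (mLev M p) p (HLev M p) O S₀ 𝔪 hM5
      (sq_sub_one_ne_zero hℓF.out) w hw) hΦd A hA σ hσ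

include hp2 hpO hsqN hQinj hQN hM hM5 i₀ hmap hℓN hℓp hunr in
/-- **`htrχ` of `FeedQ.nonempty_datumJ_Q(')`** at one inertia element at a prime `ℓ ∣ N`, `ℓ ∈ T`,
`p ∣ ℓ - 1`, with `ζ i := ↑u`, `ζ' i := ↑u⁻¹`, `u = ChiFix.uFix ζ p ℓ σ` ;
`hΦO`, `hΦd` = clauses 6, 8 of `LevelHecke.exists_heckeSide` -/
theorem htrχ (ζ : Oˣ) (hζp : ζ ^ p = 1) (T : Finset ℕ) (hT : ∀ ℓ ∈ T, ℓ.Prime) (hℓT : ℓ ∈ T)
    (hpℓ : p ∣ ℓ - 1)
    (hΦO : ∀ (a : O) (z : M1),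
      Φ (algebraMap O (TQ M (mLev M p) p (HLev M p) O S₀ 𝔪) a) z =
        (MonoidAlgebra.single (1 : Delta r p (mT + 1)) a :
          MonoidAlgebra O (Delta r p (mT + 1))) • z)
    (hΦd : ∀ (d : (ZMod M)ˣ) (z : M1), Φ (dQ M (mLev M p) p (HLev M p) O S₀ 𝔪 d) z =
      ((xiChi O (piTW p (mT + 1) Qn hQp hQdvd hQM) (psi ζ T M) d :
        (MonoidAlgebra O (Delta r p (mT + 1)))ˣ) : MonoidAlgebra O (Delta r p (mT + 1))) • z)
    (A : ValuationSubring Qbar) (hA : A.LiesOverPrime ℓ) (σ : GQ)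
    (hσ : σ ∈ A.inertiaSubgroupIn ℚ) :
    (Φ.comp (Subalgebra.inclusion hle).toRingHom) ((CH.rep hin' σ).trace) =
      (Φ.comp (Subalgebra.inclusion hle).toRingHom)
        (algebraMap O ↥T' (((uFix ζ p ℓ σ : Oˣ) : O) + (((uFix ζ p ℓ σ)⁻¹ : Oˣ) : O))) :=
  htrχ_of_prod M p hp2 O S₀ 𝔪 h hin h' hin' hle hℓp (LevelArith.dvd_level_of_dvd hM hℓN)
    (LevelArith.not_dvd_div_of_dvd_N hsqN hQinj hQp hQN hM hℓF.out hℓN)
    (five_le_div p hp2 N hsqN mT Qn hQp hQdvd hQN hM hℓN i₀) hpO rbar b hmap mT Qn hQp hQdvd hQM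
    (LevelArith.prod_dvd_level hM) (ne_Qn N Qn hQN hℓN) Φ ζ hζp T hT hℓT hpℓ hΦO hΦd hunr
    (fun w hw => GateType.torsionFree_LamQ M (mLev M p) p (HLev M p) O S₀ 𝔪 hM5
      (sq_sub_one_ne_zero hℓF.out) w hw) A hA σ hσ

end Level

end Fermat.Agent.S43.Assembly.LevelType
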