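/-
PROJECT R (S43, row 37), ASSEMBLY, file `Level` (helper8, chief R): **THE PER-LEVEL THEOREM**.

ONE Taylor--Wiles level: from the choices of SETUP (coefficient ring, residual representation with its
normalisation, the stuck primes with their tame generators, Frobenius elements and square roots,
level zero with its Hecke algebra, ABSTRACT) and ONE Taylor--Wiles set `Qn` of depth `mT` with the
trace generators `τ_1 … τ_g` of NUM: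

* the unipotent trace at the tame generators at level zero (`RSide/ZeroGlueD.trace_rep_eq_two_D`);
* for every `θ₀` over `(σ_i, φ_i)`, the datum `DatumJ … n` of PATCH
  (`RSide/FeedQ.nonempty_datumJ_Q'` at the instance).

These are the two conjuncts of the hypothesis `hlevel` of `RSide/StuckR.exists_prime_of_levels`.
-/
import Mathlib
import Fermat.Agent.S43.Assembly.LevelDefs
import Fermat.Agent.S43.Assembly.LevelHecke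
import Fermat.Agent.S43.Assembly.LevelTrace
import Fermat.Agent.S43.Assembly.LevelDisp
import Fermat.Agent.S43.Assembly.LevelType
import Fermat.Agent.S43.RSide.FeedQ
import Fermat.Agent.S43.RSide.ZeroGlueD
import Fermat.Agent.S43.RSide.ZetaBlock
import Fermat.Agent.S43.RSide.ChiFix
import Fermat.Agent.S43.Rho.MainD
import Fermat.Agent.S43.Rho.MainLift
import Fermat.Agent.S43.Rho.Feed.GateLevel
import Fermat.Agent.S43.Rho.Feed.LevelArith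
import Fermat.Agent.S43.Assembly.Coeff
import Fermat.Agent.S43.Rbar.Seam
import Fermat.Agent.S43.Patch.GroupRingInv

set_option autoImplicit false
set_option linter.unusedSectionVars false
set_option linter.style.haveILetI false

noncomputable section

namespace Fermat.Agent.S43.Assembly.Level

open MvPowerSeries IsLocalRing
open Fermat.Agent.CFT.Bridge
open Fermat.Agent.S56.Coh Fermat.Agent.S56.Coh.CocDefs
open Fermat.Agent.S53.Dictionary hiding GQ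
open Fermat.Agent.S53.TangentBound
open Fermat.Agent.S56.Tan.DualHom Fermat.Agent.S56.Tan.Universal Fermat.Agent.S56.Tan.Cocycle
open Fermat.Agent.S43.Num.RelCount
open Fermat.Agent.S43.Num.RelTanT Fermat.Agent.S43.RSide.LocalMat Fermat.Agent.S43.RSide.TrivBase
open Fermat.Agent.S43.Local.Model Fermat.Agent.S43.Local.Universal Fermat.Agent.S43.Local.Export
open Fermat.Agent.S43.Hecke.Seam
open Fermat.Agent.S43.Patch.Level Fermat.Agent.S43.Patch.LevelJ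
open Fermat.Agent.S43.RSide.Out Fermat.Agent.S43.RSide.Exit0 Fermat.Agent.S43.RSide.Feed
open Fermat.Agent.S43.RSide.FeedT Fermat.Agent.S43.RSide.FeedQ
open Fermat.Agent.S43.Patch.GroupRing Fermat.Agent.S43.Patch.GroupRingInv
  Fermat.Agent.S43.Patch.EvenOdd Fermat.Agent.S43.Patch.Points
open Fermat.Agent.S43.Rho
open Fermat.Agent.S43.Rho.Zero.Inst (JZ)
open Fermat.Agent.S43.Rho.LamInst (J)
open Fermat.Agent.S43.Rho.LamInstD (K TQ tQ dQ rQ LamQ)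
open Fermat.Agent.S43.Rbar.Seam
open Fermat.Agent.S56.Main.Unpack (IsTWPrime)
open Fermat.Agent.S43.Assembly.LevelDefs
open Fermat.Agent.S43.Assembly.TwGroup (Delta piTW)
open Fermat.Agent.S43.Assembly.ChiChar (psi xiChi)
open Fermat.Agent.S43.Hecke.Main (M0 t0)
open scoped IsMulCommutative

attribute [local instance] algDual
attribute [local instance] Glue.smulCommClassT Glue.algebraEnd

section Main

local notation "Qbar" => AlgebraicClosure ℚ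

attribute [local instance] HeckeSide.acg1 HeckeSide.acgχ HeckeSide.acgb HeckeSide.mod1
  HeckeSide.modχ HeckeSide.modb

/-- `tr r(g) + 2 s` is a unit when `r̄(g)` is the scalar `s̄` (`2` and `s` units) -/
theorem isUnit_trace_add {𝒪 : Type} [CommRing 𝒪] [IsLocalRing 𝒪]
    {R : Type} [CommRing R] [IsLocalRing R] [Algebra 𝒪 R] [IsLocalHom (algebraMap 𝒪 R)]
    (hres : Function.Surjective (residue R ∘ algebraMap 𝒪 R))
    {rbar : GQ →* GL (Fin 2) (ResidueField 𝒪)} (rR : GQ →* Mat R)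
    (hrR : mapMat (residue R) rR = mapMat (ResidueField.map (algebraMap 𝒪 R)) (rbarM rbar))
    (h2 : IsUnit (2 : 𝒪)) (g : GQ) (s : 𝒪) (hs : IsUnit s)
    (hg : (rbar g : Matrix (Fin 2) (Fin 2) (ResidueField 𝒪)) =
      residue 𝒪 s • (1 : Matrix (Fin 2) (Fin 2) (ResidueField 𝒪))) :
    IsUnit ((rR g).trace + 2 * algebraMap 𝒪 R s) := by
  have hresΦ := cong_of_rbar_scalar hres rR hrR g s hg
  have h1 : (rR g).trace - 2 * algebraMap 𝒪 R s ∈ maximalIdeal R := by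
    have h00 := hresΦ 0 0
    have h11 := hresΦ 1 1
    rw [Matrix.sub_apply, Matrix.smul_apply, Matrix.one_apply_eq, smul_eq_mul, mul_one] at h00 h11
    have := Ideal.add_mem _ h00 h11
    rw [Matrix.trace_fin_two]
    convert this using 1
    ring
  have h4 : IsUnit (4 * algebraMap 𝒪 R s) := by
    have h5 : IsUnit (algebraMap 𝒪 R (2 * 2 * s)) := ((h2.mul h2).mul hs).map (algebraMap 𝒪 R)
    rw [map_mul, map_mul, map_ofNat] at h5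
    convert h5 using 1
    ring
  by_contra hnu
  have h6 : (rR g).trace + 2 * algebraMap 𝒪 R s ∈ maximalIdeal R := (mem_maximalIdeal _).mpr hnu
  have h7 := Ideal.sub_mem _ h6 h1
  have h8 : (rR g).trace + 2 * algebraMap 𝒪 R s - ((rR g).trace - 2 * algebraMap 𝒪 R s) =
      4 * algebraMap 𝒪 R s := by ring
  rw [h8] at h7
  exact (mem_maximalIdeal _).mp h7 h4

set_option maxHeartbeats 8000000 in
/-- **THE PER-LEVEL THEOREM.** -/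
theorem level
    -- (A) the coefficient ring
    (Fr : FreyPackage) [Fact Fr.p.Prime]
    {O : Type} [CommRing O] [IsDomain O] [IsDiscreteValuationRing O]
    [IsAdicComplete (maximalIdeal O) O] [Finite (ResidueField O)] [CharZero O]
    [Algebra ℤ_[Fr.p] O]
    (hpO : (Fr.p : O) ∈ maximalIdeal O) {ϖ : O} (hϖP : Prime ϖ)
    (hϖ : maximalIdeal O = Ideal.span {ϖ}) (h2 : IsUnit (2 : O)) (h3 : IsUnit (3 : O))
    (ζ : Oˣ) (hζp : ζ ^ Fr.p = 1)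
    -- (B) the residual representation, its matrix form and its normalisation
    (ρb : ResidualGaloisRep (ResidueField O)) (hF : IsFreyResidual Fr ρb)
    (b : Module.Basis (Fin 2) (ResidueField O) ρb.V)
    (rb : GQ →* GL (Fin 2) (ResidueField O))
    (hb : ∀ g, (rb g : Matrix (Fin 2) (Fin 2) (ResidueField O)) =
      LinearMap.toMatrix b b (ρb.ρ g))
    {c g₀ h₀ : GQ} (hn : ExistsNorm.Norm ρb c g₀ h₀ b)
    (hcc : c = complexConjugation)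
    -- (C) level zero, Hecke side
    (N : ℕ) [NeZero N] (h5 : 5 ≤ N) (hsqN : Squarefree N) (hpN : ¬ Fr.p ∣ N) (h2N : 2 ∣ N)
    (S₀ : Finset ℕ) (θ : JZ N Fr.p S₀ → ResidueField O)
    (hθ : ∀ (j : JZ N Fr.p S₀) (A : ValuationSubring Qbar) (τ : GQ),
      A.LiesOverPrime (pJ N Fr.p S₀ j) → A.IsFrobeniusAt τ (pJ N Fr.p S₀ j) →
      LinearMap.charpoly (ρb.ρ τ) = Polynomial.X ^ 2 - Polynomial.C (θ j) * Polynomial.X +
        Polynomial.C ((pJ N Fr.p S₀ j : ℕ) : ResidueField O))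
    (hd : 0 < Module.finrank O (M0 O (pJ N Fr.p S₀) (hpJ N Fr.p S₀) N θ))
    -- (D) the stuck primes
    (T : Finset ℕ)
    (hT : ∀ ℓ ∈ T, ℓ.Prime ∧ ℓ ≠ 2 ∧ ℓ ≠ Fr.p ∧ ℓ ∣ N ∧ Fr.p ∣ ℓ - 1)
    (hNT : ∀ ℓ : ℕ, ℓ.Prime → ℓ ∣ N → ℓ ≠ 2 → ℓ ∈ T)
    [hTp : ∀ i : T, Fact (i.1).Prime]
    (σ : ∀ i : T, (padicPlace i.1).inertiaSubgroupIn ℚ) (hσ : ∀ i : T, TameClause Fr.p i.1 (σ i))
    (φ : T → GQ) (hφ : ∀ i : T, (padicPlace i.1).IsFrobeniusAt (φ i) i.1)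
    (s : T → O) (hs2 : ∀ i : T, s i ^ 2 = ((i.1 : ℕ) : O)) (hsu : ∀ i : T, IsUnit (s i))
    (hrbarI : ∀ i : T, ∀ u ∈ (padicPlace i.1).inertiaSubgroupIn ℚ, rb u = 1)
    (hrbarΦ : ∀ i : T, (rb (φ i) : Matrix (Fin 2) (Fin 2) (ResidueField O)) =
      residue O (s i) • (1 : Matrix (Fin 2) (Fin 2) (ResidueField O)))
    (u : T → Oˣ)
    (hu : ∀ i : T, u i = Fermat.Agent.S43.RSide.ChiFix.uFix ζ Fr.p i.1 (σ i : GQ))
    (hup : ∀ i : T, u i ^ Fr.p = 1) (hu2 : ∀ i : T, u i ^ 2 ≠ 1)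
    (e' q : T → O)
    (he' : ∀ i : T, e' i = Fermat.Agent.S43.Assembly.Coeff.ePar h2 (u i))
    (hq' : ∀ i : T, q i = ((i.1 : ℕ) : O))
    (he : ∀ i : T, ϖ ∣ e' i) (hq : ∀ i : T, ϖ ∣ q i - 1)
    {g : ℕ}
    (h1top : relIdeal O (Fin g) 0 q ≠ ⊤) (hχtop : relIdeal O (Fin g) e' 1 ≠ ⊤)
    -- (E) level zero, Galois side (abstract)
    {Λ₂ : Type} [AddCommGroup Λ₂] [Module O Λ₂] [Module.Finite O Λ₂]
    {Sg₂ : Finset ℕ} {r₂ : GQ →* Module.End O Λ₂} {ε₂ : GQ →* O}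
    {T₂ : Subalgebra O (Module.End O Λ₂)} [IsMulCommutative ↥T₂] [IsLocalRing ↥T₂]
    [IsLocalHom (algebraMap O ↥T₂)] [Invertible (2 : ↥T₂)]
    (h₂ : Dens.Datum Sg₂ (maximalIdeal O) r₂ ε₂ T₂)
    [Module ↥T₂ (M0 O (pJ N Fr.p S₀) (hpJ N Fr.p S₀) N θ)]
    [IsScalarTower O ↥T₂ (M0 O (pJ N Fr.p S₀) (hpJ N Fr.p S₀) N θ)]
    (hz : ∀ (j : JZ N Fr.p S₀) (A : ValuationSubring Qbar) (τ : GQ),
      A.LiesOverPrime (pJ N Fr.p S₀ j) → A.IsFrobeniusAt τ (pJ N Fr.p S₀ j) →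
      ∀ y : M0 O (pJ N Fr.p S₀) (hpJ N Fr.p S₀) N θ,
        Dens.tT h₂ τ • y = (MvPolynomial.X j : MvPolynomial (JZ N Fr.p S₀) O) • y)
    (H₀ : CH.Input (E := Module.End ↥T₂ Λ₂) (Dens.rT h₂) (Dens.tT h₂) (Glue.dHom ε₂ T₂) c g₀ h₀)
    (hres₀ : Function.Surjective (residue ↥T₂ ∘ algebraMap O ↥T₂))
    (hr0 : mapMat (residue ↥T₂) (CH.rep H₀) =
      mapMat (ResidueField.map (algebraMap O ↥T₂)) (rbarM rb))
    -- (F) the Taylor--Wiles level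
    {r : ℕ} (hr : 0 < r) (n mT : ℕ) (hmT : (2 * r + 2) * n ≤ mT + 1)
    (S : Finset ℕ) (hS : (N * Fr.p).primeFactors ∪ S₀ ⊆ S)
    (Qn : Fin r → ℕ) (hQinj : Function.Injective Qn)
    (hQTW : ∀ i, IsTWPrime Fr.p mT ρb S (Qn i))
    (τg : Fin g → GQ)
    (hτg : ∀ x : Sel (({2, Fr.p} : Finset ℕ) ∪ T ∪ Finset.univ.image Qn)
        (LocCond.ofLocal (LcFamT rb Fr.p {2, Fr.p} T (Pfl Fr.p))),
      (∀ j, trSel _ _ (τg j) x = 0) → x = 0) :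
    ((∀ a : ↥T₂, (∀ y : M0 O (pJ N Fr.p S₀) (hpJ N Fr.p S₀) N θ, a • y = 0) → a = 0) →
      ∀ i : T, (CH.rep H₀ (σ i : GQ)).trace = 2) ∧
    ∀ θ₀ : P O T Empty →ₐ[O] ↥T₂, (∀ v, θ₀ (X v) ∈ maximalIdeal ↥T₂) →
      (∀ i : T, (SigmaU O Empty 1 i).map θ₀ = CH.rep H₀ (σ i : GQ)) →
      (∀ i : T, (PhiU O Empty s i).map θ₀ = CH.rep H₀ (φ i)) →
      Nonempty (DatumJ.{0} (MvPowerSeries (Fin r) O) (A1 (Fin g) q) (Achi (Fin g) e')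
        (Abar (Fin g) ϖ q)
        (maximalIdeal (MvPowerSeries (Fin r) O)) (pi1 ϖ q) (pichi ϖ e' q he hq)
        (MvPowerSeries.C ϖ) (Ideal.Quotient.mk _ (C ϖ)) (Ideal.Quotient.mk _ (C ϖ))
        (augIdeal (Fin r) O) (Jzero (Fin g) q θ₀ (2 * r + 1))
        (2 ^ r * Module.finrank O (M0 O (pJ N Fr.p S₀) (hpJ N Fr.p S₀) N θ)) n) := by
  classical
  have hpP : Fr.p.Prime := Fact.out
  have hp5 := Fr.hp5
  have hp2 : Fr.p ≠ 2 := by omega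
  have hNp0 : N * Fr.p ≠ 0 := mul_ne_zero (NeZero.ne N) hpP.ne_zero
  have hϖm : ϖ ∈ maximalIdeal O := by
    rw [hϖ]
    exact Ideal.mem_span_singleton_self ϖ
  have h2k : (2 : ResidueField O) ≠ 0 := by
    have h1 := h2.map (residue O)
    rw [map_ofNat] at h1
    exact h1.ne_zero
  -- (1) the Taylor--Wiles primes
  have hQp : ∀ i, (Qn i).Prime := fun i => (hQTW i).1.1
  have hQS : ∀ i, Qn i ∉ S := fun i => (hQTW i).1.2.1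
  have hQdvd : ∀ i, Fr.p ^ (mT + 1) ∣ Qn i - 1 := fun i => (hQTW i).1.2.2
  have hQNp : ∀ i, ¬ Qn i ∣ N * Fr.p := fun i hd =>
    hQS i (hS (Finset.mem_union_left _ (Nat.mem_primeFactors.mpr ⟨hQp i, hd, hNp0⟩)))
  have hQN : ∀ i, ¬ Qn i ∣ N := fun i hd => hQNp i (Dvd.dvd.mul_right hd _)
  have hQne : ∀ i, Qn i ≠ Fr.p := fun i h => hQNp i (h ▸ Dvd.intro_left N rfl)
  have hQS₀ : ∀ i, Qn i ∉ S₀ := fun i h => hQS i (hS (Finset.mem_union_right _ h))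
  have hQ5 : ∀ i, 5 ≤ Qn i := fun i =>
    Fermat.Agent.S43.Rho.Feed.LevelArith.five_le_of_dvd_sub_one hp5 (hQp i) (hQdvd i)
  have hQ2 : ∀ i, Qn i ≠ 2 := fun i h => by
    have := hQ5 i
    omega
  -- (2) the level
  obtain ⟨M, hM⟩ : ∃ M : ℕ, M = N * ∏ i, Qn i := ⟨_, rfl⟩
  have hQM : ∀ i, Qn i ∣ M := Fermat.Agent.S43.Rho.Feed.LevelArith.Qn_dvd_level hM
  have hNM : N ∣ M := Fermat.Agent.S43.Rho.Feed.LevelArith.dvd_level hM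
  have hM0 : M ≠ 0 :=
    Fermat.Agent.S43.Rho.Feed.LevelArith.level_ne_zero (NeZero.ne N) hQp hM
  haveI : NeZero M := ⟨hM0⟩
  have hM5 : 5 ≤ M := le_trans h5 (Nat.le_of_dvd (Nat.pos_of_ne_zero hM0) hNM)
  have hpM : ¬ Fr.p ∣ M := by
    rw [hM]
    intro h
    rcases (Nat.Prime.dvd_mul hpP).mp h with h | h
    · exact hpN h
    · obtain ⟨i, -, hi⟩ := (Prime.dvd_finsetProd_iff hpP.prime _).mp h
      exact hQne i ((Nat.prime_dvd_prime_iff_eq hpP (hQp i)).mp hi).symm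
  -- the stuck primes
  have hTprime : ∀ ℓ ∈ T, ℓ.Prime := fun ℓ h => (hT ℓ h).1
  have hTN : ∏ ℓ ∈ T, ℓ ∣ N :=
    Finset.prod_primes_dvd N (fun ℓ hℓ => (hT ℓ hℓ).1.prime) (fun ℓ hℓ => (hT ℓ hℓ).2.2.2.1)
  have hℓP : ∀ i : T, (i.1 : ℕ).Prime := fun i => (hT i.1 i.2).1
  have hℓ2 : ∀ i : T, (i.1 : ℕ) ≠ 2 := fun i => (hT i.1 i.2).2.1
  have hℓp : ∀ i : T, (i.1 : ℕ) ≠ Fr.p := fun i => (hT i.1 i.2).2.2.1
  have hℓN : ∀ i : T, (i.1 : ℕ) ∣ N := fun i => (hT i.1 i.2).2.2.2.1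
  have hpℓ1 : ∀ i : T, Fr.p ∣ (i.1 : ℕ) - 1 := fun i => (hT i.1 i.2).2.2.2.2
  -- (3) the Hecke side
  obtain ⟨𝔪, h𝔪, Hs, Φ₁, Φχ, hnt, hθ', hfinMb, hϖb, hΦ₁O, hΦχO, hΦ₁d, hΦχd, hcompat, hp0⟩ :=
    Fermat.Agent.S43.Assembly.LevelHecke.exists_heckeSide Fr.p hp2 hpO hϖP hϖ h2 h3 ζ hζp ρb
      hF.habs N S₀ θ hθ hd T hTN mT S Qn hQinj hQTW hQp hQdvd hQN hQne hQS₀ hM hQM hNM hM5
  haveI := h𝔪
  haveI := hnt
  haveI := hfinMb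
  -- (4) the Galois side: the instances
  have hHp := hHp_lev M Fr.p
  have hHm := hHm_lev M Fr.p hp2
  letI i2O : Invertible (2 : O) := h2.invertible
  haveI iL := LamInstD.finite_LamQ M (mLev M Fr.p) Fr.p (HLev M Fr.p) O S₀ 𝔪 hM5
  haveI iK1 := LamInstD.isMulCommutative_TQ M (mLev M Fr.p) Fr.p (HLev M Fr.p) O S₀ 𝔪
  haveI iK2 : IsLocalRing ↥(TQ M (mLev M Fr.p) Fr.p (HLev M Fr.p) O S₀ 𝔪) :=
    MainD.isLocalRing_sub M (mLev M Fr.p) Fr.p (HLev M Fr.p) O S₀ 𝔪 _ le_rfl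
  haveI iK3 := MainD.isLocalHom_algebraMap_TQ M (mLev M Fr.p) Fr.p (HLev M Fr.p) O S₀ 𝔪
  letI iK4 := MainD.invertibleTwoSub M (mLev M Fr.p) Fr.p (HLev M Fr.p) O S₀ 𝔪
    (TQ M (mLev M Fr.p) Fr.p (HLev M Fr.p) O S₀ 𝔪)
  haveI iT1 := MainD.isMulCommutative_TQtr M (mLev M Fr.p) Fr.p (HLev M Fr.p) O S₀ 𝔪
  haveI iT2 := MainD.isLocalRing_TQtr M (mLev M Fr.p) Fr.p (HLev M Fr.p) O S₀ 𝔪
  haveI iT3 := MainD.isLocalHom_algebraMap_TQtr M (mLev M Fr.p) Fr.p (HLev M Fr.p) O S₀ 𝔪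
  letI iT4 := MainD.invertibleTwoSub M (mLev M Fr.p) Fr.p (HLev M Fr.p) O S₀ 𝔪
    (MainD.TQtr M (mLev M Fr.p) Fr.p (HLev M Fr.p) O S₀ 𝔪)
  haveI iT5 : Module.Finite O ↥(MainD.TQtr M (mLev M Fr.p) Fr.p (HLev M Fr.p) O S₀ 𝔪) :=
    MainD.finite_sub M (mLev M Fr.p) Fr.p (HLev M Fr.p) O S₀ 𝔪 _
  haveI iT6 := MainD.isAdicComplete_sub M (mLev M Fr.p) Fr.p (HLev M Fr.p) O S₀ 𝔪
    (MainD.TQtr M (mLev M Fr.p) Fr.p (HLev M Fr.p) O S₀ 𝔪)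
  haveI iT7 : IsNoetherianRing ↥(MainD.TQtr M (mLev M Fr.p) Fr.p (HLev M Fr.p) O S₀ 𝔪) :=
    TrSub.isNoetherianRing_subalgebra _
  -- the residual data at level `M`
  have hfrob' : ∀ (j : J M Fr.p S₀) (A : ValuationSubring Qbar), A.LiesOverPrime ((j.1 : ℕ)) →
      ∀ τ : GQ, A.IsFrobeniusAt τ ((j.1 : ℕ)) →
        LinearMap.charpoly (ρb.ρ τ) =
          Polynomial.X ^ 2 - Polynomial.C (θ (gJ hNM Fr.p S₀ j)) * Polynomial.X +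
            Polynomial.C (((j.1 : ℕ) : ℕ) : ResidueField O) :=
    fun j A hA τ hτ => hθ (gJ hNM Fr.p S₀ j) A τ hA hτ
  -- the two inputs at the normalisation
  obtain ⟨hinK, -, -⟩ := MainD.exists_input_conj M (mLev M Fr.p) Fr.p (HLev M Fr.p) O S₀ 𝔪
    (TQ M (mLev M Fr.p) Fr.p (HLev M Fr.p) O S₀ 𝔪) le_rfl
    (MainD.tQ_mem_TQ M (mLev M Fr.p) Fr.p (HLev M Fr.p) O S₀ 𝔪) hM5 hHp hHm hpO
    (fun k => θ (gJ hNM Fr.p S₀ k)) hθ' ρb hfrob' hn hcc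
  obtain ⟨hinTr, -, -⟩ := MainD.exists_input_conj M (mLev M Fr.p) Fr.p (HLev M Fr.p) O S₀ 𝔪
    (MainD.TQtr M (mLev M Fr.p) Fr.p (HLev M Fr.p) O S₀ 𝔪)
    (MainD.TQtr_le M (mLev M Fr.p) Fr.p (HLev M Fr.p) O S₀ 𝔪)
    (MainD.tQ_mem_TQtr M (mLev M Fr.p) Fr.p (HLev M Fr.p) O S₀ 𝔪) hM5 hHp hHm hpO
    (fun k => θ (gJ hNM Fr.p S₀ k)) hθ' ρb hfrob' hn hcc
  -- notation for the two data
  have hdK := MainD.datumSub M (mLev M Fr.p) Fr.p (HLev M Fr.p) O S₀ 𝔪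
    (TQ M (mLev M Fr.p) Fr.p (HLev M Fr.p) O S₀ 𝔪) le_rfl
    (MainD.tQ_mem_TQ M (mLev M Fr.p) Fr.p (HLev M Fr.p) O S₀ 𝔪) hM5 hHp hHm hpO
  have hdTr := MainD.datumSub M (mLev M Fr.p) Fr.p (HLev M Fr.p) O S₀ 𝔪
    (MainD.TQtr M (mLev M Fr.p) Fr.p (HLev M Fr.p) O S₀ 𝔪)
    (MainD.TQtr_le M (mLev M Fr.p) Fr.p (HLev M Fr.p) O S₀ 𝔪)
    (MainD.tQ_mem_TQtr M (mLev M Fr.p) Fr.p (HLev M Fr.p) O S₀ 𝔪) hM5 hHp hHm hpO
  have hmapK : mapMat (residue ↥(TQ M (mLev M Fr.p) Fr.p (HLev M Fr.p) O S₀ 𝔪)) (CH.rep hinK) =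
      mapMat (ResidueField.map (algebraMap O ↥(TQ M (mLev M Fr.p) Fr.p (HLev M Fr.p) O S₀ 𝔪)))
        (resMatOf ρb b) :=
    MainD.mapMat_repG M (mLev M Fr.p) Fr.p (HLev M Fr.p) O S₀ 𝔪 _ le_rfl
      (MainD.tQ_mem_TQ M (mLev M Fr.p) Fr.p (HLev M Fr.p) O S₀ 𝔪) hM5 hHp hHm hpO
      (fun k => θ (gJ hNM Fr.p S₀ k)) hθ' ρb hfrob' hn hinK
  -- (5) the ring `R = TQtr` and its representation
  have hgen := MainD.adjoin_tqSub_TQtr M (mLev M Fr.p) Fr.p (HLev M Fr.p) O S₀ 𝔪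
  have hres : Function.Surjective
      (residue ↥(MainD.TQtr M (mLev M Fr.p) Fr.p (HLev M Fr.p) O S₀ 𝔪) ∘
        algebraMap O ↥(MainD.TQtr M (mLev M Fr.p) Fr.p (HLev M Fr.p) O S₀ 𝔪)) :=
    MainD.surjective_residue_comp M (mLev M Fr.p) Fr.p (HLev M Fr.p) O S₀ 𝔪 _
      (MainD.TQtr_le M (mLev M Fr.p) Fr.p (HLev M Fr.p) O S₀ 𝔪)
      (MainD.tQ_mem_TQtr M (mLev M Fr.p) Fr.p (HLev M Fr.p) O S₀ 𝔪)
      (fun k => θ (gJ hNM Fr.p S₀ k)) hθ' hgen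
  have hSep := MainLift.traceSepM M (mLev M Fr.p) Fr.p (HLev M Fr.p) O S₀ 𝔪 _
    (MainD.TQtr_le M (mLev M Fr.p) Fr.p (HLev M Fr.p) O S₀ 𝔪)
    (MainD.tQ_mem_TQtr M (mLev M Fr.p) Fr.p (HLev M Fr.p) O S₀ 𝔪) hM5 hHp hHm hpO hinTr hgen
  have hrR := MainLift.mapMat_repG_rbarM M (mLev M Fr.p) Fr.p (HLev M Fr.p) O S₀ 𝔪 _
    (MainD.TQtr_le M (mLev M Fr.p) Fr.p (HLev M Fr.p) O S₀ 𝔪)
    (MainD.tQ_mem_TQtr M (mLev M Fr.p) Fr.p (HLev M Fr.p) O S₀ 𝔪) hM5 hHp hHm hpO hinTr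
    (fun k => θ (gJ hNM Fr.p S₀ k)) hθ' ρb hfrob' hn rb hb
  -- the gate at `2`
  have h2M : 2 ∣ M := h2N.trans hNM
  have i₀ : Fin r := ⟨0, hr⟩
  have h4 : ¬ 2 ∣ M / 2 := Fermat.Agent.S43.Rho.Feed.LevelArith.not_dvd_div_of_dvd_N hsqN hQinj
    hQp hQN hM Nat.prime_two h2N
  have hN2 : 5 ≤ M / 2 := Fermat.Agent.S43.Rho.Feed.LevelArith.five_le_div_of_dvd_N (NeZero.ne N)
    hQp hQN hM Nat.prime_two h2N i₀ (hQ5 i₀)
  have hcube2 : ∀ A : ValuationSubring Qbar, A.LiesOverPrime 2 →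
      ∀ s ∈ A.inertiaSubgroupIn ℚ,
        (rQ M (mLev M Fr.p) Fr.p (HLev M Fr.p) O S₀ 𝔪 s - 1) *
          (rQ M (mLev M Fr.p) Fr.p (HLev M Fr.p) O S₀ 𝔪 s - 1) *
            (rQ M (mLev M Fr.p) Fr.p (HLev M Fr.p) O S₀ 𝔪 s - 1) = 0 := fun A hA s hs =>
    Fermat.Agent.S43.Rho.Feed.GateLevel.rQ_unipotent_two_D_prime h2M h4 hN2 (mLev M Fr.p) Fr.p hp2
      (Fermat.Agent.S43.Rho.Feed.GateLevel.containsTorAt_of_forall h2M (hHtor_lev M Fr.p)) hHm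
      O S₀ 𝔪 A hA s hs
  have hSout : ∀ q : ℕ, q.Prime → q ∉ ({2, Fr.p} : Finset ℕ) ∪ (T ∪ Finset.univ.image Qn) →
      q.Coprime M ∧ q ≠ Fr.p := by
    intro q hq hqS
    rw [Finset.mem_union, Finset.mem_union, not_or, not_or, Finset.mem_insert,
      Finset.mem_singleton, not_or] at hqS
    obtain ⟨⟨hq2, hqp⟩, hqT, hqQ⟩ := hqS
    refine ⟨(Nat.Prime.coprime_iff_not_dvd hq).mpr fun hqM => ?_, hqp⟩
    rw [hM] at hqM
    rcases (Nat.Prime.dvd_mul hq).mp hqM with h | h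
    · exact hqT (hNT q hq h hq2)
    · obtain ⟨i, -, hi⟩ := (Prime.dvd_finsetProd_iff hq.prime _).mp h
      exact hqQ (Finset.mem_image.mpr ⟨i, Finset.mem_univ i,
        ((Nat.prime_dvd_prime_iff_eq hq (hQp i)).mp hi).symm⟩)
  have hH := MainLift.liftHypM_fl M (mLev M Fr.p) Fr.p (HLev M Fr.p) O S₀ 𝔪 _
    (MainD.TQtr_le M (mLev M Fr.p) Fr.p (HLev M Fr.p) O S₀ 𝔪)
    (MainD.tQ_mem_TQtr M (mLev M Fr.p) Fr.p (HLev M Fr.p) O S₀ 𝔪) hM5 hHp hHm hpO hinTr hres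
    (fun k => θ (gJ hNM Fr.p S₀ k)) hθ' ρb hfrob' hn hp2 h3 hF.hunip2 hcube2 hpM T
    (Finset.univ.image Qn) hSout
  -- (6) the diamond map
  obtain ⟨γ, hγsurj, hγ, hγker⟩ := exists_invDiamondHom (O := O) (fun _ : Fin r => mT + 1)
    (MulEquiv.refl (Delta r Fr.p (mT + 1))) h2 hpO
  -- (7) the two actions restricted to `TQtr`
  set Ψ₁ : ↥(MainD.TQtr M (mLev M Fr.p) Fr.p (HLev M Fr.p) O S₀ 𝔪) →+*
      Module.End (MonoidAlgebra O (Delta r Fr.p (mT + 1))) Hs.M1 :=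
    Φ₁.comp (Subalgebra.inclusion
      (MainD.TQtr_le M (mLev M Fr.p) Fr.p (HLev M Fr.p) O S₀ 𝔪)).toRingHom with hΨ₁
  set Ψχ : ↥(MainD.TQtr M (mLev M Fr.p) Fr.p (HLev M Fr.p) O S₀ 𝔪) →+*
      Module.End (MonoidAlgebra O (Delta r Fr.p (mT + 1))) Hs.Mχ :=
    Φχ.comp (Subalgebra.inclusion
      (MainD.TQtr_le M (mLev M Fr.p) Fr.p (HLev M Fr.p) O S₀ 𝔪)).toRingHom with hΨχ
  have hΨ₁O : ∀ (a : O) (x : Hs.M1),
      Ψ₁ (algebraMap O ↥(MainD.TQtr M (mLev M Fr.p) Fr.p (HLev M Fr.p) O S₀ 𝔪) a) x =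
        (MonoidAlgebra.single (1 : Delta r Fr.p (mT + 1)) a :
          MonoidAlgebra O (Delta r Fr.p (mT + 1))) • x := fun a x => hΦ₁O a x
  have hΨχO : ∀ (a : O) (z : Hs.Mχ),
      Ψχ (algebraMap O ↥(MainD.TQtr M (mLev M Fr.p) Fr.p (HLev M Fr.p) O S₀ 𝔪) a) z =
        (MonoidAlgebra.single (1 : Delta r Fr.p (mT + 1)) a :
          MonoidAlgebra O (Delta r Fr.p (mT + 1))) • z := fun a z => hΦχO a z
  have hΨcompat : ∀ (x : ↥(MainD.TQtr M (mLev M Fr.p) Fr.p (HLev M Fr.p) O S₀ 𝔪)) (y : Hs.M1)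
      (z : Hs.Mχ), Hs.q1 y = Hs.qχ z → Hs.q1 (Ψ₁ x y) = Hs.qχ (Ψχ x z) :=
    fun x y z hyz => hcompat _ y z hyz
  -- (8) the types at the stuck primes
  have hunrT : ∀ i : T, ρb.IsUnramifiedAt i.1 := fun i => hF.hunr i.1 (hℓP i) (hℓ2 i) (hℓp i)
  have hunrQ : ∀ i, ρb.IsUnramifiedAt (Qn i) := fun i => hF.hunr (Qn i) (hQp i) (hQ2 i) (hQne i)
  have hdetσ : ∀ i : T, (MainGen.repG hdTr hinTr (σ i : GQ)).det = 1 := fun i =>
    Fermat.Agent.S43.Assembly.LevelTrace.det_eq_one M Fr.p O S₀ 𝔪 hdTr hinTr (hℓP i) (hℓp i)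
      (padicPlace i.1) (Fermat.Agent.CFT.LocalBridge.liesOverPrime_padicPlace i.1) (σ i : GQ)
      (σ i).2
  have hdetΦ : ∀ i : T, (MainGen.repG hdTr hinTr (φ i)).det =
      algebraMap O ↥(MainD.TQtr M (mLev M Fr.p) Fr.p (HLev M Fr.p) O S₀ 𝔪) (s i) ^ 2 := by
    intro i
    rw [MainGen.det_repG, Feed.Inst.frob_eps Fr.p O (hℓP i) (hℓp i) (padicPlace i.1)
      (Fermat.Agent.CFT.LocalBridge.liesOverPrime_padicPlace i.1) (φ i) (hφ i), ← hs2 i, map_pow]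
  have htr1 : ∀ i : T, Ψ₁ ((MainGen.repG hdTr hinTr (σ i : GQ)).trace) = 2 := fun i =>
    Fermat.Agent.S43.Assembly.LevelType.htr1 Fr.p hp2 O hpO N hsqN S₀ mT Qn hQinj hQp hQdvd hQN
      hM hQM hM5 i₀ 𝔪 hdK hinK hdTr hinTr
      (MainD.TQtr_le M (mLev M Fr.p) Fr.p (HLev M Fr.p) O S₀ 𝔪) ρb b hmapK (hℓN i) (hℓp i)
      (hunrT i) Φ₁ hΦ₁d (padicPlace i.1)
      (Fermat.Agent.CFT.LocalBridge.liesOverPrime_padicPlace i.1) (σ i : GQ) (σ i).2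
  have htrχ : ∀ i : T, Ψχ ((MainGen.repG hdTr hinTr (σ i : GQ)).trace) =
      Ψχ (algebraMap O ↥(MainD.TQtr M (mLev M Fr.p) Fr.p (HLev M Fr.p) O S₀ 𝔪)
        (((u i : Oˣ) : O) + (((u i)⁻¹ : Oˣ) : O))) := fun i => by
    rw [hu i]
    exact Fermat.Agent.S43.Assembly.LevelType.htrχ Fr.p hp2 O hpO N hsqN S₀ mT Qn hQinj hQp hQdvd
      hQN hM hQM hM5 i₀ 𝔪 hdK hinK hdTr hinTr
      (MainD.TQtr_le M (mLev M Fr.p) Fr.p (HLev M Fr.p) O S₀ 𝔪) ρb b hmapK (hℓN i) (hℓp i)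
      (hunrT i) Φχ ζ hζp T hTprime i.2 (hpℓ1 i) hΦχO hΦχd (padicPlace i.1)
      (Fermat.Agent.CFT.LocalBridge.liesOverPrime_padicPlace i.1) (σ i : GQ) (σ i).2
  -- (9) the diamonds at the Taylor--Wiles primes
  have hdisp₁ : ∀ i : Fin r,
      ∃ b : ↥(MainD.TQtr M (mLev M Fr.p) Fr.p (HLev M Fr.p) O S₀ 𝔪),
        ∀ x : Hs.M1, Ψ₁ b x = γ (sq O (MvPowerSeries.X i)) • x := fun i =>
    Fermat.Agent.S43.Assembly.LevelDisp.hdisp₁ Fr.p hp2 O hpO N h5 S₀ mT Qn hQinj hQp hQdvd hQN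
      hM hQM hM5 𝔪 hdK hinK hdTr (MainD.TQtr_le M (mLev M Fr.p) Fr.p (HLev M Fr.p) O S₀ 𝔪) ρb b
      hmapK hunrQ γ hγ Φ₁ hΦ₁d i
  have hdispχ : ∀ i : Fin r,
      ∃ b : ↥(MainD.TQtr M (mLev M Fr.p) Fr.p (HLev M Fr.p) O S₀ 𝔪),
        ∀ z : Hs.Mχ, Ψχ b z = γ (sq O (MvPowerSeries.X i)) • z := fun i =>
    Fermat.Agent.S43.Assembly.LevelDisp.hdispχ Fr.p hp2 O hpO N h5 S₀ mT Qn hQinj hQp hQdvd hQN
      hM hQM hM5 𝔪 hdK hinK hdTr (MainD.TQtr_le M (mLev M Fr.p) Fr.p (HLev M Fr.p) O S₀ 𝔪) ρb b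
      hmapK hunrQ γ hγ Φχ ζ T hTN hNM hΦχd i
  -- (10) level zero
  haveI iM0 : Module.Finite O (M0 O (pJ N Fr.p S₀) (hpJ N Fr.p S₀) N θ) :=
    Fermat.Agent.S43.Hecke.Main.finite_M0 O (pJ N Fr.p S₀) (hpJ N Fr.p S₀) N θ
  haveI iT₂ : Module.Finite O ↥T₂ := MainGen.finite_sub T₂
  have hfr : ∀ (k : J M Fr.p S₀) (A : ValuationSubring Qbar) (τ : GQ),
      A.LiesOverPrime ((k.1 : ℕ)) → A.IsFrobeniusAt τ ((k.1 : ℕ)) →
      ∀ z : M0 O (pJ N Fr.p S₀) (hpJ N Fr.p S₀) N θ,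
        Dens.tT h₂ τ • z = t0 O (pJ N Fr.p S₀) (hpJ N Fr.p S₀) N θ (gJ hNM Fr.p S₀) k z :=
    fun k A τ hA hτ z => hz (gJ hNM Fr.p S₀ k) A τ hA hτ z
  have hent : ∀ (g' : GQ) (a b' : Fin 2) (x : Hs.M1),
      Hs.p0 (Ψ₁ (MainGen.repG hdTr hinTr g' a b') x) = CH.rep H₀ g' a b' • Hs.p0 x :=
    fun g' a b' x =>
      Fermat.Agent.S43.RSide.ZeroGlueD.ent_D M (mLev M Fr.p) Fr.p (HLev M Fr.p) O S₀ 𝔪 _
        (MainD.TQtr_le M (mLev M Fr.p) Fr.p (HLev M Fr.p) O S₀ 𝔪)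
        (MainD.tQ_mem_TQtr M (mLev M Fr.p) Fr.p (HLev M Fr.p) O S₀ 𝔪) hM5 hHp hHm hpO Hs Φ₁ hΦ₁O
        hp0 h₂ hfr hinTr H₀ g' a b' x
  refine ⟨fun hfaith i => ?_, fun θ₀ hθ₀m hS0 hF0 => ?_⟩
  · exact Fermat.Agent.S43.RSide.ZeroGlueD.trace_rep_eq_two_D M (mLev M Fr.p) Fr.p (HLev M Fr.p)
      O S₀ 𝔪 _ (MainD.TQtr_le M (mLev M Fr.p) Fr.p (HLev M Fr.p) O S₀ 𝔪)
      (MainD.tQ_mem_TQtr M (mLev M Fr.p) Fr.p (HLev M Fr.p) O S₀ 𝔪) hM5 hHp hHm hpO Hs Φ₁ hΦ₁O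
      hp0 h₂ hfr hinTr H₀ hfaith (σ i : GQ) (htr1 i)
  · -- the lifts of the traces of the generators
    choose cc hcc' using fun j : Fin g => residue_surjective
      ((rb (τg j) : Matrix (Fin 2) (Fin 2) (ResidueField O)).trace)
    have hw0 : ∀ i : T, IsUnit ((CH.rep H₀ (φ i)).trace + 2 * algebraMap O ↥T₂ (s i)) := fun i =>
      isUnit_trace_add hres₀ (CH.rep H₀) hr0 h2 (φ i) (s i) (hsu i) (hrbarΦ i)
    exact nonempty_datumJ_Q' Hs hd hϖb (fun _ : Fin r => mT + 1)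
      (MulEquiv.refl (Delta r Fr.p (mT + 1))) γ h2 hpO hγsurj hγ hγker e' q he hq h1top hχtop
      hres (MainGen.repG hdTr hinTr) (MainGen.isContMat_repG hdTr hinTr) hrR
      ({2, Fr.p} : Finset ℕ) T (Finset.univ.image Qn) (Pfl Fr.p) hH hSep τg hτg cc hcc' h2k
      (fun i : T => (i.1 : ℕ)) (fun l hl => ⟨⟨l, hl⟩, rfl⟩) (fun i => (hℓp i).symm) hq'
      (fun i => Fermat.Agent.S43.Assembly.Coeff.tauPar h2 (u i)) s
      (fun i => by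
        rw [he' i]
        exact Fermat.Agent.S43.RSide.ZetaBlock.hτχ h2 (u i))
      (fun i => Fermat.Agent.S43.RSide.ZetaBlock.hτχϖ h2 (u i) hpO hϖ (hup i))
      hϖm hsu σ φ hσ hφ hrbarI hrbarΦ hdetΦ Ψ₁ hΨ₁O Ψχ hΨχO hΨcompat hdetσ htr1
      (fun i => ((u i : Oˣ) : O)) (fun i => (((u i)⁻¹ : Oˣ) : O)) (fun _ => Fr.p) htrχ
      (fun i => Fermat.Agent.S43.RSide.ZetaBlock.hζζ' (u i))
      (fun i => Fermat.Agent.S43.RSide.ZetaBlock.hζτ h2 (u i))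
      (fun i => Fermat.Agent.S43.RSide.ZetaBlock.hζn (u i) (hup i))
      (fun i => Fermat.Agent.S43.RSide.ZetaBlock.hζ'n (u i) (hup i))
      (fun i => Fermat.Agent.S43.RSide.ZetaBlock.hζne (u i) (hu2 i))
      (fun i => Fermat.Agent.S43.RSide.ZetaBlock.hℓn (hℓP i).pos (hpℓ1 i))
      hdisp₁ hdispχ θ₀ hθ₀m (fun i => CH.rep H₀ (σ i : GQ)) (fun i => CH.rep H₀ (φ i)) hS0 hF0
      (fun i a b' x => hent (σ i : GQ) a b' x) (fun i a b' x => hent (φ i) a b' x) hw0 n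
      (fun _ => hmT)

end Main

end Fermat.Agent.S43.Assembly.Level

end
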