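/-
PROJECT R (S43, row 37), ASSEMBLY, file 2: `SETUP` (helper8, chief R).

The choices made ONCE, before any Taylor-Wiles level, from the hypotheses of `Reduce.StuckStep`
(`P`, `N` a conductor level, `p ∤ N`, `2 ∣ N`, `N ≠ 2`, every odd prime of `N` stuck, `rbar`
irreducible):

* `oddPrimes N` : the set `T` of the odd primes of `N`, non-empty;
* `algZModResidue`, `quadSplit_seam` : the residue field `k` of the coefficient ring of
  `Coeff/Ring.exists_coeffRing` as an `𝔽_p`-algebra in which the quadratics over `𝔽_p` split;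
* `isFreyResidual` : block RB's export for `rbar P k`;
* `scalarAt` : NUM's `ScalarAt` at the stuck primes, from `Reduce.IsStuck`;
* `relTauT` : **the master export of NUM** for `rbar P k`, `Smin = {2, p}`, `S ⊇ Smin ∪ T`, flat at `p`.
-/
import Fermat.Agent.S43.Assembly.Reduce
import Fermat.Agent.S43.Coeff.Ring
import Fermat.Agent.S43.Rbar.Scalar
import Fermat.Agent.S43.Rbar.Lits
import Fermat.Agent.S43.Num.ExportTau

set_option autoImplicit false
set_option linter.unusedSectionVars false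
set_option linter.style.haveILetI false

noncomputable section

namespace Fermat.Agent.S43.Assembly.Setup

open IsLocalRing Polynomial
open Fermat.Agent.S43.Assembly.Reduce
open Fermat.Agent.S43.Rbar.Seam Fermat.Agent.S43.Rbar.Export
open Fermat.Agent.S56.Coh.CocDefs
open Fermat.Agent.S56.Main.Unpack
open Fermat.Agent.S43.Num.Seam Fermat.Agent.S43.Num.ExportTau
open WeierstrassCurve WeierstrassCurve.Affine WeierstrassCurve.Affine.Point

local notation "Qbar" => AlgebraicClosure ℚ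
local notation "GQ" => (AlgebraicClosure ℚ ≃ₐ[ℚ] AlgebraicClosure ℚ)

/-! ### the stuck primes -/

/-- the odd primes of `N` -/
def oddPrimes (N : ℕ) : Finset ℕ := N.primeFactors.erase 2

theorem mem_oddPrimes {N ℓ : ℕ} : ℓ ∈ oddPrimes N ↔ ℓ ≠ 2 ∧ ℓ.Prime ∧ ℓ ∣ N ∧ N ≠ 0 := by
  rw [oddPrimes, Finset.mem_erase, Nat.mem_primeFactors]

theorem prime_of_mem_oddPrimes {N ℓ : ℕ} (h : ℓ ∈ oddPrimes N) : ℓ.Prime := (mem_oddPrimes.mp h).2.1

theorem ne_two_of_mem_oddPrimes {N ℓ : ℕ} (h : ℓ ∈ oddPrimes N) : ℓ ≠ 2 := (mem_oddPrimes.mp h).1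

theorem dvd_of_mem_oddPrimes {N ℓ : ℕ} (h : ℓ ∈ oddPrimes N) : ℓ ∣ N := (mem_oddPrimes.mp h).2.2.1

/-- a squarefree even `N ≠ 2` has an odd prime factor -/
theorem oddPrimes_nonempty {N : ℕ} (hsq : Squarefree N) (h2N : 2 ∣ N) (hN2 : N ≠ 2) :
    (oddPrimes N).Nonempty := by
  have hN0 : N ≠ 0 := hsq.ne_zero
  obtain ⟨c, rfl⟩ := h2N
  have hc1 : c ≠ 1 := fun h => hN2 (by rw [h])
  obtain ⟨ℓ, hℓ, hℓc⟩ := Nat.exists_prime_and_dvd hc1
  refine ⟨ℓ, mem_oddPrimes.mpr ⟨?_, hℓ, Dvd.dvd.mul_left hℓc 2, hN0⟩⟩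
  rintro rfl
  obtain ⟨c', rfl⟩ := hℓc
  have h4 : (2 : ℕ) * 2 ∣ 2 * (2 * c') := ⟨c', by ring⟩
  have := hsq 2 h4
  simp at this

/-! ### the residue field as an `𝔽_p`-algebra -/

section Residue

variable {O : Type} [CommRing O] [IsLocalRing O] (p : ℕ) [Fact p.Prime]

/-- the residue field of a local ring with `p ∈ 𝔪` is an `𝔽_p`-algebra -/
@[reducible] def algZModResidue (hp : (p : O) ∈ maximalIdeal O) : Algebra (ZMod p) (ResidueField O) :=
  haveI := Fermat.Agent.S43.Coeff.Ring.charP_residueField hp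
  ZMod.algebra (ResidueField O) p

/-- the two literals `QuadSplit` agree -/
theorem quadSplit_seam {k : Type} [Field k] [Algebra (ZMod p) k]
    (hk : Fermat.Agent.S43.Coeff.Ring.QuadSplit k) : Fermat.Agent.S43.Rbar.Seam.QuadSplit p k := by
  intro t d
  obtain ⟨α, β, h⟩ := hk (-(t.val : ℤ)) (d.val : ℤ)
  refine ⟨α, β, ?_⟩
  rw [← h]
  have h1 : ((-(t.val : ℤ) : ℤ) : k) = -algebraMap (ZMod p) k t := by
    rw [Int.cast_neg, Int.cast_natCast, ← map_natCast (algebraMap (ZMod p) k),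
      ZMod.natCast_zmod_val]
  have h2 : (((d.val : ℤ) : ℤ) : k) = algebraMap (ZMod p) k d := by
    rw [Int.cast_natCast, ← map_natCast (algebraMap (ZMod p) k), ZMod.natCast_zmod_val]
  rw [h1, h2, map_neg]
  ring

end Residue

/-! ### RB and NUM -/

section Num

variable (P : FreyPackage) [Fact P.p.Prime] {k : Type} [Field k] [Algebra (ZMod P.p) k]

/-- **RB's export** for the coefficient field -/
theorem isFreyResidual
    (hirr : GaloisRepIsIrreducible (K := Qbar) ℚ P.freyCurve P.p)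
    (hk : Fermat.Agent.S43.Coeff.Ring.QuadSplit k) : IsFreyResidual P (rbar P k) :=
  Fermat.Agent.S43.Rbar.Export.isFreyResidual P k hirr (quadSplit_seam P.p hk)

/-- `rbar P k` is scalar on the decomposition groups at the stuck primes -/
theorem scalarOnDecomposition {T : Finset ℕ}
    (hT : ∀ ℓ ∈ T, ℓ.Prime ∧ ℓ ≠ 2 ∧ ℓ ≠ P.p ∧ IsStuck P ℓ) :
    ∀ ℓ ∈ T, ScalarOnDecomposition (rbar P k) ℓ := fun ℓ hℓ => by
  obtain ⟨h1, h2, h3, h4⟩ := hT ℓ hℓ
  exact Fermat.Agent.S43.Rbar.Scalar.frey_scalarOnDecomposition P k h1 h2 h3 h4.2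

/-- **NUM's `ScalarAt`** at the stuck primes -/
theorem scalarAt {T : Finset ℕ} (hT : ∀ ℓ ∈ T, ℓ.Prime ∧ ℓ ≠ 2 ∧ ℓ ≠ P.p ∧ IsStuck P ℓ)
    (b : Module.Basis (Fin 2) k (rbar P k).V) (rbarM : GQ →* GL (Fin 2) k)
    (hb : ∀ g, (rbarM g : Matrix (Fin 2) (Fin 2) k) = LinearMap.toMatrix b b ((rbar P k).ρ g)) :
    ScalarAt rbarM T :=
  Fermat.Agent.S43.Rbar.Lits.scalarAt_matrix b rbarM hb T (scalarOnDecomposition P hT)

end Num

section Master

variable (P : FreyPackage) [Fact P.p.Prime]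
  {O : Type} [CommRing O] [IsDomain O] [IsDiscreteValuationRing O]
  [IsAdicComplete (maximalIdeal O) O] [Finite (ResidueField O)]
  [Algebra (ZMod P.p) (ResidueField O)]

/-- **THE MASTER EXPORT OF NUM FOR THE FREY REPRESENTATION**: `Smin = {2, p}`, `S ⊇ Smin ∪ T` any
finite set of primes (in the application `S` = the exceptional set of the integral model `W`, so that
every Taylor-Wiles prime is good for `W`), flat at `p`. -/
theorem relTauT (hirr : GaloisRepIsIrreducible (K := Qbar) ℚ P.freyCurve P.p)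
    (hk : Fermat.Agent.S43.Coeff.Ring.QuadSplit (ResidueField O))
    {T : Finset ℕ} (hT : ∀ ℓ ∈ T, ℓ.Prime ∧ ℓ ≠ 2 ∧ ℓ ≠ P.p ∧ IsStuck P ℓ)
    (S : Finset ℕ) (hS : ∀ q ∈ S, q.Prime) (hSS : {2, P.p} ∪ T ⊆ S)
    (b : Module.Basis (Fin 2) (ResidueField O) (rbar P (ResidueField O)).V)
    (rbarM : GQ →* GL (Fin 2) (ResidueField O))
    (hb : ∀ g, (rbarM g : Matrix (Fin 2) (Fin 2) (ResidueField O)) =
      LinearMap.toMatrix b b ((rbar P (ResidueField O)).ρ g)) :
    RelTauT P.p (rbar P (ResidueField O)) rbarM S {2, P.p} T (Pfl P.p) := by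
  have hF := isFreyResidual P (k := ResidueField O) hirr hk
  haveI : CharP (ResidueField O) P.p := by
    refine (CharP.charP_iff_prime_eq_zero Fact.out).mpr ?_
    exact natCast_p_eq_zero P (ResidueField O)
  have hp2 : P.p ≠ 2 := by
    have := P.hp5
    omega
  refine relTauT_fl P.p hp2 (rbar P (ResidueField O)) hF.habs hF.hdet hF.hsplit hF.hTW
    S {2, P.p} T (by simp) (Finset.union_subset_left hSS) (Finset.union_subset_right hSS)
    hS ?_ (fun q hq hqp => hmin_of P hF q hq hqp) b rbarM hb (scalarAt P hT b rbarM hb)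
  rw [Finset.disjoint_left]
  intro q hq hqT
  rw [Finset.mem_insert, Finset.mem_singleton] at hq
  rcases hq with rfl | rfl
  · exact (hT _ hqT).2.1 rfl
  · exact (hT _ hqT).2.2.1 rfl

end Master

end Fermat.Agent.S43.Assembly.Setup
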