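/-
PROJECT R (S43, row 37), ASSEMBLY, file `TwSets` (helper27): **THE TAYLOR--WILES SETS AT ONE FIXED
`r`**.

The master export of NUM (`Num/ExportTau.RelTauT`, for the Frey representation
`Assembly/Setup.relTauT`) gives ONE number `g` and, for every depth `d`, a Taylor--Wiles set
`Q : Finset ℕ` with `#Q = g + 3 #T` and trace generators `τ_1 … τ_g` on `Sel (Smin ∪ T ∪ Q) ..`.
The per-level theorem `Assembly/Level.level` (F) and `RSide/StuckR.exists_prime_of_levels` want, for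
ONE `r` (`r = 3 * Fintype.card ↥T + g`) and every `n`, an injective enumeration `Qn : Fin r → ℕ` at
depth `mT` with `(2 r + 2) n ≤ mT + 1`, and the generators on `Sel (Smin ∪ T ∪ univ.image Qn) ..`.
This file is that re-indexing (`Finset.orderEmbOfFin`) and nothing else.
-/
import Mathlib
import Fermat.Agent.S43.Num.ExportTau

set_option autoImplicit false
set_option linter.unusedSectionVars false

noncomputable section

namespace Fermat.Agent.S43.Assembly.TwSets

open IsLocalRing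
open Fermat.Agent.CFT.Bridge
open Fermat.Agent.S56.Coh Fermat.Agent.S56.Coh.CocDefs
open Fermat.Agent.S53.Dictionary hiding GQ
open Fermat.Agent.S56.Tan.Cocycle
open Fermat.Agent.S56.Main.Unpack (IsTWPrime)
open Fermat.Agent.S43.Num.RelCount Fermat.Agent.S43.Num.RelTanT
open Fermat.Agent.S43.Num.ExportTau

variable {𝒪 : Type} [CommRing 𝒪] [IsDomain 𝒪] [IsDiscreteValuationRing 𝒪]
  [IsAdicComplete (maximalIdeal 𝒪) 𝒪]

/-- the number `r` of Taylor--Wiles primes, in the literal of `RSide/StuckR` (`ι := ↥T`) -/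
theorem card_eq (T : Finset ℕ) (g : ℕ) : 3 * Fintype.card ↥T + g = g + 3 * T.card := by
  rw [Fintype.card_coe, add_comm]

/-- `0 < r` as soon as there is one stuck prime -/
theorem pos_of_mem {T : Finset ℕ} {ℓ : ℕ} (hℓ : ℓ ∈ T) (g : ℕ) :
    0 < 3 * Fintype.card ↥T + g := by
  have h : 0 < T.card := Finset.card_pos.mpr ⟨ℓ, hℓ⟩
  rw [Fintype.card_coe]
  omega

/-- **one Taylor--Wiles set, enumerated**: a `Finset` of `r` Taylor--Wiles primes with its trace
generators is the image of an injective `Qn : Fin r → ℕ` (the increasing enumeration), with the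
same generators on `Sel (Smin ∪ T ∪ univ.image Qn) ..`. -/
theorem exists_enum {p : ℕ} [Fact p.Prime] {ρbar : ResidualGaloisRep (ResidueField 𝒪)}
    {rbar : GQ →* GL (Fin 2) (ResidueField 𝒪)} {S Smin T : Finset ℕ}
    {Pp : GaloisRepAdic (DualNumber (ResidueField 𝒪)) → Prop} {g r d : ℕ}
    {Q : Finset ℕ} (hQc : Q.card = r) (hQa : ∀ q ∈ Q, IsTWPrime p d ρbar S q)
    (τ : Fin g → GQ)
    (hτ : ∀ x : Sel (Smin ∪ T ∪ Q) (LocCond.ofLocal (LcFamT rbar p Smin T Pp)),
      (∀ j, trSel _ _ (τ j) x = 0) → x = 0) :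
    ∃ Qn : Fin r → ℕ, Function.Injective Qn ∧ (∀ i, IsTWPrime p d ρbar S (Qn i)) ∧
      Finset.univ.image Qn = Q ∧
      ∀ x : Sel (Smin ∪ T ∪ Finset.univ.image Qn)
          (LocCond.ofLocal (LcFamT rbar p Smin T Pp)),
        (∀ j, trSel _ _ (τ j) x = 0) → x = 0 := by
  have himg : Finset.univ.image (fun i : Fin r => Q.orderEmbOfFin hQc i) = Q :=
    Finset.image_orderEmbOfFin_univ Q hQc
  refine ⟨fun i => Q.orderEmbOfFin hQc i, (Q.orderEmbOfFin hQc).injective,
    fun i => hQa _ (Finset.orderEmbOfFin_mem Q hQc i), himg, ?_⟩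
  rw [himg]
  exact hτ

/-- **THE TAYLOR--WILES SETS AT ONE FIXED `r`, every depth**: from `RelTauT`, ONE `g` such that for
every `r = g + 3 #T` and every depth `d` there is an injective `Qn : Fin r → ℕ` of Taylor--Wiles
primes of depth `d` with trace generators `τg` on `Sel (Smin ∪ T ∪ univ.image Qn) ..`. -/
theorem exists_twSets_depth {p : ℕ} [Fact p.Prime]
    {ρbar : ResidualGaloisRep (ResidueField 𝒪)}
    {rbar : GQ →* GL (Fin 2) (ResidueField 𝒪)} {S Smin T : Finset ℕ}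
    {Pp : GaloisRepAdic (DualNumber (ResidueField 𝒪)) → Prop}
    (h : RelTauT p ρbar rbar S Smin T Pp) :
    ∃ g : ℕ, ∀ {r : ℕ}, r = g + 3 * T.card → ∀ d : ℕ,
      ∃ Qn : Fin r → ℕ, Function.Injective Qn ∧ (∀ i, IsTWPrime p d ρbar S (Qn i)) ∧
        ∃ τg : Fin g → GQ,
          ∀ x : Sel (Smin ∪ T ∪ Finset.univ.image Qn)
              (LocCond.ofLocal (LcFamT rbar p Smin T Pp)),
            (∀ j, trSel _ _ (τg j) x = 0) → x = 0 := by
  obtain ⟨g, hg⟩ := h
  refine ⟨g, fun {r} hr d => ?_⟩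
  obtain ⟨Q, hQc, hQa, τ, hτ⟩ := hg d
  obtain ⟨Qn, hinj, hTW, -, hx⟩ := exists_enum (r := r) (hQc.trans hr.symm) hQa τ hτ
  exact ⟨Qn, hinj, hTW, τ, hx⟩

/-- **THE TAYLOR--WILES SETS AT ONE FIXED `r`, in the literals of `Assembly/Level.level` (F) and
`RSide/StuckR.exists_prime_of_levels`**: ONE `g`; for `r = 3 * Fintype.card ↥T + g` (StuckR's `hr`)
and every `n`, at the depth `mT := (2 r + 2) n` (so that `(2 r + 2) n ≤ mT + 1`). -/
theorem exists_twSets {p : ℕ} [Fact p.Prime]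
    {ρbar : ResidualGaloisRep (ResidueField 𝒪)}
    {rbar : GQ →* GL (Fin 2) (ResidueField 𝒪)} {S Smin T : Finset ℕ}
    {Pp : GaloisRepAdic (DualNumber (ResidueField 𝒪)) → Prop}
    (h : RelTauT p ρbar rbar S Smin T Pp) :
    ∃ g : ℕ, ∀ {r : ℕ}, r = 3 * Fintype.card ↥T + g → ∀ n : ℕ,
      ∃ Qn : Fin r → ℕ, Function.Injective Qn ∧
        (∀ i, IsTWPrime p ((2 * r + 2) * n) ρbar S (Qn i)) ∧
        ∃ τg : Fin g → GQ,
          ∀ x : Sel (Smin ∪ T ∪ Finset.univ.image Qn)
              (LocCond.ofLocal (LcFamT rbar p Smin T Pp)),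
            (∀ j, trSel _ _ (τg j) x = 0) → x = 0 := by
  obtain ⟨g, hg⟩ := exists_twSets_depth h
  exact ⟨g, fun {r} hr n => hg (hr.trans (card_eq T g)) ((2 * r + 2) * n)⟩

/-- the depth condition of `Assembly/Level.level` (F) at `mT := (2 r + 2) n` -/
theorem depth_le (r n : ℕ) : (2 * r + 2) * n ≤ (2 * r + 2) * n + 1 := Nat.le_succ _

end Fermat.Agent.S43.Assembly.TwSets

end
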