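/-
PROJECT R (S43, row 37), ASSEMBLY, brick (c) of the chief's cut #6494 (helper12).

THE SQUARE ROOTS `s_i` OF THE STUCK PRIMES IN THE COEFFICIENT RING.

* `exists_sqrt` : Hensel for `X ^ 2 - a` in a complete local ring in which `2` is a unit
  (Mathlib: `IsAdicComplete` gives `HenselianRing`);
* `rbar_eq_intCast_smul` : a `ℤ`-scalar `c` on `E[p]` gives `rbar P K σ = (c : K) • 1`;
* `intCast_sq_eq` : for a Frobenius element at `ℓ ≠ p` acting on `E[p]` by the scalar `c`,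
  `(c : K) ^ 2 = (ℓ : K)` (`det rbar` is the cyclotomic character);
* `exists_sqrt_frob` : **the Frey instance**: `s : O` with `s ^ 2 = ℓ`, `IsUnit s` and
  `rbar P (ResidueField O) φ = residue O s • 1`, for `φ` a Frobenius element at a stuck prime `ℓ ≠ p`
  (`hdetΦ`, `hs`, `hresΦ` of `Local/Universal.exists_theta`);
* `exists_sqrt_frob_matrix` : the same for a matrix form `rbarM` of `rbar` (the shape of
  `Assembly/Setup.relTauT`'s `(b, rbarM, hb)`);
* `exists_sqrt_family`, `exists_sqrt_family_matrix` : the same for a family `ℓ i`, `A i`, `φ i`.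
-/
import Fermat.Agent.S43.Assembly.Reduce
import Fermat.Agent.S43.Rbar.Scalar

set_option autoImplicit false
set_option linter.unusedSectionVars false
set_option linter.style.haveILetI false

noncomputable section

namespace Fermat.Agent.S43.Assembly.Sqrt

open IsLocalRing Polynomial
open Fermat.Agent.S43.Assembly.Reduce
open Fermat.Agent.S43.Rbar.Frey Fermat.Agent.S43.Rbar.Export
open Fermat.Agent.S41.NonEis.Roots
open WeierstrassCurve WeierstrassCurve.Affine WeierstrassCurve.Affine.Point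
open scoped WeierstrassCurve.Affine

local notation "Qbar" => AlgebraicClosure ℚ
local notation "GQ" => (AlgebraicClosure ℚ ≃ₐ[ℚ] AlgebraicClosure ℚ)

/-! ### Hensel for `X ^ 2 - a` -/

section Hensel

variable {O : Type*} [CommRing O] [IsLocalRing O] [IsAdicComplete (maximalIdeal O) O]

/-- **square roots in a complete local ring with `2` a unit**: a unit `c` with `c ^ 2 ≡ a` modulo
the maximal ideal lifts to a square root `s ≡ c` of `a`. -/
theorem exists_sqrt (h2 : IsUnit (2 : O)) (a c : O) (hc : IsUnit c)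
    (hac : c ^ 2 - a ∈ maximalIdeal O) : ∃ s : O, s ^ 2 = a ∧ s - c ∈ maximalIdeal O := by
  have hmonic : (X ^ 2 - C a : O[X]).Monic := monic_X_pow_sub_C a two_ne_zero
  have heval : (X ^ 2 - C a : O[X]).eval c ∈ maximalIdeal O := by
    rw [eval_sub, eval_pow, eval_X, eval_C]
    exact hac
  have hder : IsUnit (Ideal.Quotient.mk (maximalIdeal O)
      ((X ^ 2 - C a : O[X]).derivative.eval c)) := by
    refine IsUnit.map _ ?_
    rw [derivative_sub, derivative_C, sub_zero, derivative_X_pow, eval_mul, eval_C, eval_pow,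
      eval_X]
    simpa using h2.mul hc
  obtain ⟨s, hs, hsc⟩ := HenselianRing.is_henselian (I := maximalIdeal O) _ hmonic c heval hder
  refine ⟨s, ?_, hsc⟩
  rw [IsRoot.def, eval_sub, eval_pow, eval_X, eval_C, sub_eq_zero] at hs
  exact hs

/-- the square root of `exists_sqrt` is a unit with the residue of `c` -/
theorem exists_sqrt' (h2 : IsUnit (2 : O)) (a c : O) (hc : IsUnit c)
    (hac : c ^ 2 - a ∈ maximalIdeal O) :
    ∃ s : O, s ^ 2 = a ∧ IsUnit s ∧ residue O s = residue O c := by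
  obtain ⟨s, hs, hsc⟩ := exists_sqrt h2 a c hc hac
  have hres : residue O s = residue O c := by
    rw [← sub_eq_zero, ← map_sub, residue_eq_zero_iff]
    exact hsc
  refine ⟨s, hs, ?_, hres⟩
  by_contra hsu
  have h1 : s ∈ maximalIdeal O := (mem_maximalIdeal s).mpr hsu
  have h2' : residue O c = 0 := by rw [← hres, residue_eq_zero_iff]; exact h1
  exact ((residue_ne_zero_iff_isUnit c).mpr hc) h2'

end Hensel

/-! ### the Frey instance -/

section Frey

variable (P : FreyPackage) [Fact P.p.Prime] (K : Type) [Field K] [Algebra (ZMod P.p) K]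

/-- a `ℤ`-scalar `c` on `E[p]` : `rbar P K σ = (c : K) • 1` -/
theorem rbar_eq_intCast_smul {σ : GQ} {c : ℤ}
    (h : ∀ x : Submodule.torsionBy ℤ (P.freyCurve⁄Qbar).Point P.p, σ • x = c • x) :
    (rbar P K).ρ σ = (c : K) • (1 : Module.End K (rbar P K).V) := by
  have h1 : (rbarF P).ρ σ = (c : ZMod P.p) • (1 : Module.End (ZMod P.p) (rbarF P).V) := by
    refine LinearMap.ext fun x => ?_
    rw [rbarF_apply P σ x, h x, LinearMap.smul_apply, Module.End.one_apply,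
      Int.cast_smul_eq_zsmul]
    rfl
  rw [rbar_apply, h1, LinearMap.baseChange_smul, LinearMap.baseChange_one,
    algebra_compatible_smul K, map_intCast]
  rfl

/-- the determinant of `rbar` at a Frobenius element at `ℓ ≠ p` is `ℓ` -/
theorem det_rbar_frob (hirr : GaloisRepIsIrreducible (K := Qbar) ℚ P.freyCurve P.p)
    {ℓ : ℕ} (hℓ : ℓ.Prime) (hℓp : ℓ ≠ P.p) (A : ValuationSubring Qbar) (hA : A.LiesOverPrime ℓ)
    (φ : GQ) (hφ : A.IsFrobeniusAt φ ℓ) :
    LinearMap.det ((rbar P K).ρ φ) = (ℓ : K) := by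
  rw [det_rbar P K hirr, omega_frob P.p hℓ hℓp A hA φ hφ, map_natCast]

/-- **the scalar of a Frobenius element squares to `ℓ`** -/
theorem intCast_sq_eq (hirr : GaloisRepIsIrreducible (K := Qbar) ℚ P.freyCurve P.p)
    {ℓ : ℕ} (hℓ : ℓ.Prime) (hℓp : ℓ ≠ P.p) (A : ValuationSubring Qbar) (hA : A.LiesOverPrime ℓ)
    (φ : GQ) (hφ : A.IsFrobeniusAt φ ℓ) {c : ℤ}
    (h : ∀ x : Submodule.torsionBy ℤ (P.freyCurve⁄Qbar).Point P.p, φ • x = c • x) :
    (c : K) ^ 2 = (ℓ : K) := by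
  have h1 := det_rbar_frob P K hirr hℓ hℓp A hA φ hφ
  rw [rbar_eq_intCast_smul P K h, LinearMap.det_smul, _root_.map_one, mul_one,
    (rbar P K).finrank_eq] at h1
  exact h1

/-- `ℓ ≠ p` is non-zero in `K` -/
theorem natCast_ne_zero {ℓ : ℕ} (hℓ : ℓ.Prime) (hℓp : ℓ ≠ P.p) : (ℓ : K) ≠ 0 := by
  rw [← map_natCast (algebraMap (ZMod P.p) K)]
  intro h0
  have h1 : ((ℓ : ℕ) : ZMod P.p) = 0 :=
    (algebraMap (ZMod P.p) K).injective (by rw [h0, _root_.map_zero])
  rw [ZMod.natCast_eq_zero_iff] at h1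
  exact hℓp ((Nat.prime_dvd_prime_iff_eq (Fact.out : P.p.Prime) hℓ).mp h1).symm

end Frey

section Main

variable (P : FreyPackage) [Fact P.p.Prime]
  {O : Type} [CommRing O] [IsLocalRing O] [IsAdicComplete (maximalIdeal O) O]
  [Algebra (ZMod P.p) (ResidueField O)]

/-- **THE SQUARE ROOT `s` OF A STUCK PRIME** (core: from `FrobScalar`): `s ^ 2 = ℓ`, `s` a unit, and
`rbar(φ)` is the scalar `residue s`. -/
theorem exists_sqrt_frob_of_frobScalar (h2 : IsUnit (2 : O))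
    (hirr : GaloisRepIsIrreducible (K := Qbar) ℚ P.freyCurve P.p)
    {ℓ : ℕ} (hℓ : ℓ.Prime) (hℓp : ℓ ≠ P.p) (hfs : FrobScalar P ℓ)
    (A : ValuationSubring Qbar) (hA : A.LiesOverPrime ℓ) (φ : GQ) (hφ : A.IsFrobeniusAt φ ℓ) :
    ∃ s : O, s ^ 2 = (ℓ : O) ∧ IsUnit s ∧
      (rbar P (ResidueField O)).ρ φ =
        residue O s • (1 : Module.End (ResidueField O) (rbar P (ResidueField O)).V) := by
  obtain ⟨c, hc⟩ := hfs A hA φ hφ
  have hsq : ((c : ℤ) : ResidueField O) ^ 2 = (ℓ : ResidueField O) :=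
    intCast_sq_eq P (ResidueField O) hirr hℓ hℓp A hA φ hφ hc
  have hres : residue O ((c : ℤ) : O) = ((c : ℤ) : ResidueField O) := map_intCast _ c
  have hcu : IsUnit ((c : ℤ) : O) := by
    rw [← residue_ne_zero_iff_isUnit, hres]
    intro h0
    rw [h0, zero_pow two_ne_zero] at hsq
    exact natCast_ne_zero P (ResidueField O) hℓ hℓp hsq.symm
  have hac : ((c : ℤ) : O) ^ 2 - ((ℓ : ℕ) : O) ∈ maximalIdeal O := by
    rw [← residue_eq_zero_iff, map_sub, map_pow, hres, map_natCast, hsq, sub_self]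
  obtain ⟨s, hs, hsu, hsc⟩ := exists_sqrt' h2 ((ℓ : ℕ) : O) ((c : ℤ) : O) hcu hac
  refine ⟨s, hs, hsu, ?_⟩
  rw [hsc, hres]
  exact rbar_eq_intCast_smul P (ResidueField O) hc

/-- **THE SQUARE ROOT `s` OF A STUCK PRIME** (brick (c) of #6494). -/
theorem exists_sqrt_frob (h2 : IsUnit (2 : O))
    (hirr : GaloisRepIsIrreducible (K := Qbar) ℚ P.freyCurve P.p)
    {ℓ : ℕ} (hℓ : ℓ.Prime) (hℓp : ℓ ≠ P.p) (hst : IsStuck P ℓ)
    (A : ValuationSubring Qbar) (hA : A.LiesOverPrime ℓ) (φ : GQ) (hφ : A.IsFrobeniusAt φ ℓ) :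
    ∃ s : O, s ^ 2 = (ℓ : O) ∧ IsUnit s ∧
      (rbar P (ResidueField O)).ρ φ =
        residue O s • (1 : Module.End (ResidueField O) (rbar P (ResidueField O)).V) :=
  exists_sqrt_frob_of_frobScalar P h2 hirr hℓ hℓp hst.2 A hA φ hφ

/-- the same for a matrix form of `rbar` -/
theorem exists_sqrt_frob_matrix (h2 : IsUnit (2 : O))
    (hirr : GaloisRepIsIrreducible (K := Qbar) ℚ P.freyCurve P.p)
    {ℓ : ℕ} (hℓ : ℓ.Prime) (hℓp : ℓ ≠ P.p) (hst : IsStuck P ℓ)
    (A : ValuationSubring Qbar) (hA : A.LiesOverPrime ℓ) (φ : GQ) (hφ : A.IsFrobeniusAt φ ℓ)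
    (b : Module.Basis (Fin 2) (ResidueField O) (rbar P (ResidueField O)).V)
    (rbarM : GQ →* GL (Fin 2) (ResidueField O))
    (hb : ∀ g, (rbarM g : Matrix (Fin 2) (Fin 2) (ResidueField O)) =
      LinearMap.toMatrix b b ((rbar P (ResidueField O)).ρ g)) :
    ∃ s : O, s ^ 2 = (ℓ : O) ∧ IsUnit s ∧
      (rbarM φ : Matrix (Fin 2) (Fin 2) (ResidueField O)) =
        residue O s • (1 : Matrix (Fin 2) (Fin 2) (ResidueField O)) := by
  obtain ⟨s, hs, hsu, hρ⟩ := exists_sqrt_frob P h2 hirr hℓ hℓp hst A hA φ hφ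
  refine ⟨s, hs, hsu, ?_⟩
  rw [hb, hρ, map_smul, LinearMap.toMatrix_one]

/-- **the family `s i`** -/
theorem exists_sqrt_family (h2 : IsUnit (2 : O))
    (hirr : GaloisRepIsIrreducible (K := Qbar) ℚ P.freyCurve P.p)
    {ι : Type*} (ℓ : ι → ℕ) (hℓ : ∀ i, (ℓ i).Prime) (hℓp : ∀ i, ℓ i ≠ P.p)
    (hst : ∀ i, IsStuck P (ℓ i)) (A : ι → ValuationSubring Qbar)
    (hA : ∀ i, (A i).LiesOverPrime (ℓ i)) (φ : ι → GQ) (hφ : ∀ i, (A i).IsFrobeniusAt (φ i) (ℓ i)) :
    ∃ s : ι → O, (∀ i, s i ^ 2 = ((ℓ i : ℕ) : O)) ∧ (∀ i, IsUnit (s i)) ∧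
      ∀ i, (rbar P (ResidueField O)).ρ (φ i) =
        residue O (s i) • (1 : Module.End (ResidueField O) (rbar P (ResidueField O)).V) := by
  choose s h1 h2' h3 using fun i =>
    exists_sqrt_frob P h2 hirr (hℓ i) (hℓp i) (hst i) (A i) (hA i) (φ i) (hφ i)
  exact ⟨s, h1, h2', h3⟩

/-- the family `s i` for a matrix form of `rbar` -/
theorem exists_sqrt_family_matrix (h2 : IsUnit (2 : O))
    (hirr : GaloisRepIsIrreducible (K := Qbar) ℚ P.freyCurve P.p)
    {ι : Type*} (ℓ : ι → ℕ) (hℓ : ∀ i, (ℓ i).Prime) (hℓp : ∀ i, ℓ i ≠ P.p)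
    (hst : ∀ i, IsStuck P (ℓ i)) (A : ι → ValuationSubring Qbar)
    (hA : ∀ i, (A i).LiesOverPrime (ℓ i)) (φ : ι → GQ) (hφ : ∀ i, (A i).IsFrobeniusAt (φ i) (ℓ i))
    (b : Module.Basis (Fin 2) (ResidueField O) (rbar P (ResidueField O)).V)
    (rbarM : GQ →* GL (Fin 2) (ResidueField O))
    (hb : ∀ g, (rbarM g : Matrix (Fin 2) (Fin 2) (ResidueField O)) =
      LinearMap.toMatrix b b ((rbar P (ResidueField O)).ρ g)) :
    ∃ s : ι → O, (∀ i, s i ^ 2 = ((ℓ i : ℕ) : O)) ∧ (∀ i, IsUnit (s i)) ∧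
      ∀ i, (rbarM (φ i) : Matrix (Fin 2) (Fin 2) (ResidueField O)) =
        residue O (s i) • (1 : Matrix (Fin 2) (Fin 2) (ResidueField O)) := by
  choose s h1 h2' h3 using fun i =>
    exists_sqrt_frob_matrix P h2 hirr (hℓ i) (hℓp i) (hst i) (A i) (hA i) (φ i) (hφ i) b rbarM hb
  exact ⟨s, h1, h2', h3⟩

end Main

end Fermat.Agent.S43.Assembly.Sqrt
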