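/-
PROJECT R (S43, row 37), ASSEMBLY, file `StuckStep` (helper8, chief R): **THE STUCK STEP**,
`stuckStep : Reduce.StuckStep`, the second input of `Reduce.engine_of` (the first is block T1's
`T1/Main.mazurFrey`).

`P` a Frey package, `N` a conductor level, `p ∤ N`, `2 ∣ N`, `N ≠ 2`, every odd prime of `N` stuck,
`rbar` irreducible and modular of level `N`.  Then `rbar` is modular of level `N / ℓ` for one odd
prime `ℓ ∣ N`.  The proof is the composition of the bricks of PROJECT R, each called once: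

* `Assembly/Coeff.exists_coeff` : the coefficient ring `O` with `ϖ`, `ζ` ;
* `Assembly/Setup.isFreyResidual`, `Rho/ExistsNorm.exists_norm` at complex conjugation : `rbar`,
  its matrix form `rb` and its normalisation `(c, g₀, h₀, b)` ;
* `Exit/FreyZero.levelZero_of_modular` : the integral model `W`, `S₀ := excSet W p N`,
  `θ := thetaW ..`, `LamZQ ≠ 0`, the level-zero Hecke module `M0` of positive rank ;
* `Rho/Zero/BridgeFrob.exists_module_M0_frob` : `M0` as a faithful module over `T0 := TZ ..` ;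
* `RSide/SetupStuck.exists_stuck_data` : tame generators, Frobenius elements, square roots ;
* `Assembly/Coeff.params`, `relIdeal_ne_top` : the parameters of the two local rings ;
* `Assembly/Setup.relTauT` + `Assembly/TwSets.exists_twSets` : the Taylor--Wiles sets at one `r` ;
* `Rho/Zero/PackZ` : the `T0` package (`H₀`, continuity, residual matrices, determinants) ;
* `Assembly/Level.level` at every `n`, then `RSide/StuckR.exists_prime_of_levels` : the prime `𝔭₀` ;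
* `Exit/FreyTheta.modularRepOfLevel_div` : the exit.
-/
import Mathlib
import Fermat.Agent.S43.Assembly.Reduce
import Fermat.Agent.S43.Assembly.Level
import Fermat.Agent.S43.Assembly.Setup
import Fermat.Agent.S43.Assembly.Coeff
import Fermat.Agent.S43.Assembly.TwSets
import Fermat.Agent.S43.RSide.SetupStuck
import Fermat.Agent.S43.RSide.StuckR
import Fermat.Agent.S43.RSide.ZetaBlock
import Fermat.Agent.S43.Rho.Zero.BridgeFrob
import Fermat.Agent.S43.Rho.Zero.PackZ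
import Fermat.Agent.S43.Rho.Conj
import Fermat.Agent.S43.Exit.FreyTheta
import Fermat.Agent.S43.Exit.FreyZero

set_option autoImplicit false
set_option linter.unusedSectionVars false
set_option linter.style.haveILetI false

noncomputable section

namespace Fermat.Agent.S43.Assembly.StuckStep

open MvPowerSeries IsLocalRing
open Fermat.Agent.CFT.Bridge
open Fermat.Agent.S53.Dictionary hiding GQ
open Fermat.Agent.S56.Tan.Cocycle
open Fermat.Agent.S43.Rho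
open Fermat.Agent.S43.Rho.Zero.Inst
open Fermat.Agent.S43.Rho.Feed.Inst (eps)
open Fermat.Agent.S43.Hecke.Loc (evalHom maxId)
open Fermat.Agent.S43.Hecke.Main (M0)
open Fermat.Agent.S43.Rbar.Seam
open Fermat.Agent.S43.Rbar.Export
open Fermat.Agent.S43.Assembly.Reduce
open Fermat.Agent.S43.Assembly.LevelDefs
open Fermat.Agent.S44.Ent.Phi (excSet)
open Fermat.Agent.S43.Exit.FreyTheta
open FreyPackage
open WeierstrassCurve WeierstrassCurve.Affine WeierstrassCurve.Affine.Point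

attribute [local instance] Glue.smulCommClassT Glue.algebraEnd Zero.Gen.invertibleTwoT

local notation "Qbar" => AlgebraicClosure ℚ

/-- a matrix form of a residual representation in a basis -/
theorem exists_rbarM {k : Type} [Field k] (ρ : ResidualGaloisRep k)
    (b : Module.Basis (Fin 2) k ρ.V) :
    ∃ rbarM : GQ →* GL (Fin 2) k, ∀ g, (rbarM g : Matrix (Fin 2) (Fin 2) k) =
      LinearMap.toMatrix b b (ρ.ρ g) := by
  refine ⟨(Units.map ((LinearMap.toMatrixAlgEquiv b : Module.End k ρ.V ≃ₐ[k]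
    Matrix (Fin 2) (Fin 2) k) : Module.End k ρ.V →* Matrix (Fin 2) (Fin 2) k)).comp
    ρ.ρ.toHomUnits, fun g => rfl⟩

/-- a squarefree even `N ≠ 2` is at least `6` -/
theorem five_le {N : ℕ} (hsq : Squarefree N) (h2N : 2 ∣ N) (hN2 : N ≠ 2) : 5 ≤ N := by
  have hN0 : N ≠ 0 := hsq.ne_zero
  obtain ⟨c, rfl⟩ := h2N
  have hc0 : c ≠ 0 := fun h => hN0 (by rw [h])
  have hc1 : c ≠ 1 := fun h => hN2 (by rw [h])
  have hc2 : c ≠ 2 := by
    rintro rfl
    have := hsq 2 ⟨1, by norm_num⟩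
    simp at this
  omega

/-- `3` is a unit when the residue characteristic is a prime `≥ 5` -/
theorem isUnit_three {O : Type*} [CommRing O] [IsLocalRing O] {p : ℕ} (hp : p.Prime) (hp5 : 5 ≤ p)
    (hpm : (p : O) ∈ maximalIdeal O) : IsUnit (3 : O) := by
  by_contra h3
  have h3m : (3 : O) ∈ maximalIdeal O := (mem_maximalIdeal _).mpr h3
  have hcop : Nat.Coprime 3 p :=
    (Nat.coprime_primes Nat.prime_three hp).mpr (by omega)
  have h1 : ((Nat.gcd 3 p : ℕ) : ℤ) = 3 * Nat.gcdA 3 p + p * Nat.gcdB 3 p := Nat.gcd_eq_gcd_ab 3 p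
  rw [hcop] at h1
  have h4 : (1 : O) = 3 * ((Nat.gcdA 3 p : ℤ) : O) + (p : O) * ((Nat.gcdB 3 p : ℤ) : O) := by
    have := congrArg (Int.cast : ℤ → O) h1
    push_cast at this
    exact this
  have h5 : (1 : O) ∈ maximalIdeal O := by
    rw [h4]
    exact Ideal.add_mem _ (Ideal.mul_mem_right _ _ h3m) (Ideal.mul_mem_right _ _ hpm)
  exact (Ideal.ne_top_iff_one _).mp (IsLocalRing.maximalIdeal.isMaximal O).ne_top h5

set_option maxHeartbeats 1600000 in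
/-- **the stuck step over a given coefficient ring** -/
theorem stuck_core (P : FreyPackage) [Fact P.p.Prime] (N : ℕ) [NeZero N]
    (hcond : P.IsConductorLevel N) (hpN : ¬ P.p ∣ N) (h2N : 2 ∣ N) (hN2 : N ≠ 2)
    (hstuck : ∀ ℓ : ℕ, ℓ.Prime → ℓ ∣ N → ℓ ≠ 2 → IsStuck P ℓ)
    (hirr : GaloisRepIsIrreducible (K := AlgebraicClosure ℚ) ℚ P.freyCurve P.p)
    (hmod : P.ModularRepOfLevel N)
    {O : Type} [CommRing O] [IsDomain O] [IsDiscreteValuationRing O]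
    [IsAdicComplete (maximalIdeal O) O] [Finite (ResidueField O)] [CharZero O]
    [Algebra ℤ_[P.p] O] [Module.Finite ℤ_[P.p] O] [IsLocalHom (algebraMap ℤ_[P.p] O)]
    (hinj : Function.Injective (algebraMap ℤ_[P.p] O))
    (hpO : (P.p : O) ∈ maximalIdeal O)
    (hk : Fermat.Agent.S43.Coeff.Ring.QuadSplit (ResidueField O)) (h2 : IsUnit (2 : O))
    (ϖ : O) (ζ : Oˣ) (hϖP : Prime ϖ) (hϖ : maximalIdeal O = Ideal.span {ϖ})
    (hζprim : IsPrimitiveRoot (ζ : O) P.p) (hζp : ζ ^ P.p = 1) :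
    ∃ ℓ : ℕ, ℓ.Prime ∧ ℓ ≠ 2 ∧ ℓ ∣ N ∧ P.ModularRepOfLevel (N / ℓ) := by
  classical
  have hpP : P.p.Prime := Fact.out
  have hp5 := P.hp5
  have hp2 : P.p ≠ 2 := by omega
  have hsq : Squarefree N := hcond.squarefree
  have h5 : 5 ≤ N := five_le hsq h2N hN2
  letI : Algebra (ZMod P.p) (ResidueField O) :=
    Fermat.Agent.S43.Assembly.Setup.algZModResidue P.p hpO
  -- the residual representation
  have hF : IsFreyResidual P (rbar P (ResidueField O)) :=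
    Fermat.Agent.S43.Assembly.Setup.isFreyResidual P hirr hk
  letI : Invertible (2 : O) := h2.invertible
  letI : Invertible (2 : ResidueField O) :=
    (Invertible.map (residue O) (2 : O)).copy 2 (map_ofNat (residue O) 2).symm
  obtain ⟨g₀, h₀, b, hn⟩ := ExistsNorm.exists_norm (rbar P (ResidueField O)) hF.habs
    complexConjugation complexConjugation_mul_self
    (det_rbar_complexConjugation P (ResidueField O) hirr)
  obtain ⟨rb, hb⟩ := exists_rbarM (rbar P (ResidueField O)) b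
  -- level zero, Hecke side
  obtain ⟨W, hW, j₀, h1j, hnej, hL, hM0n, hM0free, hM0fin, hd⟩ :=
    Fermat.Agent.S43.Exit.FreyZero.levelZero_of_modular P N O hF hmod
  haveI := hL
  haveI := hM0fin
  obtain ⟨iM, iST, hQ, hfaith, hz⟩ :=
    Fermat.Agent.S43.Rho.Zero.BridgeFrob.exists_module_M0_frob N P.p (excSet W P.p N) O
      (thetaW W N P.p (excSet W P.p N) O) j₀ h1j hnej hL hpO
  -- the stuck primes
  have hTmem : ∀ ℓ ∈ Fermat.Agent.S43.Assembly.Setup.oddPrimes N,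
      ℓ.Prime ∧ ℓ ≠ 2 ∧ ℓ ≠ P.p ∧ ℓ ∣ N ∧ IsStuck P ℓ := fun ℓ hℓ => by
    obtain ⟨hℓ2, hℓP, hℓN, -⟩ := Fermat.Agent.S43.Assembly.Setup.mem_oddPrimes.mp hℓ
    exact ⟨hℓP, hℓ2, fun h => hpN (h ▸ hℓN), hℓN, hstuck ℓ hℓP hℓN hℓ2⟩
  have hT : ∀ ℓ ∈ Fermat.Agent.S43.Assembly.Setup.oddPrimes N,
      ℓ.Prime ∧ ℓ ≠ 2 ∧ ℓ ≠ P.p ∧ IsStuck P ℓ := fun ℓ hℓ =>
    ⟨(hTmem ℓ hℓ).1, (hTmem ℓ hℓ).2.1, (hTmem ℓ hℓ).2.2.1, (hTmem ℓ hℓ).2.2.2.2⟩
  have hT' : ∀ ℓ ∈ Fermat.Agent.S43.Assembly.Setup.oddPrimes N,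
      ℓ.Prime ∧ ℓ ≠ 2 ∧ ℓ ≠ P.p ∧ ℓ ∣ N ∧ P.p ∣ ℓ - 1 := fun ℓ hℓ =>
    ⟨(hTmem ℓ hℓ).1, (hTmem ℓ hℓ).2.1, (hTmem ℓ hℓ).2.2.1, (hTmem ℓ hℓ).2.2.2.1,
      (hTmem ℓ hℓ).2.2.2.2.1⟩
  have hNT : ∀ ℓ : ℕ, ℓ.Prime → ℓ ∣ N → ℓ ≠ 2 →
      ℓ ∈ Fermat.Agent.S43.Assembly.Setup.oddPrimes N := fun ℓ hℓP hℓN hℓ2 =>
    Fermat.Agent.S43.Assembly.Setup.mem_oddPrimes.mpr ⟨hℓ2, hℓP, hℓN, hsq.ne_zero⟩
  obtain ⟨ℓ₀, hℓ₀⟩ := Fermat.Agent.S43.Assembly.Setup.oddPrimes_nonempty hsq h2N hN2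
  haveI hTp : ∀ i : ↥(Fermat.Agent.S43.Assembly.Setup.oddPrimes N), Fact (i.1).Prime :=
    fun i => ⟨(hTmem i.1 i.2).1⟩
  have hζ' : IsPrimitiveRoot ζ P.p := IsPrimitiveRoot.coe_units_iff.mp hζprim
  obtain ⟨σ, φ, s, hσ, hφ, hs2, hsu, hrbarΦ, hrbarI, -, hup, hu2⟩ :=
    Fermat.Agent.S43.RSide.SetupStuck.exists_stuck_data P h2 hirr hp2 ζ hζ'
      (Fermat.Agent.S43.Assembly.Setup.oddPrimes N) hT b rb hb
  -- the parameters
  have hℓ1 : ∀ i : ↥(Fermat.Agent.S43.Assembly.Setup.oddPrimes N),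
      (((i : ℕ) : ℕ) : ZMod P.p) = 1 := fun i => by
    have h1 := Fermat.Agent.S43.RSide.ZetaBlock.hℓn (hTmem i.1 i.2).1.pos
      (hTmem i.1 i.2).2.2.2.2.1
    have h2' := (ZMod.natCast_eq_natCast_iff _ _ _).mpr h1
    rwa [Nat.cast_one] at h2'
  obtain ⟨-, hed, hdϖ, heϖ, he', hqϖ⟩ := Fermat.Agent.S43.Assembly.Coeff.params hp2 hpO hϖ h2
    (fun i : ↥(Fermat.Agent.S43.Assembly.Setup.oddPrimes N) =>
      Fermat.Agent.S43.RSide.ChiFix.uFix ζ P.p (i : ℕ) (σ i : GQ)) (fun _ => 1)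
    (fun i => by rw [pow_one]; exact hup i) hu2
    (fun i : ↥(Fermat.Agent.S43.Assembly.Setup.oddPrimes N) => (i : ℕ)) hℓ1
  -- NUM
  have hNp0 : N * P.p ≠ 0 := mul_ne_zero hsq.ne_zero hpP.ne_zero
  have hSpr : ∀ q ∈ (N * P.p).primeFactors ∪ excSet W P.p N, q.Prime := fun q hq => by
    rcases Finset.mem_union.mp hq with h | h
    · exact Nat.prime_of_mem_primeFactors h
    · rcases Finset.mem_insert.mp h with h | h
      · exact h ▸ hpP
      · rcases Finset.mem_union.mp h with h | h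
        · exact Nat.prime_of_mem_primeFactors h
        · exact Nat.prime_of_mem_primeFactors h
  have hSS : ({2, P.p} : Finset ℕ) ∪ Fermat.Agent.S43.Assembly.Setup.oddPrimes N ⊆
      (N * P.p).primeFactors ∪ excSet W P.p N := fun q hq => by
    refine Finset.mem_union_left _ (Nat.mem_primeFactors.mpr ?_)
    rcases Finset.mem_union.mp hq with h | h
    · rcases Finset.mem_insert.mp h with h | h
      · exact ⟨h ▸ Nat.prime_two, h ▸ Dvd.dvd.mul_right h2N _, hNp0⟩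
      · rw [Finset.mem_singleton] at h
        exact ⟨h ▸ hpP, h ▸ Dvd.intro_left _ rfl, hNp0⟩
    · exact ⟨(hTmem q h).1, Dvd.dvd.mul_right (hTmem q h).2.2.2.1 _, hNp0⟩
  obtain ⟨g, hg⟩ := Fermat.Agent.S43.Assembly.TwSets.exists_twSets
    (Fermat.Agent.S43.Assembly.Setup.relTauT P hirr hk hT
      ((N * P.p).primeFactors ∪ excSet W P.p N) hSpr hSS b rb hb)
  have hrpos : 0 < 3 * Fintype.card ↥(Fermat.Agent.S43.Assembly.Setup.oddPrimes N) + g :=
    Fermat.Agent.S43.Assembly.TwSets.pos_of_mem hℓ₀ g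
  obtain ⟨h1top, hχtop⟩ := Fermat.Agent.S43.Assembly.Coeff.relIdeal_ne_top (κ := Fin g) hϖP h2
    (fun i : ↥(Fermat.Agent.S43.Assembly.Setup.oddPrimes N) =>
      Fermat.Agent.S43.Assembly.Coeff.ePar h2
        (Fermat.Agent.S43.RSide.ChiFix.uFix ζ P.p (i : ℕ) (σ i : GQ)))
    (fun i : ↥(Fermat.Agent.S43.Assembly.Setup.oddPrimes N) =>
      Fermat.Agent.S43.Assembly.Coeff.dPar h2
        (Fermat.Agent.S43.RSide.ChiFix.uFix ζ P.p (i : ℕ) (σ i : GQ)))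
    (fun i : ↥(Fermat.Agent.S43.Assembly.Setup.oddPrimes N) => (((i : ℕ) : ℕ) : O)) hed hdϖ
  -- level zero, Galois side
  haveI := isMulCommutative_TZ N P.p (excSet W P.p N) O (maxId (thetaW W N P.p (excSet W P.p N) O))
  haveI := Fermat.Agent.S43.Rho.Zero.PackZ.isLocalHom_algebraMap_TZ N P.p (excSet W P.p N) O
    (maxId (thetaW W N P.p (excSet W P.p N) O))
  haveI := Fermat.Agent.S43.Rho.Zero.PackZ.isNoetherianRing_TZ N P.p (excSet W P.p N) O
    (maxId (thetaW W N P.p (excSet W P.p N) O))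
  haveI := Fermat.Agent.S43.Rho.Zero.PackZ.isIntegral_TZ N P.p (excSet W P.p N) O
    (maxId (thetaW W N P.p (excSet W P.p N) O))
  haveI := Fermat.Agent.S43.Rho.Zero.PackZ.isAdicComplete_TZ N P.p (excSet W P.p N) O
    (maxId (thetaW W N P.p (excSet W P.p N) O))
  have hpT := Fermat.Agent.S43.Rho.Zero.PackZ.natCast_mem_maximalIdeal_TZ N P.p (excSet W P.p N) O
    (maxId (thetaW W N P.p (excSet W P.p N) O)) hpO
  have hres := Fermat.Agent.S43.Rho.Zero.PackZ.surjective_residue_comp_TZ N P.p (excSet W P.p N) O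
    (thetaW W N P.p (excSet W P.p N) O)
  have hθ := charpoly_frob P N (excSet W P.p N) O hF hW (Finset.Subset.refl _)
  obtain ⟨H₀, hcont, hr0⟩ := Fermat.Agent.S43.Rho.Zero.PackZ.exists_H0 N P.p (excSet W P.p N) O
    (thetaW W N P.p (excSet W P.p N) O) hpO (rbar P (ResidueField O)) hn
    complexConjugation_mul_self (Fermat.Agent.S43.Rho.Conj.cycChar_conj P.p _) hθ rb hb
  have hdetσ : ∀ i : ↥(Fermat.Agent.S43.Assembly.Setup.oddPrimes N),
      (CH.rep H₀ (σ i : GQ)).det = 1 := fun i =>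
    Fermat.Agent.S43.Rho.Zero.PackZ.det_repZ_inertia N P.p (excSet W P.p N) O
      (thetaW W N P.p (excSet W P.p N) O) hpO H₀ (hTmem i.1 i.2).1 (hTmem i.1 i.2).2.2.1
      (padicPlace (i : ℕ)) (Fermat.Agent.CFT.LocalBridge.liesOverPrime_padicPlace (i : ℕ))
      (σ i : GQ) (σ i).2
  have hdetΦ : ∀ i : ↥(Fermat.Agent.S43.Assembly.Setup.oddPrimes N),
      (CH.rep H₀ (φ i)).det = algebraMap O
        (TZ N P.p (excSet W P.p N) O (maxId (thetaW W N P.p (excSet W P.p N) O))) (s i) ^ 2 :=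
    fun i =>
    Fermat.Agent.S43.Rho.Zero.PackZ.det_repZ_frob N P.p (excSet W P.p N) O
      (thetaW W N P.p (excSet W P.p N) O) hpO H₀ (hTmem i.1 i.2).1 (hTmem i.1 i.2).2.2.1
      (padicPlace (i : ℕ)) (Fermat.Agent.CFT.LocalBridge.liesOverPrime_padicPlace (i : ℕ))
      (φ i) (hφ i) (s i) (hs2 i)
  have h3 : IsUnit (3 : O) := isUnit_three hpP hp5 hpO
  -- the levels and the R-side
  have hkey : ∃ 𝔭₀ : Ideal ↥(TZ N P.p (excSet W P.p N) O
      (maxId (thetaW W N P.p (excSet W P.p N) O))), 𝔭₀.IsPrime ∧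
      algebraMap O ↥(TZ N P.p (excSet W P.p N) O
        (maxId (thetaW W N P.p (excSet W P.p N) O))) ϖ ∉ 𝔭₀ ∧
      ∀ i : ↥(Fermat.Agent.S43.Assembly.Setup.oddPrimes N),
        ∀ u ∈ (padicPlace (i : ℕ)).inertiaSubgroupIn ℚ,
          (CH.rep H₀ u).map (Ideal.Quotient.mk 𝔭₀) = 1 := by
    refine Fermat.Agent.S43.RSide.StuckR.exists_prime_of_levels
      (ι := ↥(Fermat.Agent.S43.Assembly.Setup.oddPrimes N)) ϖ hϖP hϖ h2
      (fun i => Fermat.Agent.S43.Assembly.Coeff.ePar h2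
        (Fermat.Agent.S43.RSide.ChiFix.uFix ζ P.p (i : ℕ) (σ i : GQ)))
      (fun i => Fermat.Agent.S43.Assembly.Coeff.dPar h2
        (Fermat.Agent.S43.RSide.ChiFix.uFix ζ P.p (i : ℕ) (σ i : GQ)))
      (fun i => (((i : ℕ) : ℕ) : O)) hed hdϖ heϖ he' hqϖ
      (r := 3 * Fintype.card ↥(Fermat.Agent.S43.Assembly.Setup.oddPrimes N) + g) (g := g) rfl
      hpT hres (fun i => (i : ℕ)) (fun i => Ne.symm (hTmem i.1 i.2).2.2.1) s (fun _ => rfl) hsu
      σ φ hσ hφ (CH.rep H₀) hcont hr0 hrbarI hrbarΦ hdetσ hdetΦ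
      (m := 2 ^ (3 * Fintype.card ↥(Fermat.Agent.S43.Assembly.Setup.oddPrimes N) + g) *
        Module.finrank O (M0 O (pJ N P.p (excSet W P.p N)) (hpJ N P.p (excSet W P.p N)) N
          (thetaW W N P.p (excSet W P.p N) O)))
      (Nat.mul_pos (pow_pos (by norm_num) _) hd) (fun n => ?_)
    have hgn := hg rfl n
    obtain ⟨Qn, hQinj, hQTW, τg, hτg⟩ := hgn
    have hLev := Fermat.Agent.S43.Assembly.Level.level P hpO hϖP hϖ h2 h3 ζ hζp
      (rbar P (ResidueField O)) hF b rb hb hn rfl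
      N h5 hsq hpN h2N (excSet W P.p N) (thetaW W N P.p (excSet W P.p N) O)
      (fun j A τ hA hτ => hθ j A hA τ hτ) hd
      (Fermat.Agent.S43.Assembly.Setup.oddPrimes N) hT' hNT σ hσ φ hφ s hs2 hsu hrbarI hrbarΦ
      (fun i => Fermat.Agent.S43.RSide.ChiFix.uFix ζ P.p (i : ℕ) (σ i : GQ)) (fun _ => rfl) hup hu2
      (fun i => Fermat.Agent.S43.Assembly.Coeff.ePar h2
        (Fermat.Agent.S43.RSide.ChiFix.uFix ζ P.p (i : ℕ) (σ i : GQ)))
      (fun i => (((i : ℕ) : ℕ) : O)) (fun _ => rfl) (fun _ => rfl) heϖ hqϖ h1top hχtop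
      (datumZ N P.p (excSet W P.p N) O (maxId (thetaW W N P.p (excSet W P.p N) O)) hpO)
      (fun j A τ hA hτ y => hz j τ ⟨A, hA, hτ⟩ y) H₀ hres hr0
      hrpos n ((2 * (3 * Fintype.card ↥(Fermat.Agent.S43.Assembly.Setup.oddPrimes N) + g) + 2) * n)
      (Fermat.Agent.S43.Assembly.TwSets.depth_le _ n)
      ((N * P.p).primeFactors ∪ excSet W P.p N) (Finset.Subset.refl _) Qn hQinj hQTW τg hτg
    have hL1 := hLev.1 hfaith
    have hL2 := hLev.2
    refine ⟨hL1, ?_⟩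
    intro θ₀ hm0 hS0 hF0
    exact hL2 θ₀ hm0 hS0 hF0
  obtain ⟨𝔭₀, h𝔭p, hϖ𝔭, hunr⟩ := hkey
  -- the exit
  haveI := h𝔭p
  haveI : Fact ℓ₀.Prime := ⟨(hTmem ℓ₀ hℓ₀).1⟩
  haveI : Module.IsTorsionFree ℤ_[P.p] O := Module.isTorsionFree_iff_algebraMap_injective.mpr hinj
  refine ⟨ℓ₀, (hTmem ℓ₀ hℓ₀).1, (hTmem ℓ₀ hℓ₀).2.1, (hTmem ℓ₀ hℓ₀).2.2.2.1, ?_⟩
  exact modularRepOfLevel_div P hcond (hTmem ℓ₀ hℓ₀).2.1 (Ne.symm (hTmem ℓ₀ hℓ₀).2.2.1)
    (hTmem ℓ₀ hℓ₀).2.2.2.1 W hW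
    (Fermat.Agent.CFT.LocalBridge.liesOverPrime_padicPlace ℓ₀) (hφ ⟨ℓ₀, hℓ₀⟩) (excSet W P.p N)
    (fun r hr hg hrN hrp => notMem_excSet_of_good W N P.p r hr hg hrN hrp) O ϖ hϖ hpO H₀ 𝔭₀ hϖ𝔭
    (hunr ⟨ℓ₀, hℓ₀⟩)

/-- **THE STUCK STEP.** -/
theorem stuckStep : Fermat.Agent.S43.Assembly.Reduce.StuckStep := by
  intro P N hcond hpN h2N hN2 hstuck hirr hmod
  haveI : Fact P.p.Prime := ⟨P.pp⟩
  haveI : NeZero N := ⟨hcond.squarefree.ne_zero⟩
  have hp5 := P.hp5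
  have hp2 : P.p ≠ 2 := by omega
  obtain ⟨O, i1, i2, i3, i4, i5, i6, i7, i8, i9, hinj, hpO, hk, h2, ϖ, ζ, hϖP, hϖ, hζprim, hζp,
    -⟩ := Fermat.Agent.S43.Assembly.Coeff.exists_coeff P.p hp2
  exact stuck_core P N hcond hpN h2N hN2 hstuck hirr hmod hinj hpO hk h2 ϖ ζ hϖP hϖ hζprim hζp

end Fermat.Agent.S43.Assembly.StuckStep
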