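/-
PROJECT R (S43, row 37), ASSEMBLY, brick (a) PART 2 (helper20): THE GROUP RING OF THE TAYLOR-WILES
GROUP: every instance / hypothesis that `Hecke/Main.heckeSideOf` and `RSide/FeedT` ask on `𝒪[Δ]`.

`𝒪` a local ring with `p ∈ 𝔪_𝒪`, `Δ ≃* ∏ i, ℤ/p^{N i}` (the binders of `Patch/GroupRing`, section
`Concrete`; at `Δ := (i : Fin r) → Multiplicative (ZMod (p ^ m))`, `e := MulEquiv.refl _` this is
the Taylor-Wiles group of `Assembly/TwGroup`).

* `finite`, `isLocalRing`, `nontrivial`, `isLocalHom_augm`, `isNoetherianRing`, `isAdicComplete`;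
* `isUnit_ofNat`: `IsUnit (2 : 𝒪[Δ])`, `IsUnit (3 : 𝒪[Δ])` from `𝒪`;
* `single_one_smul_eq_zero` (`reg`), `single_one_mem_maximalIdeal` (`hϖ`), `finite_quot`;
* `residueMap_bijective`, `thetaR`, `map_thetaR`: the residue field of `𝒪[Δ]` is the one of `𝒪`, and
  the lift `θR` of a system of eigenvalues.
-/
import Mathlib
import Fermat.Agent.S43.Patch.GroupRing
import Fermat.Agent.S43.Hecke.Assemble

set_option autoImplicit false

noncomputable section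

namespace Fermat.Agent.S43.Assembly.TwGroupRing

open IsLocalRing
open Fermat.Agent.S43.Patch.GroupRing Fermat.Agent.S43.Hecke.Assemble

universe u v

section Main

variable (𝒪 : Type u) [CommRing 𝒪] [IsLocalRing 𝒪] {Δ : Type v} [CommGroup Δ] {r : ℕ}
  {p : ℕ} [Fact p.Prime] (N : Fin r → ℕ)
  (e : Δ ≃* ((i : Fin r) → Multiplicative (ZMod (p ^ N i))))

include e in
/-- `Δ` is finite. -/
theorem finite : Finite Δ := finite_of_mulEquiv N e

include e in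
/-- **`𝒪[Δ]` is local.** -/
theorem isLocalRing (hpO : (p : 𝒪) ∈ maximalIdeal 𝒪) : IsLocalRing (MonoidAlgebra 𝒪 Δ) := by
  have := finite_of_mulEquiv N e
  exact isLocalRing_monoidAlgebra (gen N e) (closure_range_gen N e) (Fact.out : p.Prime) hpO N
    (gen_pow N e)

omit [IsLocalRing 𝒪] in
/-- helper24's augmentation is helper29's. -/
theorem augm_eq_aug : augm 𝒪 Δ = aug 𝒪 Δ := rfl

variable (Δ) in
/-- **the augmentation is a local homomorphism.** -/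
theorem isLocalHom_augm [IsLocalRing (MonoidAlgebra 𝒪 Δ)] :
    IsLocalHom (augm 𝒪 Δ).toRingHom :=
  IsLocalHom.of_surjective (augm 𝒪 Δ).toRingHom augm_surjective

omit [IsLocalRing 𝒪] in
include e in
/-- **`𝒪[Δ]` is noetherian.** -/
theorem isNoetherianRing [IsNoetherianRing 𝒪] : IsNoetherianRing (MonoidAlgebra 𝒪 Δ) := by
  have := finite_of_mulEquiv N e
  have : Module.Finite 𝒪 (MonoidAlgebra 𝒪 Δ) := Module.Finite.of_basis (MonoidAlgebra.basis Δ 𝒪)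
  exact IsNoetherianRing.of_finite 𝒪 (MonoidAlgebra 𝒪 Δ)

include e in
/-- **`𝒪[Δ]` is complete.** -/
theorem isAdicComplete [IsNoetherianRing 𝒪] [IsAdicComplete (maximalIdeal 𝒪) 𝒪]
    [IsLocalRing (MonoidAlgebra 𝒪 Δ)] :
    IsAdicComplete (maximalIdeal (MonoidAlgebra 𝒪 Δ)) (MonoidAlgebra 𝒪 Δ) := by
  have := finite_of_mulEquiv N e
  exact isAdicComplete_monoidAlgebra

end Main

/-! ### units, the uniformiser, the residue field -/

section Units

variable (𝒪 : Type u) [CommRing 𝒪] (Δ : Type v) [CommGroup Δ]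

/-- a numeral that is a unit of `𝒪` is a unit of `𝒪[Δ]` (`2`, `3`). -/
theorem isUnit_ofNat (n : ℕ) [n.AtLeastTwo] (h : IsUnit (OfNat.ofNat n : 𝒪)) :
    IsUnit (OfNat.ofNat n : MonoidAlgebra 𝒪 Δ) := by
  have h1 := h.map (algebraMap 𝒪 (MonoidAlgebra 𝒪 Δ))
  rwa [map_ofNat] at h1

theorem isUnit_natCast (n : ℕ) (h : IsUnit (n : 𝒪)) : IsUnit (n : MonoidAlgebra 𝒪 Δ) := by
  have h1 := h.map (algebraMap 𝒪 (MonoidAlgebra 𝒪 Δ))
  rwa [map_natCast] at h1

variable {𝒪 Δ}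

theorem single_one_eq_algebraMap (ϖ : 𝒪) :
    (MonoidAlgebra.single (1 : Δ) ϖ : MonoidAlgebra 𝒪 Δ) = algebraMap 𝒪 (MonoidAlgebra 𝒪 Δ) ϖ :=
  rfl

/-- **`reg`**: `single 1 ϖ` is a non-zero-divisor of `𝒪[Δ]` for `ϖ ≠ 0` in a domain. -/
theorem single_one_smul_eq_zero [NoZeroDivisors 𝒪] {ϖ : 𝒪} (hϖ : ϖ ≠ 0)
    (a : MonoidAlgebra 𝒪 Δ) (h : (MonoidAlgebra.single (1 : Δ) ϖ : MonoidAlgebra 𝒪 Δ) • a = 0) :
    a = 0 := by
  ext δ
  have h1 := congrArg (fun x : MonoidAlgebra 𝒪 Δ => x.coeff δ) h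
  simp only [smul_eq_mul, MonoidAlgebra.coeff_single_one_mul, MonoidAlgebra.coeff_zero] at h1
  exact (mul_eq_zero.mp h1).resolve_left hϖ

variable [IsLocalRing 𝒪]

/-- **`hϖ`**: `single 1 ϖ` lies in the maximal ideal of `𝒪[Δ]` for `ϖ ∈ 𝔪_𝒪`. -/
theorem single_one_mem_maximalIdeal [IsLocalRing (MonoidAlgebra 𝒪 Δ)] {ϖ : 𝒪}
    (hϖ : ϖ ∈ maximalIdeal 𝒪) :
    (MonoidAlgebra.single (1 : Δ) ϖ : MonoidAlgebra 𝒪 Δ) ∈ maximalIdeal (MonoidAlgebra 𝒪 Δ) := by
  rw [mem_maximalIdeal, mem_nonunits_iff]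
  intro hu
  have := isLocalHom_algebraMap (O := 𝒪) (Δ := Δ)
  exact (mem_nonunits_iff.mp ((mem_maximalIdeal ϖ).mp hϖ))
    (isUnit_of_map_unit (algebraMap 𝒪 (MonoidAlgebra 𝒪 Δ)) ϖ hu)

/-- `𝒪 / ϖ` is finite when `ϖ` generates the maximal ideal and the residue field is finite. -/
theorem finite_quot [Finite (ResidueField 𝒪)] {ϖ : 𝒪} (hm : maximalIdeal 𝒪 = Ideal.span {ϖ}) :
    Finite (𝒪 ⧸ Ideal.span ({ϖ} : Set 𝒪)) := by
  rw [← hm]
  exact (inferInstance : Finite (ResidueField 𝒪))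

/-! ### the residue field of `𝒪[Δ]` -/

variable (𝒪 Δ)
variable [IsLocalRing (MonoidAlgebra 𝒪 Δ)] [IsLocalHom (augm 𝒪 Δ).toRingHom]

/-- **the residue field of `𝒪[Δ]` is the residue field of `𝒪`.** -/
theorem residueMap_bijective :
    Function.Bijective (ResidueField.map (augm 𝒪 Δ).toRingHom) := by
  refine ⟨(ResidueField.map (augm 𝒪 Δ).toRingHom).injective, fun y => ?_⟩
  obtain ⟨a, rfl⟩ := residue_surjective y
  obtain ⟨x, rfl⟩ := augm_surjective (𝒪 := 𝒪) (Δ := Δ) a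
  exact ⟨residue _ x, ResidueField.map_residue _ x⟩

/-- the residue field isomorphism. -/
def residueEquiv : ResidueField (MonoidAlgebra 𝒪 Δ) ≃+* ResidueField 𝒪 :=
  RingEquiv.ofBijective (ResidueField.map (augm 𝒪 Δ).toRingHom) (residueMap_bijective 𝒪 Δ)

@[simp] theorem residueEquiv_apply (x : ResidueField (MonoidAlgebra 𝒪 Δ)) :
    residueEquiv 𝒪 Δ x = ResidueField.map (augm 𝒪 Δ).toRingHom x := rfl

/-- **the lift `θR` of a system of eigenvalues `θ : J → k` to the residue field of `𝒪[Δ]`.** -/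
def thetaR {J : Type*} (θ : J → ResidueField 𝒪) : J → ResidueField (MonoidAlgebra 𝒪 Δ) :=
  fun j => (residueEquiv 𝒪 Δ).symm (θ j)

theorem map_thetaR {J : Type*} (θ : J → ResidueField 𝒪) (j : J) :
    ResidueField.map (augm 𝒪 Δ).toRingHom (thetaR 𝒪 Δ θ j) = θ j :=
  (residueEquiv 𝒪 Δ).apply_symm_apply (θ j)

/-- the residue of `x ∈ 𝒪[Δ]` corresponds to the residue of its augmentation. -/
theorem residueEquiv_residue (x : MonoidAlgebra 𝒪 Δ) :
    residueEquiv 𝒪 Δ (residue _ x) = residue 𝒪 (augm 𝒪 Δ x) :=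
  ResidueField.map_residue _ x

/-- `thetaR θ j ≠ residue x` as soon as `θ j ≠ residue (augm x)` (the non-Eisenstein condition
`hne` of `heckeSideOf`, checked in `𝒪`). -/
theorem thetaR_ne_residue {J : Type*} (θ : J → ResidueField 𝒪) (j : J) (x : MonoidAlgebra 𝒪 Δ)
    (h : θ j ≠ residue 𝒪 (augm 𝒪 Δ x)) : thetaR 𝒪 Δ θ j ≠ residue _ x := by
  intro h1
  apply h
  rw [← map_thetaR 𝒪 Δ θ j, h1]
  exact ResidueField.map_residue _ x

end Units

end Fermat.Agent.S43.Assembly.TwGroupRing
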