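import Mathlib
import Fermat.Agent.S43.Hecke.BridgeLevel
import Fermat.Agent.S43.Hecke.BridgeMax
import Fermat.Agent.S43.Assembly.TwGroupRing
import Fermat.Agent.S43.Assembly.TwSplit

/-!
# PROJECT R (S43), ASSEMBLY: the Hecke side at a Taylor-Wiles level, from the SETUP data

`Hecke/BridgeLevel.sideLev` + `exists_Phi_level` instantiated at the Taylor-Wiles group
`Δ := TwGroup.Delta r p n`, the diamond map `π := TwGroup.piTW`, the nebentypus of type `χ`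
`Ξ' := ChiChar.xiChi 𝒪 π (psi ζ T M)`, `Q := List.ofFn` of the Taylor-Wiles primes; every instance on
`𝒪[Δ]` and every arithmetic binder is discharged from `Assembly/{TwGroup, TwGroupRing, TwSplit,
ChiChar}`.
-/

set_option autoImplicit false
set_option linter.unusedSectionVars false

open CongruenceSubgroup
open scoped MatrixGroups BigOperators

noncomputable section

namespace Fermat.Agent.S43.Assembly.HeckeLevel

open IsLocalRing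
open Fermat.Agent.S43.Hecke.Seam Fermat.Agent.S43.Hecke.Inst Fermat.Agent.S43.Hecke.Inst.Comm
  Fermat.Agent.S43.Hecke.Inst.Pair
open Fermat.Agent.S43.Hecke.Loc Fermat.Agent.S43.Hecke.Assemble Fermat.Agent.S43.Hecke.Main
  Fermat.Agent.S43.Hecke.BridgeInst Fermat.Agent.S43.Hecke.BridgeTate
  Fermat.Agent.S43.Hecke.BridgeLevel Fermat.Agent.S43.Hecke.BridgeMax
open Fermat.Agent.S43.Rho.Lam
open Fermat.Agent.S43.Rho.LamInst (J)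
open Fermat.Agent.S43.Rho.LamInstD (K tK hcommK TQ tQ dQ)
open Fermat.Agent.S43.Rho.LamTate (fJ eJ)
open Fermat.Agent.S43.Assembly.TwGroup Fermat.Agent.S43.Assembly.ChiChar
  Fermat.Agent.S43.Assembly.TwSplit

/-! ### the list of the Taylor-Wiles primes -/

section List

variable {N p : ℕ} {S₀ : Finset ℕ} {r : ℕ} (Qj : Fin r → J N p S₀)

theorem prod_map_ofFn :
    ((List.ofFn Qj).map (fun j : J N p S₀ => (j.1 : ℕ))).prod = ∏ i, ((Qj i).1 : ℕ) := by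
  rw [List.map_ofFn, List.prod_ofFn]
  rfl

theorem level_eq {M : ℕ} (hM : M = N * ∏ i, ((Qj i).1 : ℕ)) :
    M = N * ((List.ofFn Qj).map (fun j : J N p S₀ => (j.1 : ℕ))).prod := by
  rw [prod_map_ofFn]
  exact hM

end List

/-! ### the instances on `𝒪[Δ]` -/

section Inst

variable (𝒪 : Type) [CommRing 𝒪] [IsLocalRing 𝒪] (p : ℕ) [hp : Fact p.Prime] (r n : ℕ)

theorem isLocalRing_delta (hp𝒪 : (p : 𝒪) ∈ maximalIdeal 𝒪) :
    IsLocalRing (MonoidAlgebra 𝒪 (Delta r p n)) :=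
  TwGroupRing.isLocalRing 𝒪 (fun _ : Fin r => n) (MulEquiv.refl (Delta r p n)) hp𝒪

theorem isNoetherianRing_delta [IsNoetherianRing 𝒪] :
    IsNoetherianRing (MonoidAlgebra 𝒪 (Delta r p n)) :=
  TwGroupRing.isNoetherianRing 𝒪 (fun _ : Fin r => n) (MulEquiv.refl (Delta r p n))

theorem isAdicComplete_delta [IsNoetherianRing 𝒪] [IsAdicComplete (maximalIdeal 𝒪) 𝒪]
    [IsLocalRing (MonoidAlgebra 𝒪 (Delta r p n))] :
    IsAdicComplete (maximalIdeal (MonoidAlgebra 𝒪 (Delta r p n)))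
      (MonoidAlgebra 𝒪 (Delta r p n)) :=
  TwGroupRing.isAdicComplete 𝒪 (fun _ : Fin r => n) (MulEquiv.refl (Delta r p n))

end Inst

/-! ### the degree of `T_r` under the augmentation -/

section Deg

variable (𝒪 : Type) [CommRing 𝒪] {Δ : Type} [CommGroup Δ] {M : ℕ} [NeZero M] (p : ℕ)
  [hp : Fact p.Prime] (S₀ : Finset ℕ) (π : (ZMod M)ˣ →* Δ)

/-- `ε (deg T_r) = 1 + r` -/
theorem augm_deg_fJ (k : J M p S₀) :
    augm 𝒪 Δ (Hν (xiOf 𝒪 π) (fJ M p S₀ k)).deg = (((1 + (k.1 : ℕ) : ℕ) : ℕ) : 𝒪) := by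
  have h : fJ M p S₀ k = Sum.inl ⟨(k.1 : ℕ), k.1.2,
      (Nat.Prime.coprime_iff_not_dvd k.1.2).mp k.2.1⟩ := rfl
  rw [h, deg_Hν_inl, map_add, map_one, map_mul, map_natCast, ← map_inv, augm_xiOf, mul_one]
  push_cast
  rfl

end Deg

/-! ### the Hecke side at a Taylor-Wiles level -/

section Main

variable (𝒪 : Type) [CommRing 𝒪] [IsLocalRing 𝒪] [IsNoetherianRing 𝒪]
  [IsAdicComplete (maximalIdeal 𝒪) 𝒪] [IsDomain 𝒪] [IsPrincipalIdealRing 𝒪] [CharZero 𝒪]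
  (p : ℕ) [hp : Fact p.Prime] [Algebra ℤ_[p] 𝒪] [Module.Flat ℤ 𝒪]
  {ϖ : 𝒪} (hϖ0 : ϖ ≠ 0) (hϖm : maximalIdeal 𝒪 = Ideal.span {ϖ})
  (hp𝒪 : (p : 𝒪) ∈ maximalIdeal 𝒪) (hp2 : p ≠ 2)
  (h2 : IsUnit (2 : 𝒪)) (h3 : IsUnit (3 : 𝒪))
  (ζ : 𝒪ˣ) (hζ : ζ ^ p = 1) (T : Finset ℕ)
  {N : ℕ} [NeZero N] (hTN : ∏ ℓ ∈ T, ℓ ∣ N) (S₀ : Finset ℕ)
  {r : ℕ} (n : ℕ) (Qj : Fin r → J N p S₀) (hQinj : Function.Injective Qj)
  (hQp : ∀ i, p ^ n ∣ ((Qj i).1 : ℕ) - 1)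
  {M : ℕ} [NeZero M] (hM : M = N * ∏ i, ((Qj i).1 : ℕ))

include hM in
theorem dvd_level' (i : Fin r) : ((Qj i).1 : ℕ) ∣ M := by
  rw [hM]
  exact Dvd.dvd.mul_left (Finset.dvd_prod_of_mem _ (Finset.mem_univ i)) N

/-- the diamond map of the level -/
abbrev piLev : (ZMod M)ˣ →* Delta r p n :=
  piTW p n (fun i => ((Qj i).1 : ℕ)) (fun i => (Qj i).1.2) hQp (dvd_level' p S₀ Qj hM)

/-- the nebentypus of type `χ` of the level -/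
abbrev xiLev : (ZMod M)ˣ →* (MonoidAlgebra 𝒪 (Delta r p n))ˣ :=
  xiChi 𝒪 (piLev p S₀ n Qj hQp hM) (psi ζ T M)

variable (θ α : J N p S₀ → ResidueField 𝒪)
  (hgood : ∀ i, Fermat.Agent.S43.Hecke.Descent.Main.Good 𝒪 (fun j : J N p S₀ => (j.1 : ℕ)) θ α (Qj i))
  (hNM : N ∣ M)
  (m : ℕ) (H : Subgroup (ZMod M)ˣ) (hM5 : 5 ≤ M) (hHp : ¬ p ∣ Nat.card H)
  (hHm : ∀ d : (ZMod M)ˣ, d ^ (2 * m + 1) ∈ H)
  (mI : Ideal (MvPolynomial (K M p S₀) 𝒪)) [mI.IsMaximal]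
  (θK : K M p S₀ → ResidueField 𝒪)
  (hθK : ∀ k, ∃ b : 𝒪, residue 𝒪 b = θK k ∧
    (MvPolynomial.X k - MvPolynomial.C b : MvPolynomial (K M p S₀) 𝒪) ∈ mI)
  (hl : ∀ k, θK (Sum.inl k) = θ (gLev p S₀ hNM k)) (hr : ∀ d, θK (Sum.inr d) = 1)
  (k₀ : J M p S₀) (hk₀ : (((k₀.1 : ℕ) : ℕ) : ZMod M) = 1)
  (hne₀ : θ (gLev p S₀ hNM k₀) ≠ residue 𝒪 (((1 + (k₀.1 : ℕ) : ℕ) : 𝒪)))

include hHp in
/-- the elements of `H` are of order prime to `p` -/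
theorem exists_pow_eq_one_of_mem (d : (ZMod M)ˣ) (hd : d ∈ H) :
    ∃ k : ℕ, k.Coprime p ∧ d ^ k = 1 := by
  refine ⟨Nat.card H, ((Nat.Prime.coprime_iff_not_dvd hp.out).mpr hHp).symm, ?_⟩
  have h1 : (⟨d, hd⟩ : H) ^ Nat.card H = 1 := pow_card_eq_one'
  exact congrArg Subtype.val h1

attribute [local instance] HeckeSide.acg1 HeckeSide.acgχ HeckeSide.acgb HeckeSide.mod1
  HeckeSide.modχ HeckeSide.modb

include hϖ0 hϖm hp𝒪 hp2 h2 h3 hζ hTN hQinj hM hgood hM5 hHp hHm hθK hl hr hk₀ hne₀ in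
/-- **THE HECKE SIDE AT A TAYLOR-WILES LEVEL, FROM THE SETUP DATA** : the seam `Hs` over
`𝒪[Δ]`, `Δ = TwGroup.Delta r p n`, with base module `Main.M0 𝒪 (fun j => j.1) _ N θ`, the two
actions of the Hecke algebra `TQ` of the Tate side (diamonds included), their values on the
`T'_k` and on the diamonds, the compatibility with the two reductions and with the descent to level
zero. -/
theorem exists_heckeLevel :
    ∃ (Hs : HeckeSide 𝒪 ϖ (Delta r p n) (J M p S₀)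
        (M0 𝒪 (fun j : J N p S₀ => (j.1 : ℕ)) (fun j => j.1.2) N θ)
        (t0 𝒪 (fun j : J N p S₀ => (j.1 : ℕ)) (fun j => j.1.2) N θ (gLev p S₀ hNM))
        (Module.finrank 𝒪 (M0 𝒪 (fun j : J N p S₀ => (j.1 : ℕ)) (fun j => j.1.2) N θ)))
      (Φ₁ : TQ M m p H 𝒪 S₀ mI →+* Module.End (MonoidAlgebra 𝒪 (Delta r p n)) Hs.M1)
      (Φχ : TQ M m p H 𝒪 S₀ mI →+* Module.End (MonoidAlgebra 𝒪 (Delta r p n)) Hs.Mχ),
      (∀ y : Hs.Mb, (MonoidAlgebra.single (1 : Delta r p n) ϖ :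
        MonoidAlgebra 𝒪 (Delta r p n)) • y = 0) ∧
      (∀ (a : 𝒪) x, Φ₁ (algebraMap 𝒪 (TQ M m p H 𝒪 S₀ mI) a) x =
        (MonoidAlgebra.single (1 : Delta r p n) a : MonoidAlgebra 𝒪 (Delta r p n)) • x) ∧
      (∀ (a : 𝒪) z, Φχ (algebraMap 𝒪 (TQ M m p H 𝒪 S₀ mI) a) z =
        (MonoidAlgebra.single (1 : Delta r p n) a : MonoidAlgebra 𝒪 (Delta r p n)) • z) ∧
      (∀ (k : J M p S₀) x, Φ₁ (tQ M m p H 𝒪 S₀ mI k) x =
        (MonoidAlgebra.single (piLev p S₀ n Qj hQp hM (twJ M m p S₀ k)) (1 : 𝒪) :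
          MonoidAlgebra 𝒪 (Delta r p n)) • Hs.t1 k x) ∧
      (∀ (k : J M p S₀) z, Φχ (tQ M m p H 𝒪 S₀ mI k) z =
        ((xiLev 𝒪 p ζ T S₀ n Qj hQp hM (twJ M m p S₀ k) : (MonoidAlgebra 𝒪 (Delta r p n))ˣ) :
          MonoidAlgebra 𝒪 (Delta r p n)) • Hs.tχ k z) ∧
      (∀ (d : (ZMod M)ˣ) x, Φ₁ (dQ M m p H 𝒪 S₀ mI d) x =
        (MonoidAlgebra.single (piLev p S₀ n Qj hQp hM d) (1 : 𝒪) :
          MonoidAlgebra 𝒪 (Delta r p n)) • x) ∧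
      (∀ (d : (ZMod M)ˣ) z, Φχ (dQ M m p H 𝒪 S₀ mI d) z =
        ((xiLev 𝒪 p ζ T S₀ n Qj hQp hM d : (MonoidAlgebra 𝒪 (Delta r p n))ˣ) :
          MonoidAlgebra 𝒪 (Delta r p n)) • z) ∧
      (∀ (a : TQ M m p H 𝒪 S₀ mI) y z, Hs.q1 y = Hs.qχ z → Hs.q1 (Φ₁ a y) = Hs.qχ (Φχ a z)) ∧
      (∀ (k : J M p S₀) x, Hs.p0 (Φ₁ (tQ M m p H 𝒪 S₀ mI k) x) =
        (MvPolynomial.X (gLev p S₀ hNM k) : MvPolynomial (J N p S₀) 𝒪) • Hs.p0 x) ∧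
      ∀ (d : (ZMod M)ˣ) x, Hs.p0 (Φ₁ (dQ M m p H 𝒪 S₀ mI d) x) = Hs.p0 x := by
  classical
  -- the instances on `𝒪[Δ]`
  have : IsLocalRing (MonoidAlgebra 𝒪 (Delta r p n)) := isLocalRing_delta 𝒪 p r n hp𝒪
  have : IsLocalHom (augm 𝒪 (Delta r p n)).toRingHom := TwGroupRing.isLocalHom_augm 𝒪 _
  have : IsNoetherianRing (MonoidAlgebra 𝒪 (Delta r p n)) := isNoetherianRing_delta 𝒪 p r n
  have : IsAdicComplete (maximalIdeal (MonoidAlgebra 𝒪 (Delta r p n)))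
      (MonoidAlgebra 𝒪 (Delta r p n)) := isAdicComplete_delta 𝒪 p r n
  -- the list of the Taylor-Wiles primes
  have hQnd : (List.ofFn Qj).Nodup := List.nodup_ofFn.mpr hQinj
  have hML := level_eq Qj hM
  have hgoodL : ∀ j ∈ List.ofFn Qj,
      Fermat.Agent.S43.Hecke.Descent.Main.Good 𝒪 (fun j : J N p S₀ => (j.1 : ℕ)) θ α j := by
    intro j hj
    obtain ⟨i, rfl⟩ := (List.mem_ofFn' Qj j).mp hj
    exact hgood i
  -- the two characters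
  have h1π : xiOf 𝒪 (piLev p S₀ n Qj hQp hM) (-1) = 1 :=
    Fermat.Agent.S43.Hecke.BridgeSide.xiOf_eq_one_of_mem 𝒪 _ _ _
      (piTW_neg_one p n _ _ hQp _ hp2)
  have hΞ := xiChi_psi_sub_xiOf_mem (𝒪 := 𝒪) (piLev p S₀ n Qj hQp hM) ζ T (M := M) hp𝒪 hϖm hζ
  have h1' : xiLev 𝒪 p ζ T S₀ n Qj hQp hM (-1) = 1 :=
    xiChi_psi_neg_one (𝒪 := 𝒪) (piLev p S₀ n Qj hQp hM) ζ T hp2 hζ h1π
  have h2' := TwGroupRing.isUnit_ofNat 𝒪 (Delta r p n) 2 h2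
  have h3' := TwGroupRing.isUnit_ofNat 𝒪 (Delta r p n) 3 h3
  have reg := TwGroupRing.single_one_smul_eq_zero (𝒪 := 𝒪) (Δ := Delta r p n) hϖ0
  have hϖmem : ϖ ∈ maximalIdeal 𝒪 := by
    rw [hϖm]
    exact Ideal.subset_span rfl
  have hϖ' := TwGroupRing.single_one_mem_maximalIdeal (𝒪 := 𝒪) (Δ := Delta r p n) hϖmem
  -- the system of eigenvalues over `𝒪[Δ]`
  have hθRQ : ∀ j ∈ List.ofFn Qj, ResidueField.map (augm 𝒪 (Delta r p n)).toRingHom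
      (TwGroupRing.thetaR 𝒪 (Delta r p n)
        (fun j : J N p S₀ => if j ∈ List.ofFn Qj then α j else θ j) j) = α j := by
    intro j hj
    rw [TwGroupRing.map_thetaR, if_pos hj]
  have hθRn : ∀ j ∉ List.ofFn Qj, ResidueField.map (augm 𝒪 (Delta r p n)).toRingHom
      (TwGroupRing.thetaR 𝒪 (Delta r p n)
        (fun j : J N p S₀ => if j ∈ List.ofFn Qj then α j else θ j) j) = θ j := by
    intro j hj
    rw [TwGroupRing.map_thetaR, if_neg hj]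
  have hk₀Q : gLev p S₀ (dvd_level p S₀ (List.ofFn Qj) hML) k₀ ∉ List.ofFn Qj :=
    gLev_notMem p S₀ _ _ hML k₀
  -- the non-Eisenstein condition
  have hne : TwGroupRing.thetaR 𝒪 (Delta r p n)
      (fun j : J N p S₀ => if j ∈ List.ofFn Qj then α j else θ j)
        (gLev p S₀ (dvd_level p S₀ (List.ofFn Qj) hML) k₀) ≠
      residue (MonoidAlgebra 𝒪 (Delta r p n))
        (Hν (xiOf 𝒪 (piLev p S₀ n Qj hQp hM))
          (fLev N p S₀ M (gLev p S₀ (dvd_level p S₀ (List.ofFn Qj) hML) k₀))).deg := by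
    apply TwGroupRing.thetaR_ne_residue
    rw [if_neg hk₀Q, fLev_gLev, augm_deg_fJ]
    exact hne₀
  -- the arithmetic of the two characters
  have hN : ∀ i, ¬ ((Qj i).1 : ℕ) ∣ N := fun i =>
    (Nat.Prime.coprime_iff_not_dvd (Qj i).1.2).mp (Qj i).2.1
  have hQinj' : Function.Injective (fun i => ((Qj i).1 : ℕ)) := fun a b h =>
    hQinj (Subtype.ext (Subtype.ext h))
  have hπH : ∀ d ∈ H, piLev p S₀ n Qj hQp hM d = 1 := by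
    intro d hd
    obtain ⟨k, hk, hdk⟩ := exists_pow_eq_one_of_mem p H hHp d hd
    exact piTW_eq_one_of_pow_eq_one p n _ _ hQp _ hk hdk
  have hπ : Function.Surjective (piLev p S₀ n Qj hQp hM) :=
    piTW_surjective_at _ N _ p n hQp hM _ hQinj' hN
  have hΞ'H : ∀ d ∈ H, xiLev 𝒪 p ζ T S₀ n Qj hQp hM d = 1 := by
    intro d hd
    obtain ⟨k, hk, hdk⟩ := exists_pow_eq_one_of_mem p H hHp d hd
    apply Units.ext
    rw [coe_xiChi, hπH d hd, psi_eq_one_of_pow_eq_one ζ T hζ hk hdk]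
    rfl
  have hΞ's : ∀ δ : Delta r p n, ∃ d : (ZMod M)ˣ,
      ((xiLev 𝒪 p ζ T S₀ n Qj hQp hM d : (MonoidAlgebra 𝒪 (Delta r p n))ˣ) :
        MonoidAlgebra 𝒪 (Delta r p n)) = MonoidAlgebra.single δ (1 : 𝒪) :=
    exists_coe_xiChi_psi_eq_single_at _ N _ p n hQp hM _ 𝒪 hQinj' hN ζ T hTN
  -- the maximal ideal of the Tate side
  have hs : (MvPolynomial.X (Sum.inl k₀) - MvPolynomial.C (((1 + (k₀.1 : ℕ) : ℕ) : 𝒪)) :
      MvPolynomial (K M p S₀) 𝒪) ∉ mI :=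
    sub_C_notMem_of_hθK mI θK hθK (Sum.inl k₀) _ (by rw [hl]; exact hne₀)
  have h𝔪 : ∀ s : MvPolynomial (K M p S₀) 𝒪, s ∉ mI →
      PsiXi 𝒪 (xiOf 𝒪 (piLev p S₀ n Qj hQp hM)) (fJ M p S₀) (eJ M m p S₀)
        (gLev p S₀ (dvd_level p S₀ (List.ofFn Qj) hML)) s ∈
      Sθ (TwGroupRing.thetaR 𝒪 (Delta r p n)
        (fun j : J N p S₀ => if j ∈ List.ofFn Qj then α j else θ j)) := by
    refine h𝔪_xiOf 𝒪 _ _ _ _ _ mI θK hθK (fun k => ?_) hr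
    rw [hl, hθRn _ (gLev_notMem p S₀ _ _ hML k)]
  obtain ⟨Φ₁, Φχ, c1, c2, c3, c4, c5, c6, c7, c8, c9⟩ :=
    exists_Phi_level 𝒪 (Delta r p n) p S₀ θ α (List.ofFn Qj) hQnd hgoodL hML
      (piLev p S₀ n Qj hQp hM) (xiLev 𝒪 p ζ T S₀ n Qj hQp hM) hΞ h1π h1' h2' h3' reg _ hθRQ hθRn
      hϖ' _ hne m H hM5 hHp hHm hπH hπ hΞ'H hΞ's mI k₀ hk₀ hs h𝔪
  exact ⟨sideLev 𝒪 (Delta r p n) p S₀ θ α (List.ofFn Qj) hQnd hgoodL hML
      (piLev p S₀ n Qj hQp hM) (xiLev 𝒪 p ζ T S₀ n Qj hQp hM) hΞ h1π h1' h2' h3' reg _ hθRQ hθRn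
      hϖ' _ hne, Φ₁, Φχ, sideLev_smul_Mb 𝒪 (Delta r p n) p S₀ θ α (List.ofFn Qj) hQnd hgoodL hML
      (piLev p S₀ n Qj hQp hM) (xiLev 𝒪 p ζ T S₀ n Qj hQp hM) hΞ h1π h1' h2' h3' reg _ hθRQ hθRn
      hϖ' _ hne, c1, c2, c3, c4, c5, c6, c7, c8, c9⟩

end Main

end Fermat.Agent.S43.Assembly.HeckeLevel
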