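/-
PROJECT R (S43, row 37), ASSEMBLY, file `LevelHecke`: **THE HECKE SIDE OF ONE TAYLOR--WILES LEVEL**.

From the choices of SETUP and ONE Taylor--Wiles set `Qn : Fin r → ℕ` of depth `mT`, at the level
`M = N ∏ Qn i`, with `Δ = (ℤ/p^{mT+1})^r`, `π = TwGroup.piTW`, `Ξ' = xiChi O π (psi ζ T M)`,
`m = mLev M p`, `H = HLev M p` : a maximal ideal `𝔪` of `MvPolynomial (K M p S₀) O` over the system
of eigenvalues `θ`, the seam `Hs : HeckeSide …` over the level-zero module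
`M0 O pJ hpJ N θ`, and the two actions `Φ₁`, `Φχ` of the full Hecke algebra `TQ M m p H O S₀ 𝔪`
(`Hecke/BridgeSide.exists_Phi` on `Hecke/Main.heckeSideOf`), in the literal of
`RSide/FeedQ.nonempty_datumJ_Q'`.
-/
import Mathlib
import Fermat.Agent.S43.Assembly.LevelDefs
import Fermat.Agent.S43.Hecke.BridgeSide
import Fermat.Agent.S43.RSide.GoodTW
import Fermat.Agent.S43.RSide.FeedT
import Fermat.Agent.S43.Assembly.TwGroup
import Fermat.Agent.S43.Assembly.TwGroupRing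
import Fermat.Agent.S43.Assembly.TwSplit
import Fermat.Agent.S43.Assembly.ChiChar
import Fermat.Agent.S43.Rbar.NonEis
import Fermat.Agent.S43.Patch.GroupRingInv
import Fermat.Agent.S43.Hecke.BridgeLevel
import Fermat.Agent.S43.Hecke.BridgeMax
import Fermat.Agent.S43.Assembly.HeckeLevel

set_option autoImplicit false
set_option linter.unusedSectionVars false
set_option linter.style.haveILetI false

noncomputable section

namespace Fermat.Agent.S43.Assembly.LevelHecke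

open IsLocalRing
open Fermat.Agent.S43.Hecke.Seam
open Fermat.Agent.S43.Assembly.LevelDefs
open Fermat.Agent.S43.Assembly.TwGroup (Delta piTW)
open Fermat.Agent.S43.Assembly.ChiChar (psi xiChi)
open Fermat.Agent.S43.Rho.Zero.Inst (JZ)
open Fermat.Agent.S43.Rho.LamInst (J)
open Fermat.Agent.S43.Rho.LamInstD (K TQ tQ dQ LamQ)
open Fermat.Agent.S56.Main.Unpack (IsTWPrime)
open Fermat.Agent.S43.Hecke.Main (M0 t0)

local notation "Qbar" => AlgebraicClosure ℚ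
local notation "GQ" => (AlgebraicClosure ℚ ≃ₐ[ℚ] AlgebraicClosure ℚ)

attribute [local instance] HeckeSide.acg1 HeckeSide.acgχ HeckeSide.acgb HeckeSide.mod1
  HeckeSide.modχ HeckeSide.modb

/-- **THE HECKE SIDE OF ONE TAYLOR--WILES LEVEL.** -/
theorem exists_heckeSide
    -- the coefficient ring
    (p : ℕ) [Fact p.Prime] (hp2 : p ≠ 2)
    {O : Type} [CommRing O] [IsDomain O] [IsDiscreteValuationRing O]
    [IsAdicComplete (maximalIdeal O) O] [Finite (ResidueField O)] [CharZero O]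
    [Algebra ℤ_[p] O]
    (hpO : (p : O) ∈ maximalIdeal O) {ϖ : O} (hϖP : Prime ϖ)
    (hϖ : maximalIdeal O = Ideal.span {ϖ}) (h2 : IsUnit (2 : O)) (h3 : IsUnit (3 : O))
    (ζ : Oˣ) (hζp : ζ ^ p = 1)
    -- the residual representation
    (ρb : ResidualGaloisRep (ResidueField O)) (habs : ρb.IsAbsolutelyIrreducible)
    -- level zero
    (N : ℕ) [NeZero N] (S₀ : Finset ℕ) (θ : JZ N p S₀ → ResidueField O)
    (hθ : ∀ (j : JZ N p S₀) (A : ValuationSubring Qbar) (τ : GQ),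
      A.LiesOverPrime (pJ N p S₀ j) → A.IsFrobeniusAt τ (pJ N p S₀ j) →
      LinearMap.charpoly (ρb.ρ τ) = Polynomial.X ^ 2 - Polynomial.C (θ j) * Polynomial.X +
        Polynomial.C ((pJ N p S₀ j : ℕ) : ResidueField O))
    (hd : 0 < Module.finrank O (M0 O (pJ N p S₀) (hpJ N p S₀) N θ))
    -- the stuck primes (only through their product)
    (T : Finset ℕ) (hTN : ∏ ℓ ∈ T, ℓ ∣ N)
    -- the Taylor--Wiles level
    {r : ℕ} (mT : ℕ) (S : Finset ℕ) (Qn : Fin r → ℕ) (hQinj : Function.Injective Qn)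
    (hQTW : ∀ i, IsTWPrime p mT ρb S (Qn i))
    (hQp : ∀ i, (Qn i).Prime) (hQdvd : ∀ i, p ^ (mT + 1) ∣ Qn i - 1)
    (hQN : ∀ i, ¬ Qn i ∣ N) (hQne : ∀ i, Qn i ≠ p) (hQS₀ : ∀ i, Qn i ∉ S₀)
    {M : ℕ} [NeZero M] (hM : M = N * ∏ i, Qn i) (hQM : ∀ i, Qn i ∣ M) (hNM : N ∣ M)
    (hM5 : 5 ≤ M) :
    ∃ (𝔪 : Ideal (MvPolynomial (K M p S₀) O)) (_ : 𝔪.IsMaximal)
      (Hs : HeckeSide O ϖ (Delta r p (mT + 1)) (J M p S₀) (M0 O (pJ N p S₀) (hpJ N p S₀) N θ)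
        (t0 O (pJ N p S₀) (hpJ N p S₀) N θ (gJ hNM p S₀))
        (Module.finrank O (M0 O (pJ N p S₀) (hpJ N p S₀) N θ)))
      (Φ₁ : TQ M (mLev M p) p (HLev M p) O S₀ 𝔪 →+*
        Module.End (MonoidAlgebra O (Delta r p (mT + 1))) Hs.M1)
      (Φχ : TQ M (mLev M p) p (HLev M p) O S₀ 𝔪 →+*
        Module.End (MonoidAlgebra O (Delta r p (mT + 1))) Hs.Mχ),
      Nontrivial (LamQ M (mLev M p) p (HLev M p) O S₀ 𝔪) ∧
      (∀ k : J M p S₀, ∃ a : O, residue O a = θ (gJ hNM p S₀ k) ∧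
        (MvPolynomial.X (Sum.inl k) - MvPolynomial.C a : MvPolynomial (K M p S₀) O) ∈ 𝔪) ∧
      Finite Hs.Mb ∧
      (∀ y : Hs.Mb, (MonoidAlgebra.single (1 : Delta r p (mT + 1)) ϖ :
        MonoidAlgebra O (Delta r p (mT + 1))) • y = 0) ∧
      (∀ (a : O) (x : Hs.M1), Φ₁ (algebraMap O (TQ M (mLev M p) p (HLev M p) O S₀ 𝔪) a) x =
        (MonoidAlgebra.single (1 : Delta r p (mT + 1)) a :
          MonoidAlgebra O (Delta r p (mT + 1))) • x) ∧
      (∀ (a : O) (z : Hs.Mχ), Φχ (algebraMap O (TQ M (mLev M p) p (HLev M p) O S₀ 𝔪) a) z =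
        (MonoidAlgebra.single (1 : Delta r p (mT + 1)) a :
          MonoidAlgebra O (Delta r p (mT + 1))) • z) ∧
      (∀ (d : (ZMod M)ˣ) (x : Hs.M1), Φ₁ (dQ M (mLev M p) p (HLev M p) O S₀ 𝔪 d) x =
        (MonoidAlgebra.single (piTW p (mT + 1) Qn hQp hQdvd hQM d) (1 : O) :
          MonoidAlgebra O (Delta r p (mT + 1))) • x) ∧
      (∀ (d : (ZMod M)ˣ) (z : Hs.Mχ), Φχ (dQ M (mLev M p) p (HLev M p) O S₀ 𝔪 d) z =
        ((xiChi O (piTW p (mT + 1) Qn hQp hQdvd hQM) (psi ζ T M) d :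
          (MonoidAlgebra O (Delta r p (mT + 1)))ˣ) : MonoidAlgebra O (Delta r p (mT + 1))) • z) ∧
      (∀ (a : TQ M (mLev M p) p (HLev M p) O S₀ 𝔪) (y : Hs.M1) (z : Hs.Mχ),
        Hs.q1 y = Hs.qχ z → Hs.q1 (Φ₁ a y) = Hs.qχ (Φχ a z)) ∧
      (∀ (k : J M p S₀) (x : Hs.M1), Hs.p0 (Φ₁ (tQ M (mLev M p) p (HLev M p) O S₀ 𝔪 k) x) =
        t0 O (pJ N p S₀) (hpJ N p S₀) N θ (gJ hNM p S₀) k (Hs.p0 x)) := by
  classical
  have hϖ0 : ϖ ≠ 0 := hϖP.ne_zero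
  have hpk : ((p : ℕ) : ResidueField O) = 0 := by
    have h := (residue_eq_zero_iff (p : O)).mpr hpO
    rwa [map_natCast] at h
  -- the Taylor--Wiles primes as indices of level zero
  let Qj : Fin r → J N p S₀ := fun i =>
    ⟨⟨Qn i, hQp i⟩, (Nat.Prime.coprime_iff_not_dvd (hQp i)).mpr (hQN i), hQne i, hQS₀ i⟩
  have hQjinj : Function.Injective Qj := fun a b h =>
    hQinj (congrArg (fun j : J N p S₀ => ((j.1 : Nat.Primes) : ℕ)) h)
  have hQdvd' : ∀ i, p ^ (mT + 1) ∣ ((Qj i).1 : ℕ) - 1 := hQdvd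
  have hM' : M = N * ∏ i, ((Qj i).1 : ℕ) := hM
  -- the choice of one root of Frobenius at every Taylor--Wiles prime
  obtain ⟨α, hα⟩ := Fermat.Agent.S43.RSide.GoodTW.exists_alpha O
    (fun j : J N p S₀ => ((j.1 : Nat.Primes) : ℕ)) θ hpk ρb S (List.ofFn Qj)
    (fun j hj => by
      obtain ⟨i, rfl⟩ := (List.mem_ofFn' Qj j).mp hj
      exact hQTW i)
    (fun j _ A τ hA hτ => hθ j A τ hA hτ)
  have hgood : ∀ i, Fermat.Agent.S43.Hecke.Descent.Main.Good O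
      (fun j : J N p S₀ => ((j.1 : Nat.Primes) : ℕ)) θ α (Qj i) := fun i =>
    hα (Qj i) ((List.mem_ofFn' Qj (Qj i)).mpr ⟨i, rfl⟩)
  -- the non-Eisenstein prime
  obtain ⟨ℓ, hℓ, -, hℓS₀, hℓM, hℓne⟩ :=
    Fermat.Agent.S43.Rbar.NonEis.exists_nonEisenstein_prime_charpoly ρb habs M
      (S₀ ∪ (M * p).primeFactors)
      (fun ℓ => if h : ℓ.Prime ∧ ℓ.Coprime N ∧ ℓ ≠ p ∧ ℓ ∉ S₀ then
        θ ⟨⟨ℓ, h.1⟩, h.2⟩ else 0)
      (fun ℓ hℓ hℓS A hA τ hτ => by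
        have hS₀ : ℓ ∉ S₀ := fun h => hℓS (Finset.mem_union_left _ h)
        have hMp : ¬ ℓ ∣ M * p := fun h => hℓS (Finset.mem_union_right _
          (Nat.mem_primeFactors.mpr ⟨hℓ, h, Nat.mul_ne_zero (NeZero.ne M)
            (Fact.out : p.Prime).ne_zero⟩))
        have hℓN : ℓ.Coprime N := (Nat.Prime.coprime_iff_not_dvd hℓ).mpr fun h =>
          hMp (Dvd.dvd.mul_right (h.trans hNM) p)
        have hℓp : ℓ ≠ p := fun h => hMp (h ▸ Dvd.intro_left M rfl)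
        have hc : ℓ.Prime ∧ ℓ.Coprime N ∧ ℓ ≠ p ∧ ℓ ∉ S₀ := ⟨hℓ, hℓN, hℓp, hS₀⟩
        rw [dif_pos hc]
        exact hθ ⟨⟨ℓ, hℓ⟩, hℓN, hℓp, hS₀⟩ A τ hA hτ) ∅
  have hℓS₀' : ℓ ∉ S₀ := fun h => hℓS₀ (Finset.mem_union_left _ h)
  have hℓMp : ¬ ℓ ∣ M * p := fun h => hℓS₀ (Finset.mem_union_right _
    (Nat.mem_primeFactors.mpr ⟨hℓ, h, Nat.mul_ne_zero (NeZero.ne M)
      (Fact.out : p.Prime).ne_zero⟩))
  have hℓMc : ℓ.Coprime M := (Nat.Prime.coprime_iff_not_dvd hℓ).mpr fun h =>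
    hℓMp (Dvd.dvd.mul_right h p)
  have hℓp : ℓ ≠ p := fun h => hℓMp (h ▸ Dvd.intro_left M rfl)
  let k₀ : J M p S₀ := ⟨⟨ℓ, hℓ⟩, hℓMc, hℓp, hℓS₀'⟩
  have hk₀ : (((k₀.1 : ℕ) : ℕ) : ZMod M) = 1 := hℓM
  have hne₀ : θ (Fermat.Agent.S43.Hecke.BridgeLevel.gLev p S₀ hNM k₀) ≠
      residue O (((1 + (k₀.1 : ℕ) : ℕ) : O)) := by
    have hc : ℓ.Prime ∧ ℓ.Coprime N ∧ ℓ ≠ p ∧ ℓ ∉ S₀ :=
      ⟨hℓ, Nat.Coprime.coprime_dvd_right hNM hℓMc, hℓp, hℓS₀'⟩
    rw [dif_pos hc] at hℓne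
    intro h
    apply hℓne
    rw [map_natCast] at h
    rw [← Nat.cast_one (R := ResidueField O), ← Nat.cast_add]
    exact h
  -- the maximal ideal of the Tate side
  let θK : K M p S₀ → ResidueField O :=
    Sum.elim (fun k => θ (Fermat.Agent.S43.Hecke.BridgeLevel.gLev p S₀ hNM k)) (fun _ => 1)
  let ev : MvPolynomial (K M p S₀) O →+* ResidueField O :=
    MvPolynomial.eval₂Hom (residue O) θK
  have hev : Function.Surjective ev := fun y => by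
    obtain ⟨a, rfl⟩ := residue_surjective y
    exact ⟨MvPolynomial.C a, MvPolynomial.eval₂Hom_C _ _ a⟩
  have hmax : (RingHom.ker ev).IsMaximal := RingHom.ker_isMaximal_of_surjective ev hev
  have hθK : ∀ k, ∃ b : O, residue O b = θK k ∧
      (MvPolynomial.X k - MvPolynomial.C b : MvPolynomial (K M p S₀) O) ∈ RingHom.ker ev := by
    intro k
    obtain ⟨b, hb⟩ := residue_surjective (θK k)
    refine ⟨b, hb, ?_⟩
    rw [RingHom.mem_ker, map_sub]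
    show MvPolynomial.eval₂Hom (residue O) θK (MvPolynomial.X k) -
      MvPolynomial.eval₂Hom (residue O) θK (MvPolynomial.C b) = 0
    rw [MvPolynomial.eval₂Hom_X', MvPolynomial.eval₂Hom_C, hb, sub_self]
  -- the Hecke side
  obtain ⟨Hs, Φ₁, Φχ, c0, c1, c2, -, -, c5, c6, c7, c8, -⟩ :=
    Fermat.Agent.S43.Assembly.HeckeLevel.exists_heckeLevel O p hϖ0 hϖ hpO hp2 h2 h3 ζ hζp T hTN S₀
      (mT + 1) Qj hQjinj hQdvd' hM' θ α hgood hNM (mLev M p) (HLev M p) hM5 (hHp_lev M p)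
      (hHm_lev M p hp2) (RingHom.ker ev) θK hθK (fun _ => rfl) (fun _ => rfl) k₀ hk₀ hne₀
  -- the module of record is not zero
  have hnt : Nontrivial (LamQ M (mLev M p) p (HLev M p) O S₀ (RingHom.ker ev)) := by
    by_contra hcon
    rw [not_nontrivial_iff_subsingleton] at hcon
    have h10 : (1 : TQ M (mLev M p) p (HLev M p) O S₀ (RingHom.ker ev)) = 0 :=
      Subtype.ext (LinearMap.ext fun v => Subsingleton.elim _ _)
    have hM1 : Nontrivial Hs.M1 := Fermat.Agent.S43.RSide.FeedT.nontrivial_M1 Hs hd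
    obtain ⟨x, hx⟩ := exists_ne (0 : Hs.M1)
    apply hx
    have h := congrArg (fun a => Φ₁ a x) h10
    simpa using h
  -- the common reduction is finite
  have : Finite (Delta r p (mT + 1)) :=
    Fermat.Agent.S43.Assembly.TwGroupRing.finite (fun _ : Fin r => mT + 1)
      (MulEquiv.refl (Delta r p (mT + 1)))
  have : Finite (O ⧸ Ideal.span ({ϖ} : Set O)) :=
    Fermat.Agent.S43.Assembly.TwGroupRing.finite_quot hϖ
  have hfin : Finite Hs.Mb := Fermat.Agent.S43.RSide.FeedT.finite_Mb Hs c0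
  exact ⟨RingHom.ker ev, hmax, Hs, Φ₁, Φχ, hnt, fun k => hθK (Sum.inl k), hfin, c0, c1, c2, c5,
    c6, c7, c8⟩

end Fermat.Agent.S43.Assembly.LevelHecke

end
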